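import Fermat.Agent.TWPr.Sigma

/-!
# Residual conditions for Taylor–Wiles primes (general residual representations)
-/

set_option autoImplicit false
set_option maxHeartbeats 400000

noncomputable section

namespace Fermat.Agent.TWPr

open Matrix Fermat.Agent.DefRing Fermat.Agent.GalRep Fermat.Agent.S43Glue

local notation "Qbar" => AlgebraicClosure ℚ

/-- the twisted adjoint action -/
def ta (p : ℕ) [Fact p.Prime] {k : Type} [Field k] [Algebra (ZMod p) k]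
    (ρ : GQ →* Matrix (Fin 2) (Fin 2) k) (g : GQ) (X : Matrix (Fin 2) (Fin 2) k) :
    Matrix (Fin 2) (Fin 2) k :=
  chk p k g • (ρ g * X * ρ g⁻¹)

section

variable {k : Type} [Field k] {ρ : GQ →* Matrix (Fin 2) (Fin 2) k}

theorem rinv (g : GQ) : ρ g * ρ g⁻¹ = 1 := by
  rw [← map_mul, mul_inv_cancel, map_one]

theorem rinv' (g : GQ) : ρ g⁻¹ * ρ g = 1 := by
  rw [← map_mul, inv_mul_cancel, map_one]

theorem trace_conj (g : GQ) (X : Matrix (Fin 2) (Fin 2) k) :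
    (ρ g * X * ρ g⁻¹).trace = X.trace := by
  rw [Matrix.trace_mul_comm, ← mul_assoc, rinv', one_mul]

end

variable {p : ℕ} [hpf : Fact p.Prime] {k : Type} [Field k] [Algebra (ZMod p) k]
  {ρ : GQ →* Matrix (Fin 2) (Fin 2) k}

theorem ta_add (g : GQ) (X Y : Matrix (Fin 2) (Fin 2) k) :
    ta p ρ g (X + Y) = ta p ρ g X + ta p ρ g Y := by
  rw [ta, ta, ta, mul_add, add_mul, smul_add]

theorem ta_neg (g : GQ) (X : Matrix (Fin 2) (Fin 2) k) :
    ta p ρ g (-X) = -ta p ρ g X := by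
  rw [ta, ta, mul_neg, neg_mul, smul_neg]

theorem ta_sub (g : GQ) (X Y : Matrix (Fin 2) (Fin 2) k) :
    ta p ρ g (X - Y) = ta p ρ g X - ta p ρ g Y := by
  rw [sub_eq_add_neg, ta_add, ta_neg, ← sub_eq_add_neg]

theorem ta_smul (g : GQ) (a : k) (X : Matrix (Fin 2) (Fin 2) k) :
    ta p ρ g (a • X) = a • ta p ρ g X := by
  rw [ta, ta, Matrix.mul_smul, Matrix.smul_mul, smul_comm]

theorem ta_zero (g : GQ) : ta p ρ g 0 = 0 := by
  rw [ta, mul_zero, zero_mul, smul_zero]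

theorem ta_mul (g h : GQ) (X : Matrix (Fin 2) (Fin 2) k) :
    ta p ρ (g * h) X = ta p ρ g (ta p ρ h X) := by
  rw [ta, ta, ta, map_mul, map_mul, _root_.mul_inv_rev, map_mul, Matrix.mul_smul,
    Matrix.smul_mul, smul_smul]
  simp only [mul_assoc]

theorem ta_one (X : Matrix (Fin 2) (Fin 2) k) : ta p ρ 1 X = X := by
  rw [ta, inv_one, map_one, map_one, one_mul, mul_one, one_smul]

theorem trace_ta (g : GQ) (X : Matrix (Fin 2) (Fin 2) k) :
    (ta p ρ g X).trace = chk p k g * X.trace := by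
  rw [ta, Matrix.trace_smul, smul_eq_mul, trace_conj]

theorem chk_ne_zero (g : GQ) : chk p k g ≠ 0 := by
  intro h0
  have h4 : chk p k g * chk p k g⁻¹ = 1 := by rw [← map_mul, mul_inv_cancel, map_one]
  rw [h0, zero_mul] at h4
  exact zero_ne_one h4

/-- cocycles with values in the twisted adjoint representation -/
structure TwC (p : ℕ) [Fact p.Prime] {k : Type} [Field k] [Algebra (ZMod p) k]
    (ρ : GQ →* Matrix (Fin 2) (Fin 2) k) (c : GQ → Matrix (Fin 2) (Fin 2) k) : Prop where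
  mul : ∀ g h, c (g * h) = c g + ta p ρ g (c h)
  tr : ∀ g, (c g).trace = 0
  lev : FlatLoc.FinLev c 0

/-- being a coboundary -/
def TwB (p : ℕ) [Fact p.Prime] {k : Type} [Field k] [Algebra (ZMod p) k]
    (ρ : GQ →* Matrix (Fin 2) (Fin 2) k) (c : GQ → Matrix (Fin 2) (Fin 2) k) : Prop :=
  ∃ X : Matrix (Fin 2) (Fin 2) k, X.trace = 0 ∧ ∀ g, c g = ta p ρ g X - X

/-- **the residual conditions** -/
structure TWCond (p : ℕ) [Fact p.Prime] (k : Type) [Field k] [Algebra (ZMod p) k]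
    (ρ : GQ →* Matrix (Fin 2) (Fin 2) k) : Prop where
  p2 : p ≠ 2
  lev : FlatLoc.FinLev ρ 1
  det : ∀ g, (ρ g).det = chk p k g
  irr : ∀ X : Matrix (Fin 2) (Fin 2) k, X.trace = 0 → X ≠ 0 →
    ∃ g, ∀ a : k, ρ g * X * ρ g⁻¹ ≠ a • X
  reg : ∃ σ, cycP p σ = 1 ∧ ∃ α β : k, α ≠ β ∧ α * β = 1 ∧ (ρ σ).trace = α + β
  h1 : ∀ c, TwC p ρ c → (∀ g, ρ g = 1 → c g = 0) → TwB p ρ c

variable {c : GQ → Matrix (Fin 2) (Fin 2) k}

theorem TwC.one (hc : TwC p ρ c) : c 1 = 0 := by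
  have := hc.mul 1 1
  rw [mul_one, ta_one, left_eq_add] at this
  exact this

theorem TwC.inv (hc : TwC p ρ c) (g : GQ) : ta p ρ g (c g⁻¹) = - c g := by
  have h1 := hc.mul g g⁻¹
  rw [mul_inv_cancel, hc.one] at h1
  exact (neg_eq_of_add_eq_zero_right h1.symm).symm

theorem ta_triv {h : GQ} (h1 : ρ h = 1) (h2 : chk p k h = 1) (X : Matrix (Fin 2) (Fin 2) k) :
    ta p ρ h X = X := by
  have h3 : ρ h⁻¹ = 1 := by
    have := rinv (ρ := ρ) h
    rwa [h1, one_mul] at this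
  rw [ta, h1, h2, h3, one_mul, mul_one, one_smul]

theorem TwC.conj (hc : TwC p ρ c) {h : GQ} (h1 : ρ h = 1) (h2 : chk p k h = 1) (g : GQ) :
    c (g * h * g⁻¹) = ta p ρ g (c h) := by
  rw [hc.mul, hc.mul, ta_mul, ta_triv h1 h2, hc.inv, add_comm (c g), add_neg_cancel_right]

theorem rho_conj_one {h : GQ} (h1 : ρ h = 1) (g : GQ) : ρ (g * h * g⁻¹) = 1 := by
  rw [map_mul, map_mul, h1, mul_one, ← map_mul, mul_inv_cancel, map_one]

theorem cycP_conj (g h : GQ) : cycP p (g * h * g⁻¹) = cycP p h := by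
  rw [map_mul, map_mul, mul_right_comm, ← map_mul, mul_inv_cancel, map_one, one_mul]

/-- elements acting trivially on the module detect classes -/
theorem TWCond.exists_triv (H : TWCond p k ρ) (hc : TwC p ρ c) (hne : ¬ TwB p ρ c) :
    ∃ h, ρ h = 1 ∧ cycP p h = 1 ∧ c h ≠ 0 := by
  by_contra hcon
  push Not at hcon
  apply hne
  refine H.h1 c hc fun τ hτ => ?_
  by_contra hτ0
  have hchi : chk p k τ = 1 := by rw [← H.det, hτ, Matrix.det_one]
  obtain ⟨g, hg⟩ := H.irr (c τ) (hc.tr τ) hτ0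
  have hK : c (g * τ * g⁻¹ * τ⁻¹) = 0 := by
    apply hcon
    · rw [map_mul, rho_conj_one hτ, one_mul]
      have := rinv (ρ := ρ) τ
      rwa [hτ, one_mul] at this
    · exact map_comm (cycP p) g τ
  have hρK : ρ (g * τ * g⁻¹ * τ⁻¹) = 1 := by
    rw [map_mul, rho_conj_one hτ, one_mul]
    have := rinv (ρ := ρ) τ
    rwa [hτ, one_mul] at this
  have hcK : chk p k (g * τ * g⁻¹ * τ⁻¹) = 1 := by rw [← H.det, hρK, Matrix.det_one]
  have e1 : c (g * τ * g⁻¹) = c τ := by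
    conv_lhs => rw [show g * τ * g⁻¹ = (g * τ * g⁻¹ * τ⁻¹) * τ by group]
    rw [hc.mul, hK, ta_triv hρK hcK, zero_add]
  rw [hc.conj hτ hchi] at e1
  apply hg (chk p k g)⁻¹
  rw [ta] at e1
  calc ρ g * c τ * ρ g⁻¹ = (chk p k g)⁻¹ • (chk p k g • (ρ g * c τ * ρ g⁻¹)) :=
        (inv_smul_smul₀ (chk_ne_zero g) _).symm
    _ = _ := by rw [e1]

theorem exists_smul_of_minors {n Y : Matrix (Fin 2) (Fin 2) k} (hn : n ≠ 0)
    (h : ∀ i j i' j', n i j * Y i' j' = n i' j' * Y i j) : ∃ a : k, Y = a • n := by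
  have h1 : ∃ i j, n i j ≠ 0 := by
    by_contra hcon
    push Not at hcon
    exact hn (by ext i j; exact hcon i j)
  obtain ⟨i, j, hij⟩ := h1
  refine ⟨Y i j / n i j, ?_⟩
  ext i' j'
  rw [Matrix.smul_apply, smul_eq_mul, div_mul_eq_mul_div, eq_div_iff hij]
  linear_combination h i j i' j'

/-- two matrices orthogonal to two independent ones are dependent -/
theorem exists_smul_of_orth (h2 : (2 : k) ≠ 0) {X X' Y Y' : Matrix (Fin 2) (Fin 2) k}
    (hX : X.trace = 0) (hX' : X'.trace = 0) (hY : Y.trace = 0) (hY' : Y'.trace = 0)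
    (h1 : (X * Y).trace = 0) (h3 : (X' * Y).trace = 0) (h4 : (X * Y').trace = 0)
    (h5 : (X' * Y').trace = 0) (hX0 : X ≠ 0) (hY0 : Y ≠ 0) :
    (∃ a : k, X' = a • X) ∨ ∃ a : k, Y' = a • Y := by
  rw [Matrix.trace_fin_two] at hX hX' hY hY'
  rw [Matrix.trace_fin_two, Matrix.mul_apply, Matrix.mul_apply, Fin.sum_univ_two,
    Fin.sum_univ_two] at h1 h3 h4 h5
  have hX2 : X 1 1 = - X 0 0 := by linear_combination hX
  have hX2' : X' 1 1 = - X' 0 0 := by linear_combination hX'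
  have hY2 : Y 1 1 = - Y 0 0 := by linear_combination hY
  have hY2' : Y' 1 1 = - Y' 0 0 := by linear_combination hY'
  rw [hX2, hY2] at h1
  rw [hX2', hY2] at h3
  rw [hX2, hY2'] at h4
  rw [hX2', hY2'] at h5
  set n : Matrix (Fin 2) (Fin 2) k :=
    !![X 1 0 * X' 0 1 - X 0 1 * X' 1 0, 2 * (X 0 1 * X' 0 0 - X 0 0 * X' 0 1);
      2 * (X 0 0 * X' 1 0 - X' 0 0 * X 1 0), -(X 1 0 * X' 0 1 - X 0 1 * X' 1 0)] with hn
  by_cases hn0 : n = 0
  · left
    apply exists_smul_of_minors hX0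
    have e1 := congrFun (congrFun hn0 0) 0
    have e2 := congrFun (congrFun hn0 0) 1
    have e3 := congrFun (congrFun hn0 1) 0
    simp only [hn, Matrix.of_apply, Matrix.cons_val', Matrix.cons_val_zero, Matrix.cons_val_one,
      Matrix.cons_val_fin_one, Matrix.zero_apply, Fin.isValue, mul_eq_zero, h2, false_or]
      at e1 e2 e3
    intro i j i' j'
    fin_cases i <;> fin_cases j <;> fin_cases i' <;> fin_cases j' <;>
      simp only [Fin.zero_eta, Fin.mk_one, Fin.isValue, hX2, hX2'] <;>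
      first | ring1 | linear_combination e1 | linear_combination -e1 | linear_combination e2 |
        linear_combination -e2 | linear_combination e3 | linear_combination -e3
  · right
    have key : ∀ Z : Matrix (Fin 2) (Fin 2) k, Z 1 1 = - Z 0 0 →
        X 0 0 * Z 0 0 + X 0 1 * Z 1 0 + (X 1 0 * Z 0 1 + -X 0 0 * -Z 0 0) = 0 →
        X' 0 0 * Z 0 0 + X' 0 1 * Z 1 0 + (X' 1 0 * Z 0 1 + -X' 0 0 * -Z 0 0) = 0 →
        ∃ a : k, Z = a • n := by
      intro Z hZ z1 z2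
      apply exists_smul_of_minors hn0
      intro i j i' j'
      fin_cases i <;> fin_cases j <;> fin_cases i' <;> fin_cases j' <;>
        simp only [hn, Fin.zero_eta, Fin.mk_one, Fin.isValue, hZ, Matrix.of_apply,
          Matrix.cons_val', Matrix.cons_val_zero, Matrix.cons_val_one,
          Matrix.cons_val_fin_one] <;>
      first | ring1 | linear_combination X 0 1 * z2 - X' 0 1 * z1 |
        linear_combination X' 0 1 * z1 - X 0 1 * z2 |
        linear_combination X 1 0 * z2 - X' 1 0 * z1 |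
        linear_combination X' 1 0 * z1 - X 1 0 * z2 |
        linear_combination 2 * X 0 0 * z2 - 2 * X' 0 0 * z1 |
        linear_combination 2 * X' 0 0 * z1 - 2 * X 0 0 * z2
    obtain ⟨a, ha⟩ := key Y hY2 h1 h3
    obtain ⟨b, hb⟩ := key Y' hY2' h4 h5
    have ha0 : a ≠ 0 := by
      rintro rfl
      exact hY0 (by rw [ha, zero_smul])
    refine ⟨b * a⁻¹, ?_⟩
    rw [hb, ha, smul_smul, mul_assoc, inv_mul_cancel₀ ha0, mul_one]

theorem TWCond.two_ne (H : TWCond p k ρ) : (2 : k) ≠ 0 := by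
  have h1 : (2 : ZMod p) ≠ 0 := by
    intro h
    have h2 : ((2 : ℕ) : ZMod p) = 0 := by exact_mod_cast h
    rw [ZMod.natCast_eq_zero_iff] at h2
    exact H.p2 ((Nat.prime_dvd_prime_iff_eq hpf.out Nat.prime_two).mp h2)
  rw [← map_ofNat (algebraMap (ZMod p) k) 2]
  exact (map_ne_zero _).mpr h1

/-- conjugates detect trace zero matrices -/
theorem TWCond.exists_conj_ne (H : TWCond p k ρ) {X Y : Matrix (Fin 2) (Fin 2) k}
    (hX : X.trace = 0) (hX0 : X ≠ 0) (hY : ∀ a : k, Y ≠ a • (1 : Matrix (Fin 2) (Fin 2) k)) :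
    ∃ g : GQ, (ta p ρ g X * Y).trace ≠ 0 := by
  by_contra hcon
  push Not at hcon
  set Y₀ := Y - (Y.trace / 2) • (1 : Matrix (Fin 2) (Fin 2) k) with hY₀
  have h2 := H.two_ne
  have ht : Y₀.trace = 0 := by
    rw [hY₀, Matrix.trace_sub, Matrix.trace_smul, Matrix.trace_one, Fintype.card_fin, smul_eq_mul]
    push_cast
    field_simp
    ring
  have hY0 : Y₀ ≠ 0 := by
    intro h0
    rw [hY₀, sub_eq_zero] at h0
    exact hY _ h0
  have horth : ∀ g : GQ, (ρ g * X * ρ g⁻¹ * Y₀).trace = 0 := by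
    intro g
    have h3 := hcon g
    rw [ta, Matrix.smul_mul, Matrix.trace_smul, smul_eq_mul, mul_eq_zero] at h3
    have h4 := h3.resolve_left (chk_ne_zero g)
    rw [hY₀, mul_sub, Matrix.trace_sub, h4, Matrix.mul_smul, mul_one, Matrix.trace_smul,
      trace_conj, hX, smul_zero, sub_zero]
  have horth2 : ∀ g g' : GQ, (ρ g * X * ρ g⁻¹ * (ρ g' * Y₀ * ρ g'⁻¹)).trace = 0 := by
    intro g g'
    have h3 := horth (g'⁻¹ * g)
    rw [_root_.mul_inv_rev, inv_inv, map_mul, map_mul] at h3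
    rw [show ρ g * X * ρ g⁻¹ * (ρ g' * Y₀ * ρ g'⁻¹) = (ρ g * X * ρ g⁻¹ * ρ g' * Y₀) * ρ g'⁻¹ by
      simp only [mul_assoc], Matrix.trace_mul_comm]
    rw [← h3]
    congr 1
    simp only [mul_assoc]
  obtain ⟨g, hg⟩ := H.irr X hX hX0
  obtain ⟨g', hg'⟩ := H.irr Y₀ ht hY0
  have h10 : (X * Y₀).trace = 0 := by
    have := horth 1
    rwa [inv_one, map_one, one_mul, mul_one] at this
  have h01 : (X * (ρ g' * Y₀ * ρ g'⁻¹)).trace = 0 := by
    have := horth2 1 g'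
    rwa [inv_one, map_one, one_mul, mul_one] at this
  rcases exists_smul_of_orth h2 hX (X' := ρ g * X * ρ g⁻¹) (by rw [trace_conj, hX]) ht
    (Y' := ρ g' * Y₀ * ρ g'⁻¹) (by rw [trace_conj, ht]) h10 (horth g) h01 (horth2 g g') hX0 hY0 with
    ⟨a, ha⟩ | ⟨a, ha⟩
  · exact hg a ha
  · exact hg' a ha

/-- **elements detecting a nonzero class** -/
theorem TWCond.exists_sigma (H : TWCond p k ρ) (hc : TwC p ρ c) (hne : ¬ TwB p ρ c) {σ₀ : GQ}
    (hσ₀ : cycP p σ₀ = 1) (hns : ∀ a : k, ρ σ₀ ≠ a • (1 : Matrix (Fin 2) (Fin 2) k)) :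
    ∃ σ : GQ, cycP p σ = 1 ∧ ρ σ = ρ σ₀ ∧ (c σ * ρ σ).trace ≠ 0 := by
  obtain ⟨h, hh1, hh2, hch⟩ := H.exists_triv hc hne
  obtain ⟨g, hg⟩ := H.exists_conj_ne (hc.tr h) hch hns
  have hchi : ∀ {x : GQ}, cycP p x = 1 → chk p k x = 1 := fun hx => chk_of_cycP hx
  by_cases h0 : (c σ₀ * ρ σ₀).trace = 0
  · have hr : ρ (σ₀ * (g * h * g⁻¹)) = ρ σ₀ := by
      rw [map_mul, rho_conj_one hh1, mul_one]
    refine ⟨σ₀ * (g * h * g⁻¹), ?_, hr, ?_⟩
    · rw [map_mul, hσ₀, cycP_conj, hh2, one_mul]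
    · rw [hr, hc.mul, hc.conj hh1 (hchi hh2), add_mul, Matrix.trace_add, h0, zero_add]
      have h3 : ta p ρ σ₀ (ta p ρ g (c h)) = ρ σ₀ * ta p ρ g (c h) * ρ σ₀⁻¹ := by
        rw [ta, hchi hσ₀, one_smul]
      rw [h3, mul_assoc, rinv', mul_one, Matrix.trace_mul_comm]
      exact hg
  · exact ⟨σ₀, hσ₀, rfl, h0⟩

end Fermat.Agent.TWPr
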