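import Fermat.Agent.TWPr.Cond

/-!
# The residual conditions for Frey-like representations
-/

set_option autoImplicit false
set_option maxHeartbeats 400000

noncomputable section

namespace Fermat.Agent.TWPr

open Matrix Fermat.Agent.DefRing Fermat.Agent.GalRep Fermat.Agent.S43Glue

local notation "Qbar" => AlgebraicClosure ℚ

variable {p : ℕ} [hpf : Fact p.Prime] {k : Type} [Field k] [Algebra (ZMod p) k]
  {ρ : GQ →* Matrix (Fin 2) (Fin 2) (ZMod p)}

theorem rk_of (a b c d : ZMod p) {g : GQ} (hg : ρ g = !![a, b; c, d]) :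
    FlatLoc.rk k ρ g = !![algebraMap (ZMod p) k a, algebraMap (ZMod p) k b;
      algebraMap (ZMod p) k c, algebraMap (ZMod p) k d] := by
  change (algebraMap (ZMod p) k).mapMatrix (ρ g) = _
  rw [hg]
  ext i j
  rw [RingHom.mapMatrix_apply, Matrix.map_apply]
  fin_cases i <;> fin_cases j <;> rfl

theorem rho_one_of_rk {g : GQ} (h : FlatLoc.rk k ρ g = 1) : ρ g = 1 := by
  have hinj : Function.Injective (algebraMap (ZMod p) k) := (algebraMap (ZMod p) k).injective
  ext i j
  apply hinj
  have h1 := congrFun (congrFun h i) j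
  change algebraMap (ZMod p) k (ρ g i j) = _ at h1
  rw [h1, Matrix.one_apply, Matrix.one_apply]
  split_ifs
  · rw [map_one]
  · rw [map_zero]

theorem det_rk (g : GQ) : (FlatLoc.rk k ρ g).det = algebraMap (ZMod p) k (ρ g).det := by
  change ((algebraMap (ZMod p) k).mapMatrix (ρ g)).det = _
  rw [RingHom.map_det]

theorem twCond_frey (hρ : FreyLike p ρ) (hp5 : 5 ≤ p) : TWCond p k (FlatLoc.rk k ρ) where
  p2 := by omega
  lev := by
    obtain ⟨L, hL, h⟩ := hρ.level
    refine ⟨L, hL, fun σ hσ => ?_⟩
    change (algebraMap (ZMod p) k).mapMatrix (ρ σ) = 1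
    rw [h σ hσ, map_one]
  det g := by
    rw [det_rk, hρ.det]
    rfl
  irr X hX hX0 := by
    by_contra hcon
    push Not at hcon
    have h2 : (2 : k) ≠ 0 := by
      have := natCast_ne' (k := k) hp5 (m := 2) (by norm_num) (by norm_num)
      exact_mod_cast this
    rw [Matrix.trace_fin_two] at hX
    have hX1 : X 1 1 = - X 0 0 := by linear_combination hX
    obtain ⟨g, hg⟩ := exists_of_det_one hρ !![1, 1; 0, 1] (by
      rw [Matrix.det_fin_two_of]; ring)
    obtain ⟨g', hg'⟩ := exists_of_det_one hρ !![1, 0; 1, 1] (by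
      rw [Matrix.det_fin_two_of]; ring)
    have e1 := rk_of (k := k) 1 1 0 1 hg
    have e2 := rk_of (k := k) 1 0 1 1 hg'
    simp only [map_one, map_zero] at e1 e2
    obtain ⟨a, ha⟩ := hcon g
    obtain ⟨b, hb⟩ := hcon g'
    have ha' : FlatLoc.rk k ρ g * X = a • (X * FlatLoc.rk k ρ g) := by
      rw [← Matrix.smul_mul, ← ha, mul_assoc, rinv' g, mul_one]
    have hb' : FlatLoc.rk k ρ g' * X = b • (X * FlatLoc.rk k ρ g') := by
      rw [← Matrix.smul_mul, ← hb, mul_assoc, rinv' g', mul_one]
    rw [e1] at ha'
    rw [e2] at hb'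
    have a00 := congrFun (congrFun ha' 0) 0
    have a01 := congrFun (congrFun ha' 0) 1
    have a10 := congrFun (congrFun ha' 1) 0
    have a11 := congrFun (congrFun ha' 1) 1
    have b00 := congrFun (congrFun hb' 0) 0
    have b01 := congrFun (congrFun hb' 0) 1
    have b10 := congrFun (congrFun hb' 1) 0
    simp only [Matrix.mul_apply, Fin.sum_univ_two, Matrix.of_apply, Matrix.cons_val',
      Matrix.cons_val_zero, Matrix.cons_val_one, Matrix.cons_val_fin_one, Fin.isValue, zero_mul,
      one_mul, zero_add, add_zero, mul_one, mul_zero, Matrix.smul_apply, smul_eq_mul, hX1]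
      at a00 a01 a10 a11 b00 b01 b10
    have h10 : X 1 0 = 0 := by
      by_contra h10
      have h1a : a = 1 := by
        apply mul_right_cancel₀ h10
        linear_combination -a10
      rw [h1a] at a00
      exact h10 (by linear_combination a00)
    have h00 : X 0 0 = 0 := by
      by_contra h00
      have h1a : a = 1 := by
        apply mul_right_cancel₀ h00
        linear_combination -a00 + h10
      rw [h1a] at a01
      have : (2 : k) * X 0 0 = 0 := by linear_combination -a01
      exact h00 ((mul_eq_zero.mp this).resolve_left h2)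
    have h01 : X 0 1 = 0 := by
      by_contra h01
      have h1b : b = 1 := by
        apply mul_right_cancel₀ h01
        linear_combination -b01
      rw [h1b, h00] at b00
      exact h01 (by linear_combination -b00)
    apply hX0
    ext i j
    fin_cases i <;> fin_cases j
    · exact h00
    · exact h01
    · exact h10
    · rw [Matrix.zero_apply]
      change X 1 1 = 0
      rw [hX1, h00, neg_zero]
  reg := by
    obtain ⟨σ, h1, h2⟩ := exists_DD hρ hp5
    have h2k : (2 : k) ≠ 0 := by
      have := natCast_ne' (k := k) hp5 (m := 2) (by norm_num) (by norm_num)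
      exact_mod_cast this
    have h3k : (3 : k) ≠ 0 := by
      have := natCast_ne' (k := k) hp5 (m := 3) (by norm_num) (by norm_num)
      exact_mod_cast this
    refine ⟨σ, h1, 2, 2⁻¹, ?_, mul_inv_cancel₀ h2k, ?_⟩
    · intro h
      apply h3k
      have h4 : (2 : k) * 2 = 1 := by
        nth_rewrite 2 [h]
        exact mul_inv_cancel₀ h2k
      linear_combination h4
    · rw [DD] at h2
      rw [rk_of (k := k) 2 0 0 2⁻¹ h2, Matrix.trace_fin_two_of, map_inv₀, map_ofNat]
  h1 c hc h0 := by
    by_contra hne
    obtain ⟨h, hh, hch⟩ := exists_triv (k := k) (c := c) hρ hp5 ⟨hc.mul, hc.tr, hc.lev⟩ hne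
    apply hch
    apply h0
    change (algebraMap (ZMod p) k).mapMatrix (ρ h) = 1
    rw [hh.1, map_one]

end Fermat.Agent.TWPr
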