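import Fermat.Agent.TWPr.Mod
import Fermat.Agent.CFT.PT9
import Fermat.Agent.TWGal.Tame
import Fermat.Agent.TWGal.TameInertia

set_option autoImplicit false
set_option maxHeartbeats 400000

/-! Local cocycles of the adjoint representation at primes `q ≡ 1` with distinct Frobenius
eigenvalues. -/

noncomputable section

namespace Fermat.Agent.TWPr

open Matrix Fermat.Agent.DefRing Fermat.Agent.GalRep Fermat.Agent.TWGal Fermat.Agent.CFTSec
  Fermat.Agent.TWLocal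
open Fermat.Agent.CFT hiding GQ

local notation "Qbar" => AlgebraicClosure ℚ

section tame

variable {A : ValuationSubring Qbar} {p q : ℕ}

/-- the tame relation -/
theorem conj_frob_inertia (hq : q.Prime) (hA : A.LiesOverPrime q) (hp : p.Prime) (hpq : p ≠ q)
    {P : Type*} [Group P] (ρ : A.inertiaSubgroupIn ℚ →* P)
    (K : IntermediateField ℚ Qbar) [FiniteDimensional ℚ K]
    (hK : ∀ σ : A.inertiaSubgroupIn ℚ, (∀ x ∈ K, (σ : GQ) x = x) → ρ σ = 1)
    (hpp : ∀ σ, ∃ k : ℕ, ρ σ ^ (p ^ k) = 1)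
    {φ σ₀ : GQ} (hφ : A.IsFrobeniusAt φ q) (hσI : σ₀ ∈ A.inertiaSubgroupIn ℚ)
    (hσ₀ : ∀ π : Qbar, π ^ p = q → σ₀ π ≠ π) :
    ρ ⟨φ * σ₀ * φ⁻¹, conj_mem_inertia' hφ.mem_decompositionSubgroup hσI⟩ = ρ ⟨σ₀, hσI⟩ ^ q := by
  have hq0 : (q : Qbar) ≠ 0 := by exact_mod_cast hq.ne_zero
  have hqp : ∀ s : ℕ, ¬ q ∣ p ^ s := fun s h =>
    hpq ((Nat.prime_dvd_prime_iff_eq hq hp).mp (hq.dvd_of_dvd_pow h)).symm
  obtain ⟨k, hk⟩ := hpp ⟨σ₀, hσI⟩
  obtain ⟨ϖ, hϖ⟩ := IsAlgClosed.exists_pow_nat_eq (q : Qbar) (pow_pos hp.pos (k + 1))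
  have hϖ0 := root_ne_zero hq (pow_ne_zero _ hp.ne_zero) hϖ
  have hσϖ0 : ∀ σ : GQ, σ ϖ / ϖ ≠ 0 := fun σ =>
    div_ne_zero (by rwa [Ne, map_eq_zero_iff σ σ.injective]) hϖ0
  have hη := fun σ : GQ => div_self_pow hq hϖ σ
  have hfix : ∀ (τ : A.inertiaSubgroupIn ℚ) (z : Qbar), z ^ (p ^ (k + 1)) = 1 →
      (τ : GQ) z = z := fun τ z hz =>
    inertia_rootOfUnity hq hA τ.2 (m := p ^ (k + 1)) (hqp _) hz
  let κ : A.inertiaSubgroupIn ℚ →* Qbarˣ :=
    { toFun := fun σ => Units.mk0 ((σ : GQ) ϖ / ϖ) (hσϖ0 _)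
      map_one' := by
        apply Units.ext
        show (1 : GQ) ϖ / ϖ = 1
        rw [AlgEquiv.one_apply, div_self hϖ0]
      map_mul' := fun σ τ => by
        apply Units.ext
        show ((σ : GQ) * (τ : GQ)) ϖ / ϖ = ((σ : GQ) ϖ / ϖ) * ((τ : GQ) ϖ / ϖ)
        have h1 := hfix σ ((τ : GQ) ϖ / ϖ) (hη _)
        rw [map_div₀] at h1
        rw [AlgEquiv.mul_apply, ← h1]
        have h2 : (σ : GQ) ϖ ≠ 0 := by rwa [Ne, map_eq_zero_iff _ (σ : GQ).injective]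
        field_simp }
  have hκ : ∀ σ, ((κ σ : Qbarˣ) : Qbar) = (σ : GQ) ϖ / ϖ := fun _ => rfl
  let pr : A.inertiaSubgroupIn ℚ →* P × Qbarˣ :=
    ρ.prod κ
  have hint : IsIntegral ℚ ϖ := Algebra.IsIntegral.isIntegral ϖ
  haveI : FiniteDimensional ℚ (IntermediateField.adjoin ℚ {ϖ}) :=
    IntermediateField.adjoin.finiteDimensional hint
  let σ₁ : A.inertiaSubgroupIn ℚ := ⟨σ₀, hσI⟩
  let σ₂ : A.inertiaSubgroupIn ℚ :=
    ⟨φ * σ₀ * φ⁻¹, conj_mem_inertia' hφ.mem_decompositionSubgroup hσI⟩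
  obtain ⟨j, hj⟩ := mem_zpowers_inertia hq hA hp hpq pr (K ⊔ IntermediateField.adjoin ℚ {ϖ})
    (fun σ hσ => by
      refine Prod.ext ?_ ?_
      · exact hK σ fun x hx => hσ x (le_sup_left (a := K) hx)
      · apply Units.ext
        show (σ : GQ) ϖ / ϖ = 1
        rw [hσ ϖ (le_sup_right (a := K) (IntermediateField.mem_adjoin_simple_self ℚ ϖ)),
          div_self hϖ0])
    (fun σ => by
      obtain ⟨m, hm⟩ := hpp σ
      refine ⟨m + (k + 1), Prod.ext ?_ ?_⟩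
      · show ρ σ ^ p ^ (m + (k + 1)) = 1
        rw [pow_add, pow_mul, hm, one_pow]
      · apply Units.ext
        show ((κ σ ^ p ^ (m + (k + 1)) : Qbarˣ) : Qbar) = 1
        rw [Units.val_pow_eq_pow_val, hκ, pow_add, mul_comm, pow_mul, hη, one_pow])
    (σ₀ := σ₁) hσ₀ σ₂
  have hj' : pr σ₁ ^ j = pr σ₂ := hj
  have hj1 : ρ σ₁ ^ j = ρ σ₂ := congrArg Prod.fst hj'
  have hj2 : (σ₀ ϖ / ϖ) ^ j = (φ * σ₀ * φ⁻¹) ϖ / ϖ := by
    have h1 := congrArg (fun z : P × Qbarˣ => ((z.2 : Qbarˣ) : Qbar)) hj'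
    have h2 : ((κ σ₁ ^ j : Qbarˣ) : Qbar) = ((κ σ₂ : Qbarˣ) : Qbar) := h1
    rw [Units.val_zpow_eq_zpow_val] at h2
    exact h2
  -- the Kummer character of the conjugate
  have hfrob : φ (σ₀ ϖ / ϖ) = (σ₀ ϖ / ϖ) ^ q :=
    frob_rootOfUnity hq hA hφ (m := p ^ (k + 1)) (hqp _) (hη σ₀)
  have hconj : (φ * σ₀ * φ⁻¹) ϖ / ϖ = (σ₀ ϖ / ϖ) ^ q := by
    rw [AlgEquiv.mul_apply, AlgEquiv.mul_apply]
    set η := φ⁻¹ ϖ / ϖ with hηdef
    have e1 : φ⁻¹ ϖ = η * ϖ := by rw [hηdef, div_mul_cancel₀ _ hϖ0]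
    have e2 : σ₀ η = η := hfix σ₁ η (hη _)
    have e3 : σ₀ ϖ = (σ₀ ϖ / ϖ) * ϖ := by rw [div_mul_cancel₀ _ hϖ0]
    have e4 : φ (φ⁻¹ ϖ) = ϖ := by
      rw [← AlgEquiv.mul_apply, mul_inv_cancel, AlgEquiv.one_apply]
    have e5 : φ (σ₀ (φ⁻¹ ϖ)) = φ (σ₀ ϖ / ϖ) * ϖ := by
      rw [e1, map_mul, e2, e3, ← mul_assoc, mul_comm η, mul_assoc, ← e1, map_mul, e4,
        div_mul_cancel₀ _ hϖ0]
    rw [e5, hfrob, mul_div_cancel_right₀ _ hϖ0]
  rw [hconj] at hj2
  -- the order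
  haveI : Fact p.Prime := ⟨hp⟩
  have hne : (σ₀ ϖ / ϖ) ^ (p ^ k) ≠ 1 := by
    have hπ : (ϖ ^ p ^ k) ^ p = (q : Qbar) := by rw [← pow_mul, ← pow_succ, hϖ]
    intro h
    rw [div_pow, ← map_pow] at h
    exact hσ₀ _ hπ ((div_eq_one_iff_eq (root_ne_zero hq hp.ne_zero hπ)).mp h)
  have hord := orderOf_eq_prime_pow hne (hη σ₀)
  have h5 : (σ₀ ϖ / ϖ) ^ (j - q) = 1 := by
    rw [zpow_sub₀ (hσϖ0 σ₀), hj2, zpow_natCast, div_self (pow_ne_zero _ (hσϖ0 σ₀))]
  have h6 := ((IsPrimitiveRoot.orderOf (σ₀ ϖ / ϖ)).zpow_eq_one_iff_dvd _).mp h5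
  rw [hord] at h6
  change ρ σ₂ = ρ σ₁ ^ q
  rw [← hj1, ← zpow_natCast (ρ σ₁) q]
  exact zpow_mod_of_pow_eq_one (p := p ^ (k + 1)) (by rw [pow_succ, pow_mul, hk, one_pow]) h6


end tame

section alg

variable {k : Type} [Field k]

/-- a trace zero matrix commuting with a regular matrix `R` and trace-orthogonal to it is zero -/
theorem eq_zero_of_comm {X R : Matrix (Fin 2) (Fin 2) k} {α β : k} (hne : α ≠ β)
    (hdet : R.det = α * β) (htr : R.trace = α + β) (hX : X.trace = 0) (hc : X * R = R * X)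
    (h0 : (X * R).trace = 0) : X = 0 := by
  rw [Matrix.det_fin_two] at hdet
  rw [Matrix.trace_fin_two] at htr hX h0
  have e00 := congrFun (congrFun hc 0) 0
  have e01 := congrFun (congrFun hc 0) 1
  have e10 := congrFun (congrFun hc 1) 0
  simp only [Matrix.mul_apply, Fin.sum_univ_two] at e00 e01 e10 h0
  have hD : (R 0 0 - R 1 1) ^ 2 + 4 * (R 0 1 * R 1 0) ≠ 0 := by
    have : (R 0 0 - R 1 1) ^ 2 + 4 * (R 0 1 * R 1 0) = (α - β) ^ 2 := by
      linear_combination (R 0 0 + R 1 1 + (α + β)) * htr - 4 * hdet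
    rw [this]
    exact pow_ne_zero 2 (sub_ne_zero.mpr hne)
  have hx1 : X 1 1 = - X 0 0 := by linear_combination hX
  rw [hx1] at e10 h0
  have hyz : X 0 1 * R 1 0 = X 1 0 * R 0 1 := by linear_combination e00
  have hb : 2 * X 0 0 * R 0 1 = X 0 1 * (R 0 0 - R 1 1) := by
    linear_combination e01 + R 0 1 * hx1
  have hc' : 2 * X 0 0 * R 1 0 = X 1 0 * (R 0 0 - R 1 1) := by linear_combination -e10
  have hx : X 0 0 = 0 := by
    have h1 : ((R 0 0 - R 1 1) ^ 2 + 4 * (R 0 1 * R 1 0)) * X 0 0 = 0 := by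
      linear_combination (R 0 0 - R 1 1) * h0 + 2 * R 1 0 * hb + (R 0 0 - R 1 1) * hyz
    exact (mul_eq_zero.mp h1).resolve_left hD
  rw [hx] at hb hc' h0
  have hy : X 0 1 = 0 := by
    have h1 : ((R 0 0 - R 1 1) ^ 2 + 4 * (R 0 1 * R 1 0)) * X 0 1 = 0 := by
      linear_combination (-(R 0 0 - R 1 1)) * hb + 2 * R 0 1 * hyz + 2 * R 0 1 * h0
    exact (mul_eq_zero.mp h1).resolve_left hD
  have hz : X 1 0 = 0 := by
    have h1 : ((R 0 0 - R 1 1) ^ 2 + 4 * (R 0 1 * R 1 0)) * X 1 0 = 0 := by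
      linear_combination (-(R 0 0 - R 1 1)) * hc' - 2 * R 1 0 * hyz + 2 * R 1 0 * h0
    exact (mul_eq_zero.mp h1).resolve_left hD
  ext i j
  fin_cases i <;> fin_cases j
  · exact hx
  · exact hy
  · exact hz
  · show X 1 1 = 0
    rw [hx1, hx, neg_zero]

theorem card_sl0 [Finite k] : Nat.card (sl0 k) = Nat.card k ^ 3 := by
  have e : sl0 k ≃ (Fin 3 → k) :=
    { toFun := fun X => ![X.1 0 0, X.1 0 1, X.1 1 0]
      invFun := fun v => ⟨!![v 0, v 1; v 2, -v 0], by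
        rw [mem_sl0, Matrix.trace_fin_two_of, add_neg_cancel]⟩
      left_inv := fun X => by
        have h := X.2
        rw [mem_sl0, Matrix.trace_fin_two] at h
        apply Subtype.ext
        ext i j
        fin_cases i <;> fin_cases j
        · rfl
        · rfl
        · rfl
        · show - X.1 0 0 = X.1 1 1
          linear_combination -h
      right_inv := fun v => by
        funext i
        fin_cases i <;> rfl }
  rw [Nat.card_congr e, Nat.card_fun]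
  simp

end alg

section main

variable {p : ℕ} [hp : Fact p.Prime] {k : Type} [Field k] [Finite k] [Algebra (ZMod p) k]
  {ρ : GQ →* Matrix (Fin 2) (Fin 2) k}

/-- **local cocycles at `q ≡ 1` with distinct Frobenius eigenvalues** -/
theorem card_Z1q_le (_hlev : FlatLoc.FinLev ρ 1) (q : Nat.Primes) (hqp : (q : ℕ) ≠ p)
    (hq1 : p ∣ (q : ℕ) - 1)
    (hunr : ∀ σ ∈ (padicPlace (q : ℕ)).inertiaSubgroupIn ℚ, ρ σ = 1) {φ : GQ}
    (hφ : (padicPlace (q : ℕ)).IsFrobeniusAt φ q) {α β : k} (hne : α ≠ β)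
    (hdet : (ρ φ).det = α * β) (htr : (ρ φ).trace = α + β) :
    Finite (CFT.Z1q q (VV ρ)) ∧ Nat.card (CFT.Z1q q (VV ρ)) ≤ Nat.card k ^ 4 := by
  have hq : (q : ℕ).Prime := q.2
  haveI : Fact (q : ℕ).Prime := ⟨hq⟩
  set A := padicPlace (q : ℕ) with hAdef
  have hA : A.LiesOverPrime q := padicPlace_liesOver (q : ℕ)
  have hpq : p ≠ (q : ℕ) := hqp.symm
  obtain ⟨σ₀, hσI, hσ₀⟩ := exists_inertia_moving hq hA hp.out hpq
  have hIl : ∀ σ : A.inertiaSubgroupIn ℚ, ∃ τ : LG (q : ℕ), localGaloisToGlobal q τ = σ :=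
    fun σ => exists_lg_eq_decomp (inertia_le_decomp σ.2)
  choose l hl using hIl
  obtain ⟨φ', hφ'⟩ := exists_lg_eq_decomp hφ.mem_decompositionSubgroup
  have hpV : ∀ v : VV ρ, p • v = 0 := by
    intro v
    have h1 : (p : ZMod p) • v = 0 := by rw [ZMod.natCast_self, zero_smul]
    rwa [Nat.cast_smul_eq_nsmul] at h1
  have hsm1 : ∀ (g : GQ) (v : VV ρ), ρ g = 1 → g • v = v := by
    intro g v hg
    apply VV.ext'
    have h1 : ρ g⁻¹ = 1 := by
      have := rinv (ρ := ρ) g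
      rwa [hg, one_mul] at this
    rw [VV.mat_smul, hg, h1, one_mul, mul_one]
  have hinv : ∀ x ∈ CFT.Z1q q (VV ρ), ∀ d, x d⁻¹ = -((localGaloisToGlobal (q : ℕ) d)⁻¹ • x d) := by
    intro x hx d
    have h1 := hx.1 1 1
    rw [mul_one, map_one, one_smul] at h1
    have h0 : x 1 = 0 := left_eq_add.mp h1
    have h2 := hx.1 d⁻¹ d
    rw [inv_mul_cancel, h0, map_inv] at h2
    exact eq_neg_of_add_eq_zero_left h2.symm
  have hone : ∀ x ∈ CFT.Z1q q (VV ρ), x 1 = 0 := by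
    intro x hx
    have h1 := hx.1 1 1
    rw [mul_one, map_one, one_smul] at h1
    exact left_eq_add.mp h1
  -- the structure of a cocycle
  have key : ∀ x ∈ CFT.Z1q q (VV ρ),
      (localGaloisToGlobal (q : ℕ) φ' • x (l ⟨σ₀, hσI⟩) = x (l ⟨σ₀, hσI⟩)) ∧
      (x φ' = 0 → x (l ⟨σ₀, hσI⟩) = 0 → x = 0) := by
    intro x hx
    obtain ⟨E, hE, hlx⟩ := CFT.locLev_of_LC1 hx.2
    haveI := hE
    have hker : ∀ d d', localGaloisToGlobal (q : ℕ) d = localGaloisToGlobal (q : ℕ) d' →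
        x d = x d' := by
      intro d d' h
      have h1 := hlx d' (d'⁻¹ * d) (by rw [map_mul, map_inv, h, inv_mul_cancel]; exact one_mem _)
      rwa [mul_inv_cancel_left] at h1
    -- the homomorphism on inertia
    let X : A.inertiaSubgroupIn ℚ →* Multiplicative (VV ρ) :=
      { toFun := fun σ => Multiplicative.ofAdd (x (l σ))
        map_one' := by
          have h1 : x (l 1) = 0 := by
            rw [hker (l 1) 1 (by rw [hl, map_one]; rfl), hone x hx]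
          rw [h1]; rfl
        map_mul' := fun σ τ => by
          have h1 : x (l (σ * τ)) = x (l σ) + x (l τ) := by
            rw [hker (l (σ * τ)) (l σ * l τ) (by rw [hl, map_mul, hl, hl]; rfl), hx.1, hl,
              hsm1 _ _ (hunr σ σ.2)]
          rw [h1]; rfl }
    have hXK : ∀ σ : A.inertiaSubgroupIn ℚ, (∀ y ∈ E, (σ : GQ) y = y) → X σ = 1 := by
      intro σ hσ
      have h1 : x (l σ) = 0 := by
        have h2 := hlx 1 (l σ) (by
          rw [hl, IntermediateField.mem_fixingSubgroup_iff]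
          exact hσ)
        rw [one_mul] at h2
        rw [h2, hone x hx]
      show Multiplicative.ofAdd (x (l σ)) = 1
      rw [h1]; rfl
    have hXp : ∀ σ, ∃ k : ℕ, X σ ^ (p ^ k) = 1 := by
      intro σ
      refine ⟨1, ?_⟩
      rw [pow_one]
      show Multiplicative.ofAdd (p • (x (l σ))) = 1
      rw [hpV]; rfl
    have hX0 : ∀ j : ℤ, ∀ σ, X ⟨σ₀, hσI⟩ ^ j = X σ → x (l σ) = j • x (l ⟨σ₀, hσI⟩) := by
      intro j σ h
      exact (Multiplicative.ofAdd.injective h).symm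
    refine ⟨?_, fun h1 h2 => ?_⟩
    · have h1 := conj_frob_inertia hq hA hp.out hpq X E hXK hXp hφ hσI hσ₀
      have h2 : x (l ⟨φ * σ₀ * φ⁻¹, conj_mem_inertia' hφ.mem_decompositionSubgroup hσI⟩) =
          (q : ℕ) • x (l ⟨σ₀, hσI⟩) := Multiplicative.ofAdd.injective h1
      rw [hker (l ⟨φ * σ₀ * φ⁻¹, conj_mem_inertia' hφ.mem_decompositionSubgroup hσI⟩)
        (φ' * l ⟨σ₀, hσI⟩ * φ'⁻¹) (by rw [hl, map_mul, map_mul, map_inv, hl, hφ']), hx.1, hx.1,
        hinv x hx, smul_neg, map_mul, mul_smul, hl] at h2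
      have h3 : (localGaloisToGlobal (q : ℕ) φ') • σ₀ • (localGaloisToGlobal (q : ℕ) φ')⁻¹ •
          x φ' = x φ' := by
        rw [hsm1 σ₀ _ (hunr σ₀ hσI), smul_inv_smul]
      rw [h3] at h2
      obtain ⟨c, hc⟩ := hq1
      have h4 : (q : ℕ) • x (l ⟨σ₀, hσI⟩) = x (l ⟨σ₀, hσI⟩) := by
        have h5 : (q : ℕ) = p * c + 1 := by have := hq.pos; omega
        rw [h5, add_smul, one_smul, mul_comm, mul_smul, hpV, smul_zero, zero_add]
      rw [h4] at h2
      have h6 : localGaloisToGlobal (q : ℕ) φ' • x (l ⟨σ₀, hσI⟩) =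
          x φ' + localGaloisToGlobal (q : ℕ) φ' • x (l ⟨σ₀, hσI⟩) + -x φ' := by abel
      rw [h6]
      exact h2
    · -- vanishing
      have h3 : ∀ σ : A.inertiaSubgroupIn ℚ, x (l σ) = 0 := by
        intro σ
        obtain ⟨j, hj⟩ := mem_zpowers_inertia hq hA hp.out hpq X E hXK hXp
          (σ₀ := ⟨σ₀, hσI⟩) hσ₀ σ
        rw [hX0 j σ hj, h2, smul_zero]
      have h4 : ∀ n : ℕ, x (φ' ^ n) = 0 := by
        intro n
        induction n with
        | zero => rw [pow_zero, hone x hx]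
        | succ n ih => rw [pow_succ, hx.1, ih, h1, smul_zero, add_zero]
      funext d
      obtain ⟨n, σ, hσ, h⟩ := exists_frob_mul_inertia hq hA hφ
        (g := localGaloisToGlobal (q : ℕ) d) (localGaloisToGlobal_mem_decompositionSubgroup (q : ℕ) d) E
      have h5 : x d = x (φ' ^ n * l ⟨σ, hσ⟩) := by
        have h6 := hlx (φ' ^ n * l ⟨σ, hσ⟩) ((φ' ^ n * l ⟨σ, hσ⟩)⁻¹ * d) (by
          rw [IntermediateField.mem_fixingSubgroup_iff]
          intro y hy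
          rw [map_mul, map_inv, map_mul, map_pow, hl, hφ', AlgEquiv.mul_apply, ← h y hy]
          exact inv_smul_smul (φ ^ n * σ) y)
        rw [mul_inv_cancel_left] at h6
        exact h6
      rw [h5, hx.1, h4, h3, smul_zero, add_zero]
      rfl
  -- the injection
  let F : CFT.Z1q q (VV ρ) →+ VV ρ × k :=
    { toFun := fun x => (x.1 φ', ((x.1 (l ⟨σ₀, hσI⟩)).mat * ρ φ).trace)
      map_zero' := by
        refine Prod.ext rfl ?_
        show ((0 : VV ρ).mat * ρ φ).trace = 0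
        rw [VV.mat_zero, zero_mul, Matrix.trace_zero]
      map_add' := fun x y => by
        refine Prod.ext rfl ?_
        show ((x.1 (l ⟨σ₀, hσI⟩) + y.1 (l ⟨σ₀, hσI⟩)).mat * ρ φ).trace = _
        rw [VV.mat_add, add_mul, Matrix.trace_add]
        rfl }
  have hF : Function.Injective F := by
    rw [injective_iff_map_eq_zero]
    rintro ⟨x, hx⟩ h
    obtain ⟨k1, k2⟩ := key x hx
    have h1 : x φ' = 0 := congrArg Prod.fst h
    have h2 : ((x (l ⟨σ₀, hσI⟩)).mat * ρ φ).trace = 0 := congrArg Prod.snd h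
    apply Subtype.ext
    refine k2 h1 (VV.ext' ?_)
    rw [VV.mat_zero]
    refine eq_zero_of_comm hne hdet htr (VV.trace _) ?_ h2
    have h3 := congrArg VV.mat k1
    rw [VV.mat_smul, hφ'] at h3
    have h4 := congrArg (· * ρ φ) h3
    simp only [mul_assoc, rinv', mul_one] at h4
    exact h4.symm
  haveI : Finite (VV ρ × k) := inferInstance
  refine ⟨Finite.of_injective F hF, (Nat.card_le_card_of_injective F hF).trans ?_⟩
  rw [Nat.card_prod]
  have h1 : Nat.card (VV ρ) = Nat.card k ^ 3 := card_sl0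
  rw [h1, ← pow_succ]

end main

end Fermat.Agent.TWPr
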