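import Fermat.Agent.TWPr.Main
import Fermat.Agent.TWPr.Frey
import Fermat.Agent.TWPr.L3
import Fermat.Agent.FlatLoc.KSub
import Fermat.Agent.TWInst.Sel

/-!
# The Selmer bound for Frey-like representations
-/

set_option autoImplicit false
set_option maxHeartbeats 800000

noncomputable section

namespace Fermat.Agent.TWPr

open Matrix Fermat.Agent.DefRing Fermat.Agent.GalRep Fermat.Agent.S43Glue
open Fermat.Agent.CFT hiding GQ

local notation "Qbar" => AlgebraicClosure ℚ

variable {p : ℕ} [hpf : Fact p.Prime] {k : Type} [Field k] [Algebra (ZMod p) k]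

/-- the bound at Taylor–Wiles primes -/
theorem l3Hyp [Finite k] {ρ : GQ →* Matrix (Fin 2) (Fin 2) k} (hlev : FlatLoc.FinLev ρ 1) :
    L3Hyp p k ρ := by
  intro q hqp hq1 hunr φ hφ α β hne hdet htr
  exact (card_Z1q_le (p := p) hlev q hqp hq1 hunr hφ hne hdet htr).2

theorem chiK_eq_cyc (g : GQ) : chiK p (ZMod p) g = (FlatLoc.cyc p g : ZMod p) := by
  obtain ⟨ζ, hζ⟩ := HasEnoughRootsOfUnity.exists_primitiveRoot Qbar p
  rw [chiK_spec p (ZMod p) g hζ (FlatLoc.cyc_root g hζ.pow_eq_one), ZMod.natCast_zmod_val]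

/-- the flat condition at `p` as a space of functions on the decomposition group -/
def LpFlat (p : ℕ) [Fact p.Prime] {k : Type} [Field k] [Finite k]
    (ρ : GQ →* Matrix (Fin 2) (Fin 2) k)
    (hV : FlatLoc.IsFlatMod (FlatLoc.Zloc p) (FlatLoc.vk ρ)) :
    Submodule k ((padicPlace p).decompositionSubgroup ℚ → Matrix (Fin 2) (Fin 2) k) :=
  (FlatLoc.gfkSub ρ hV).map (resD k (pP p))

theorem LpFlat_rank [Finite k] {ρ : GQ →* Matrix (Fin 2) (Fin 2) k} (hp2 : p ≠ 2)
    (hdet : ∀ g, (ρ g).det = chk p k g) (hlev : FlatLoc.FinLev ρ 1)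
    (hV : FlatLoc.IsFlatMod (FlatLoc.Zloc p) (FlatLoc.vk ρ)) :
    Module.Finite k (LpFlat p ρ hV) ∧ Module.finrank k (LpFlat p ρ hV) ≤ 4 := by
  have h1 := FlatLoc.flat_bound_gen (p := p) (k := k) hp2 (A := padicPlace p)
    (CFT.padicPlace_liesOver p) (ρ := ρ) (fun σ => by
      rw [hdet]
      change algebraMap (ZMod p) k (chiK p (ZMod p) σ) = _
      rw [chiK_eq_cyc]) hlev (LpFlat p ρ hV) (by
      rintro _ ⟨C, hC, rfl⟩
      exact ⟨C, hC, fun σ => rfl⟩)
  have h2 : Module.Finite k (LpFlat p ρ hV) := by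
    rw [← Module.rank_lt_aleph0_iff]
    exact lt_of_le_of_lt h1 (Cardinal.natCast_lt_aleph0)
  refine ⟨h2, ?_⟩
  rw [← Module.finrank_eq_rank] at h1
  exact_mod_cast h1

theorem lies_of_eq {A : ValuationSubring Qbar} {a b : ℕ} (h : a = b) (hA : A.LiesOverPrime a) :
    A.LiesOverPrime b := h ▸ hA

/-- **the Selmer bound for Frey-like representations** -/
theorem twSel (hp5 : 5 ≤ p) : TWInst.TWSel p := by
  classical
  intro N ρ hN h2N hpN hρ hflat hodd k _ _ _ S hS
  haveI : CharP k p := charP_of_injective_algebraMap (algebraMap (ZMod p) k).injective p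
  have hN0 : N ≠ 0 := hN.ne_zero
  have hp2 : p ≠ 2 := by omega
  have hV := FlatLoc.flat_rk (k := k) hflat
  have hcond := twCond_frey (k := k) hρ hp5
  let P2 : Nat.Primes := ⟨2, Nat.prime_two⟩
  let Smin : Finset Nat.Primes := {pP p, P2}
  let s : Finset Nat.Primes := (N.primeFactors.erase 2).subtype Nat.Prime
  have hs : ∀ q : Nat.Primes, q ∈ s ↔ ((q : ℕ) ∣ N ∧ (q : ℕ) ≠ 2) := by
    intro q
    have e : q ∈ s ↔ (q : ℕ) ∈ N.primeFactors.erase 2 := Finset.mem_subtype
    rw [e, Finset.mem_erase, Nat.mem_primeFactors]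
    exact ⟨fun h => ⟨h.2.2.1, h.1⟩, fun h => ⟨h.2, q.2, h.1, hN0⟩⟩
  have hscard : s.card = (N.primeFactors.erase 2).card := by
    show ((N.primeFactors.erase 2).subtype Nat.Prime).card = _
    rw [Finset.card_subtype, Finset.filter_true_of_mem fun q hq =>
      Nat.prime_of_mem_primeFactors (Finset.mem_of_mem_erase hq)]
  have hSmin : ∀ q : Nat.Primes, q ∈ Smin ↔ ((q : ℕ) = p ∨ (q : ℕ) = 2) := by
    intro q
    show q ∈ ({pP p, P2} : Finset Nat.Primes) ↔ _
    rw [Finset.mem_insert, Finset.mem_singleton]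
    exact ⟨fun h => h.imp (fun h => congrArg Subtype.val h) (fun h => congrArg Subtype.val h),
      fun h => h.imp (fun h => Subtype.ext h) (fun h => Subtype.ext h)⟩
  have hrk : ∀ g, FlatLoc.rk k ρ g = (algebraMap (ZMod p) k).mapMatrix (ρ g) := fun g => rfl
  have hLp := LpFlat_rank hp2 hcond.det hcond.lev hV
  have H : SelHyp p k (FlatLoc.rk k ρ) Smin s (LpFlat p (FlatLoc.rk k ρ) hV) :=
    { cond := hcond
      hpS := (hSmin _).mpr (Or.inl rfl)
      disj := by
        intro q hq hq'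
        rcases (hSmin q).mp hq' with h | h
        · exact hpN (h ▸ ((hs q).mp hq).1)
        · exact ((hs q).mp hq).2 h
      unr := by
        intro q hq A hA σ hσ
        rw [hSmin, not_or] at hq
        rw [hrk, hρ.unram q q.2 hq.2 hq.1 A hA σ hσ, map_one]
      unip := by
        intro q hq hqp σ hσ
        have h2 := ((hSmin q).mp hq).resolve_left hqp
        have hA : (padicPlace (q : ℕ)).LiesOverPrime 2 :=
          lies_of_eq h2 (CFT.padicPlace_liesOver (q : ℕ))
        have h3 := hρ.unip _ hA σ hσ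
        rw [hrk, ← map_one ((algebraMap (ZMod p) k).mapMatrix), ← map_sub, ← map_mul, h3, map_zero]
      ram := by
        intro q hq hqp
        have h2 := ((hSmin q).mp hq).resolve_left hqp
        have hA : (padicPlace (q : ℕ)).LiesOverPrime 2 :=
          lies_of_eq h2 (CFT.padicPlace_liesOver (q : ℕ))
        obtain ⟨σ, hσ, h⟩ := hρ.ram _ hA
        exact ⟨σ, hσ, fun h' => h (rho_one_of_rk h')⟩
      scal := by
        intro q hq σ hσ
        obtain ⟨hqN, hq2⟩ := (hs q).mp hq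
        have hqp : (q : ℕ) ≠ p := fun h => hpN (h ▸ hqN)
        have hA := CFT.padicPlace_liesOver (q : ℕ)
        obtain ⟨φ, hφ⟩ := Fermat.Agent.Frob.exists_isFrobeniusAt_Qbar (padicPlace (q : ℕ)) q.2 hA
        obtain ⟨L, hL, hLev⟩ := hρ.level
        obtain ⟨n, τ, hτ, h⟩ := TWGal.exists_frob_mul_inertia q.2 hA hφ hσ L
        have h1 : ρ σ = ρ (φ ^ n * τ) := (FinLevel.congr hLev h).symm
        have h2 : ρ τ = 1 := hρ.unram q q.2 hq2 hqp _ hA τ hτ
        have h3 : ∃ a : ZMod p, ρ σ = a • (1 : Matrix (Fin 2) (Fin 2) (ZMod p)) := by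
          rw [h1, map_mul, h2, mul_one, map_pow]
          rcases (hodd q q.2 hqN hq2).2 _ hA φ hφ with h4 | h4
          · exact ⟨1, by rw [h4, one_pow, one_smul]⟩
          · refine ⟨(-1) ^ n, ?_⟩
            rw [h4, show (-1 : Matrix (Fin 2) (Fin 2) (ZMod p)) = (-1 : ZMod p) • 1 by
              rw [neg_smul, one_smul], smul_pow, one_pow]
        obtain ⟨a, ha⟩ := h3
        refine ⟨algebraMap (ZMod p) k a, ?_⟩
        rw [hrk, ha]
        ext i j
        rw [RingHom.mapMatrix_apply, Matrix.map_apply, Matrix.smul_apply, Matrix.smul_apply,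
          smul_eq_mul, smul_eq_mul, map_mul, Matrix.one_apply, Matrix.one_apply]
        split_ifs
        · rw [map_one]
        · rw [map_zero]
      Lfin := hLp.1
      Lrank := hLp.2
      Lcob := by
        intro X hX
        refine ⟨cob (FlatLoc.rk k ρ) X, ?_, rfl⟩
        have h1 := (FlatLoc.gfkSub (FlatLoc.rk k ρ) hV).neg_mem
          (FlatLoc.gfk_cob hV hcond.lev hX)
        have h2 : cob (FlatLoc.rk k ρ) X = -(fun σ => X - FlatLoc.rk k ρ σ * X *
            FlatLoc.rk k ρ σ⁻¹) := by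
          funext g
          show _ - _ = -(_ - _)
          rw [neg_sub]
        rw [h2]
        exact h1 }
  obtain ⟨r, hr⟩ := H.exists_selmer (l3Hyp hcond.lev) S hS
  refine ⟨r, fun n => ?_⟩
  obtain ⟨Q, hQ1, hQ2, Z, hZ1, hZ2, hZ3, hZ4⟩ := hr n
  refine ⟨Q, hQ1, fun q hq => ?_, Z, hZ1, ?_, fun c hc => ?_, fun X hX => ?_⟩
  · obtain ⟨g1, g2, g3, g4, g5⟩ := hQ2 q hq
    exact ⟨g1, g2, g4, g5⟩
  · rw [← hscard]
    exact hZ2
  · apply hZ3
    refine ⟨⟨hc.coc, hc.tr, hc.lev⟩, ?_, ?_, ?_, ?_⟩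
    · intro q hq hqs hqQ A hA σ hσ
      rw [hSmin, not_or] at hq
      refine hc.unr q q.2 ?_ hqQ A hA σ hσ
      intro hdvd
      rcases (Nat.Prime.dvd_mul q.2).mp hdvd with h | h
      · exact hqs ((hs q).mpr ⟨h, hq.2⟩)
      · exact hq.1 ((Nat.prime_dvd_prime_iff_eq q.2 hpf.out).mp h)
    · intro q hq hqp σ hσ
      have h2 := ((hSmin q).mp hq).resolve_left hqp
      have hA : (padicPlace (q : ℕ)).LiesOverPrime 2 :=
        lies_of_eq h2 (CFT.padicPlace_liesOver (q : ℕ))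
      exact hc.two _ hA σ hσ
    · intro q hq σ hσ
      obtain ⟨hqN, hq2⟩ := (hs q).mp hq
      exact hc.odd q q.2 hqN hq2 _ (CFT.padicPlace_liesOver (q : ℕ)) σ hσ
    · exact ⟨c, ⟨hc.coc, hc.tr, hc.lev, hc.flat⟩, rfl⟩
  · have h1 := Z.neg_mem (hZ4 X hX)
    have h2 : (fun g => X - FlatLoc.rk k ρ g * X * FlatLoc.rk k ρ g⁻¹) =
        -cob (FlatLoc.rk k ρ) X := by
      funext g
      show _ - _ = -(_ - _)
      rw [neg_sub]
    rw [h2]
    exact h1

end Fermat.Agent.TWPr
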