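import Fermat.Agent.TWPr.Cond
import Fermat.Agent.FrobDens.Main
import Fermat.Agent.Carayol.Inertia

/-!
# Existence of Taylor–Wiles primes detecting a given class
-/

set_option autoImplicit false
set_option maxHeartbeats 400000

noncomputable section

namespace Fermat.Agent.TWPr

open Matrix Fermat.Agent.DefRing Fermat.Agent.GalRep Fermat.Agent.S43Glue
open scoped Pointwise

local notation "Qbar" => AlgebraicClosure ℚ

section alg

variable {k : Type} [Field k]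

theorem pow_formula {M : Matrix (Fin 2) (Fin 2) k} {α β : k} (hdet : M.det = α * β)
    (htr : M.trace = α + β) (m : ℕ) :
    (α - β) • M ^ m = α ^ m • (M - β • (1 : Matrix (Fin 2) (Fin 2) k)) -
      β ^ m • (M - α • (1 : Matrix (Fin 2) (Fin 2) k)) := by
  have hCH : M * M = (α + β) • M - (α * β) • (1 : Matrix (Fin 2) (Fin 2) k) := by
    rw [Matrix.det_fin_two] at hdet
    rw [Matrix.trace_fin_two] at htr
    rw [← hdet, ← htr]
    ext i j
    fin_cases i <;> fin_cases j <;>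
      simp [Matrix.mul_apply, Fin.sum_univ_two] <;> ring
  induction m with
  | zero => simp only [pow_zero, one_smul]; ext i j; simp; ring
  | succ m ih =>
    rw [pow_succ, ← Matrix.smul_mul, ih, sub_mul, Matrix.smul_mul, Matrix.smul_mul, sub_mul,
      sub_mul, Matrix.smul_mul, Matrix.smul_mul, one_mul, hCH]
    ext i j
    simp only [Matrix.sub_apply, Matrix.smul_apply, smul_eq_mul]
    ring

theorem trace_pow_eq {M : Matrix (Fin 2) (Fin 2) k} {α β : k} (hne : α ≠ β)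
    (hdet : M.det = α * β) (htr : M.trace = α + β) (m : ℕ) :
    (M ^ m).trace = α ^ m + β ^ m := by
  have h1 := congrArg Matrix.trace (pow_formula hdet htr m)
  have h2 : (α - β) ≠ 0 := sub_ne_zero.mpr hne
  rw [Matrix.trace_sub, Matrix.trace_smul, Matrix.trace_smul, Matrix.trace_smul,
    Matrix.trace_sub, Matrix.trace_sub, Matrix.trace_smul, Matrix.trace_smul, Matrix.trace_one,
    htr, Fintype.card_fin] at h1
  simp only [smul_eq_mul] at h1
  push_cast at h1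
  apply mul_left_cancel₀ h2
  linear_combination h1

theorem scalar_pow {M : Matrix (Fin 2) (Fin 2) k} {α β : k} (hne : α ≠ β)
    (hdet : M.det = α * β) (htr : M.trace = α + β) {m : ℕ} (h : α ^ m = β ^ m) :
    M ^ m = α ^ m • (1 : Matrix (Fin 2) (Fin 2) k) := by
  have h1 := pow_formula hdet htr m
  have h2 : (α - β) ≠ 0 := sub_ne_zero.mpr hne
  rw [← h] at h1
  have h3 : α ^ m • (M - β • (1 : Matrix (Fin 2) (Fin 2) k)) -
      α ^ m • (M - α • (1 : Matrix (Fin 2) (Fin 2) k)) =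
      (α - β) • (α ^ m • (1 : Matrix (Fin 2) (Fin 2) k)) := by
    rw [← smul_sub, smul_comm (α - β)]
    congr 1
    rw [sub_smul]
    abel
  rw [h3] at h1
  exact smul_right_injective _ h2 h1

theorem ne_scalar {M : Matrix (Fin 2) (Fin 2) k} {α β : k} (hne : α ≠ β)
    (hdet : M.det = α * β) (htr : M.trace = α + β) (a : k) :
    M ≠ a • (1 : Matrix (Fin 2) (Fin 2) k) := by
  rintro rfl
  rw [Matrix.det_smul, Matrix.det_one, mul_one, Fintype.card_fin] at hdet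
  rw [Matrix.trace_smul, Matrix.trace_one, Fintype.card_fin, smul_eq_mul] at htr
  push_cast at htr
  apply hne
  have : (α - β) ^ 2 = 0 := by linear_combination (-(a * 2) - (α + β)) * htr + 4 * hdet
  exact sub_eq_zero.mp (pow_eq_zero_iff (two_ne_zero) |>.mp this)

end alg

/-- two Frobenius elements at the same place differ by inertia -/
theorem frob_inertia {A : ValuationSubring Qbar} {q : ℕ} (hq : q.Prime) (hA : A.LiesOverPrime q)
    {τ τ' : GQ}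
    (h : A.IsFrobeniusAt τ q) (h' : A.IsFrobeniusAt τ' q) : τ⁻¹ * τ' ∈ A.inertiaSubgroupIn ℚ := by
  rw [FrobDens.isFrobeniusAt_iff] at h h'
  have hst : (τ⁻¹ * τ') • A = A := by
    rw [mul_smul, h'.1, inv_smul_eq_iff, h.1]
  have hmemτ : ∀ x, τ x ∈ A ↔ x ∈ A := by
    intro x
    conv_lhs => rw [← h.1]
    rw [ValuationSubring.mem_pointwise_smul_iff_inv_smul_mem]
    change τ⁻¹ (τ x) ∈ A ↔ _
    rw [show τ⁻¹ (τ x) = x from AlgEquiv.symm_apply_apply τ x]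
  have hmemτ' : ∀ x, τ' x ∈ A ↔ x ∈ A := by
    intro x
    conv_lhs => rw [← h'.1]
    rw [ValuationSubring.mem_pointwise_smul_iff_inv_smul_mem]
    change τ'⁻¹ (τ' x) ∈ A ↔ _
    rw [show τ'⁻¹ (τ' x) = x from AlgEquiv.symm_apply_apply τ' x]
  have hmem : ∀ x, (τ⁻¹ * τ') x ∈ A ↔ x ∈ A := by
    intro x
    rw [← hmemτ, ← hmemτ' x]
    rw [show τ ((τ⁻¹ * τ') x) = τ' x from AlgEquiv.apply_symm_apply τ (τ' x)]
  rw [Carayol.mem_inertia_iff]
  refine ⟨hmem, fun x hx => ?_⟩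
  set y := (τ⁻¹ * τ') x with hy
  have hyA : y ∈ A := (hmem x).mpr hx
  have hτy : τ y = τ' x := AlgEquiv.apply_symm_apply τ (τ' x)
  -- `τ y ≡ y ^ q`, `τ' x ≡ x ^ q`
  have h1 := h.2 y hyA
  have h2 := h'.2 x hx
  rw [hτy] at h1
  have h3 : A.valuation (y ^ q - x ^ q) < 1 := by
    have h4 : y ^ q - x ^ q = (τ' x - x ^ q) - (τ' x - y ^ q) := by ring
    rw [h4]
    exact lt_of_le_of_lt (A.valuation.map_sub _ _) (max_lt h2 h1)
  -- reduce modulo the maximal ideal, of characteristic `q`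
  have hq1 : A.valuation (q : Qbar) < 1 := hA
  haveI : Fact q.Prime := ⟨hq⟩
  have h5 : ((q : ℕ) : IsLocalRing.ResidueField A) = 0 := by
    have h6 := (FrobDens.residue_eq_iff A (q : A) 0).mpr (by
      rw [ZeroMemClass.coe_zero, sub_zero]
      exact hq1)
    rwa [map_natCast, map_zero] at h6
  haveI : CharP (IsLocalRing.ResidueField A) q := (CharP.charP_iff_prime_eq_zero hq).mpr h5
  have h7 : IsLocalRing.residue A ⟨y, hyA⟩ ^ q = IsLocalRing.residue A ⟨x, hx⟩ ^ q := by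
    rw [← map_pow, ← map_pow]
    exact (FrobDens.residue_eq_iff A _ _).mpr h3
  have h8 : (IsLocalRing.residue A ⟨y, hyA⟩ - IsLocalRing.residue A ⟨x, hx⟩) ^ q = 0 := by
    rw [sub_pow_char, h7, sub_self]
  have h9 := sub_eq_zero.mp ((pow_eq_zero_iff hq.ne_zero).mp h8)
  exact (FrobDens.residue_eq_iff A _ _).mp h9

variable {p : ℕ} [hpf : Fact p.Prime] {k : Type} [Field k] [Algebra (ZMod p) k]
  {ρ : GQ →* Matrix (Fin 2) (Fin 2) k} {c : GQ → Matrix (Fin 2) (Fin 2) k}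

/-- being a coboundary on the decomposition group -/
def LocB (p : ℕ) [Fact p.Prime] {k : Type} [Field k] [Algebra (ZMod p) k]
    (ρ : GQ →* Matrix (Fin 2) (Fin 2) k) (c : GQ → Matrix (Fin 2) (Fin 2) k)
    (A : ValuationSubring Qbar) : Prop :=
  ∃ X : Matrix (Fin 2) (Fin 2) k, X.trace = 0 ∧
    ∀ g ∈ A.decompositionSubgroup ℚ, c g = ta p ρ g X - X

theorem mem_decomp_smul {A : ValuationSubring Qbar} {g h : GQ}
    (hh : h ∈ A.decompositionSubgroup ℚ) : g * h * g⁻¹ ∈ (g • A).decompositionSubgroup ℚ := by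
  rw [MulAction.mem_stabilizer_iff] at hh ⊢
  rw [mul_smul, mul_smul, inv_smul_smul, hh]

theorem TwC.locB_of_smul (hc : TwC p ρ c) {A : ValuationSubring Qbar} (g : GQ)
    (h : LocB p ρ c (g • A)) : LocB p ρ c A := by
  obtain ⟨X, hX, h⟩ := h
  refine ⟨ta p ρ g⁻¹ (X + c g), ?_, fun x hx => ?_⟩
  · rw [trace_ta, Matrix.trace_add, hX, hc.tr, add_zero, mul_zero]
  · have h1 := h _ (mem_decomp_smul (g := g) hx)
    have h2 : c g⁻¹ = - ta p ρ g⁻¹ (c g) := by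
      have := hc.inv g⁻¹
      rw [inv_inv] at this
      rw [this, neg_neg]
    have h3 : c (g * x * g⁻¹) = c g + ta p ρ g (c x) + -ta p ρ (g * x * g⁻¹) (c g) := by
      rw [hc.mul, hc.mul, h2, ta_neg, ← ta_mul]
    have h4 : ta p ρ g (c x) = ta p ρ (g * x * g⁻¹) (X + c g) - (X + c g) := by
      have h5 := h3.symm.trans h1
      calc ta p ρ g (c x) = (c g + ta p ρ g (c x) + -ta p ρ (g * x * g⁻¹) (c g)) - c g +
            ta p ρ (g * x * g⁻¹) (c g) := by abel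
        _ = _ := by rw [h5, ta_add]; abel
    have h6 := congrArg (ta p ρ g⁻¹) h4
    rw [← ta_mul, inv_mul_cancel, ta_one, ta_sub, ← ta_mul,
      show g⁻¹ * (g * x * g⁻¹) = x * g⁻¹ by group, ta_mul] at h6
    exact h6

theorem TwC.pow_eq (hc : TwC p ρ c) {A : ValuationSubring Qbar} {X : Matrix (Fin 2) (Fin 2) k}
    (h : ∀ g ∈ A.decompositionSubgroup ℚ, c g = ta p ρ g X - X) {σ : GQ}
    (hσ : cycP p σ = 1) {τ : GQ} (hτ : τ ∈ A.decompositionSubgroup ℚ) (m : ℕ)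
    (h1 : c (τ ^ m) = c σ) (h2 : ρ (τ ^ m) = ρ σ) (hdet : ∀ g, (ρ g).det = chk p k g) :
    (c σ * ρ σ).trace = 0 := by
  have h3 := h (τ ^ m) (pow_mem hτ m)
  have h4 : chk p k (τ ^ m) = 1 := by
    rw [← hdet, h2, hdet, chk_of_cycP hσ]
  have h5 : ρ (τ ^ m)⁻¹ = ρ σ⁻¹ := by
    calc ρ (τ ^ m)⁻¹ = ρ (τ ^ m)⁻¹ * (ρ (τ ^ m) * ρ σ⁻¹) := by
          rw [h2, rinv, mul_one]
      _ = ρ σ⁻¹ := by rw [← mul_assoc, rinv', one_mul]
  rw [h1, ta, h4, one_smul, h2, h5] at h3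
  rw [h3, sub_mul, Matrix.trace_sub, mul_assoc, rinv', mul_one, Matrix.trace_mul_comm, sub_self]

/-- **existence of Taylor–Wiles primes** -/
theorem TWCond.exists_prime (H : TWCond p k ρ) (hc : TwC p ρ c) {σ : GQ}
    (hσ : cycP p σ = 1) {α β : k} (hne : α ≠ β) (hαβ : α * β = 1) (htr : (ρ σ).trace = α + β)
    (S : Set ℕ) (hS : S.Finite)
    (hunr : ∀ q : ℕ, q.Prime → q ∉ S → ∀ A : ValuationSubring Qbar, A.LiesOverPrime q →
      ∀ g ∈ A.inertiaSubgroupIn ℚ, ρ g = 1) (n : ℕ) :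
    ∃ q : ℕ, q.Prime ∧ q ∉ S ∧ q ≠ p ∧ p ^ n ∣ q - 1 ∧
      (∃ α' β' : k, α' ≠ β' ∧ α' * β' = 1 ∧ ∀ A : ValuationSubring Qbar, A.LiesOverPrime q →
        ∀ τ : GQ, A.IsFrobeniusAt τ q → (ρ τ).trace = α' + β') ∧
      ((c σ * ρ σ).trace ≠ 0 → ∀ A : ValuationSubring Qbar, A.LiesOverPrime q →
        ¬ LocB p ρ c A) := by
  obtain ⟨L₁, hL₁, h₁⟩ := H.lev
  obtain ⟨L₂, hL₂, h₂⟩ := hc.lev
  obtain ⟨L₃, hL₃, h₃⟩ := cycP_finite p n
  obtain ⟨q, hq, hqS, A, hA, τ, hτ, a, m, ha, hm⟩ :=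
    FrobDens.exists_frobenius (L₁ ⊔ L₂ ⊔ L₃) (S ∪ {p}) (hS.union (Set.finite_singleton p)) σ
  have hle₁ : L₁ ≤ L₁ ⊔ L₂ ⊔ L₃ := le_sup_left.trans le_sup_left
  have hle₂ : L₂ ≤ L₁ ⊔ L₂ ⊔ L₃ := le_sup_right.trans le_sup_left
  have hle₃ : L₃ ≤ L₁ ⊔ L₂ ⊔ L₃ := le_sup_right
  have hqS' : q ∉ S := fun h => hqS (Or.inl h)
  have hqp : q ≠ p := fun h => hqS (Or.inr h)
  -- comparison of values
  have hfix : ∀ {x y : GQ}, (∀ z ∈ L₁ ⊔ L₂ ⊔ L₃, x z = y z) → ∀ z ∈ L₁ ⊔ L₂ ⊔ L₃,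
      (y⁻¹ * x) z = z := by
    intro x y hxy z hz
    change y⁻¹ (x z) = z
    rw [hxy z hz]
    exact AlgEquiv.symm_apply_apply y z
  have hρeq : ∀ {x y : GQ}, (∀ z ∈ L₁ ⊔ L₂ ⊔ L₃, x z = y z) → ρ x = ρ y := by
    intro x y hxy
    have := h₁ _ fun z hz => hfix hxy z (hle₁ hz)
    rw [map_mul] at this
    calc ρ x = ρ y * (ρ y⁻¹ * ρ x) := by rw [← mul_assoc, rinv, one_mul]
      _ = ρ y := by rw [this, mul_one]
  have hceq : ∀ {x y : GQ}, (∀ z ∈ L₁ ⊔ L₂ ⊔ L₃, x z = y z) → c x = c y := by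
    intro x y hxy
    have := h₂ _ fun z hz => hfix hxy z (hle₂ hz)
    calc c x = c (y * (y⁻¹ * x)) := by rw [mul_inv_cancel_left]
      _ = c y := by rw [hc.mul, this, ta_zero, add_zero]
  have hcyc : PadicInt.toZModPow n (cycP p τ) = 1 := by
    have h4 := h₃ _ fun z hz => hfix (x := τ) (y := σ ^ m) (fun w hw => (hm w hw).symm) z (hle₃ hz)
    rw [map_mul, map_mul] at h4
    have h5 : cycP p (σ ^ m)⁻¹ = 1 := by
      have h6 : cycP p (σ ^ m) * cycP p (σ ^ m)⁻¹ = 1 := by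
        rw [← map_mul, mul_inv_cancel, map_one]
      rwa [map_pow, hσ, one_pow, one_mul] at h6
    rwa [h5, map_one, one_mul] at h4
  have hdetσ : (ρ σ).det = α * β := by rw [H.det, chk_of_cycP hσ, hαβ]
  have hρτ : ρ τ = ρ σ ^ m := by
    rw [← map_pow]; exact hρeq fun z hz => (hm z hz).symm
  have hρτa : ρ (τ ^ a) = ρ σ := hρeq fun z hz => ha z hz
  have hcτa : c (τ ^ a) = c σ := hceq fun z hz => ha z hz
  have hpm : α ^ m ≠ β ^ m := by
    intro heq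
    have h4 := scalar_pow hne hdetσ htr heq
    rw [map_pow, hρτ, h4, smul_pow, one_pow] at hρτa
    exact ne_scalar hne hdetσ htr _ hρτa.symm
  refine ⟨q, hq, hqS', hqp, ?_, ⟨α ^ m, β ^ m, hpm, by rw [← mul_pow, hαβ, one_pow], ?_⟩, ?_⟩
  · rw [cycP_frob p hq hA hqp hτ, map_natCast] at hcyc
    have h6 : ((q : ℕ) : ZMod (p ^ n)) = ((1 : ℕ) : ZMod (p ^ n)) := by
      rw [Nat.cast_one]; exact hcyc
    rw [ZMod.natCast_eq_natCast_iff] at h6
    exact (Nat.modEq_iff_dvd' hq.one_lt.le).mp h6.symm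
  · intro A' hA' τ' hτ'
    obtain ⟨g, hg⟩ := Frob.exists_eq_smul_Qbar A A' hq hA hA'
    have h6 := FrobDens.isFrobeniusAt_conj hτ' g⁻¹
    rw [hg, inv_smul_smul, inv_inv] at h6
    have h7 := hunr q hq hqS' A hA _ (frob_inertia hq hA hτ h6)
    rw [map_mul] at h7
    have h8 : ρ (g⁻¹ * τ' * g) = ρ τ := by
      calc ρ (g⁻¹ * τ' * g) = ρ τ * (ρ τ⁻¹ * ρ (g⁻¹ * τ' * g)) := by
            rw [← mul_assoc, rinv, one_mul]
        _ = ρ τ := by rw [h7, mul_one]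
    rw [← trace_pow_eq hne hdetσ htr, ← hρτ, ← h8, map_mul, map_mul, Matrix.trace_mul_comm,
      ← mul_assoc, rinv, one_mul]
  · intro htr0 A' hA' hloc
    obtain ⟨g, hg⟩ := Frob.exists_eq_smul_Qbar A A' hq hA hA'
    rw [hg] at hloc
    obtain ⟨X, hX, h⟩ := hc.locB_of_smul g hloc
    exact htr0 (hc.pow_eq h hσ hτ.1 a hcτa hρτa H.det)

/-- the properties of Taylor–Wiles primes -/
structure GoodQ (p : ℕ) [Fact p.Prime] {k : Type} [Field k]
    (ρ : GQ →* Matrix (Fin 2) (Fin 2) k) (S : Set ℕ) (n : ℕ) (q : ℕ) : Prop where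
  prime : q.Prime
  nmem : q ∉ S
  ne_p : q ≠ p
  dvd : p ^ n ∣ q - 1
  eig : ∃ α β : k, α ≠ β ∧ α * β = 1 ∧ ∀ A : ValuationSubring Qbar, A.LiesOverPrime q →
        ∀ τ : GQ, A.IsFrobeniusAt τ q → (ρ τ).trace = α + β

theorem TWCond.exists_primes (H : TWCond p k ρ) (F : Finset (GQ → Matrix (Fin 2) (Fin 2) k))
    (hF : ∀ c ∈ F, TwC p ρ c ∧ ¬ TwB p ρ c) (n : ℕ) :
    ∀ (S : Set ℕ) (_ : S.Finite)
    (_ : ∀ q : ℕ, q.Prime → q ∉ S → ∀ A : ValuationSubring Qbar, A.LiesOverPrime q →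
      ∀ g ∈ A.inertiaSubgroupIn ℚ, ρ g = 1),
    ∃ Q : Finset ℕ, Q.card = F.card ∧ (∀ q ∈ Q, GoodQ p ρ S n q) ∧
      ∀ c ∈ F, ∃ q ∈ Q, ∀ A : ValuationSubring Qbar, A.LiesOverPrime q → ¬ LocB p ρ c A := by
  classical
  induction F using Finset.induction_on with
  | empty =>
    intro S _ _
    exact ⟨∅, rfl, by simp, by simp⟩
  | insert c F hcF ih =>
    intro S hS hunr
    obtain ⟨hc, hcB⟩ := hF c (Finset.mem_insert_self c F)
    obtain ⟨σ₀, hσ₀, α, β, hne, hαβ, htr⟩ := H.reg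
    have hdet : (ρ σ₀).det = α * β := by rw [H.det, chk_of_cycP hσ₀, hαβ]
    obtain ⟨σ, hσ, hρσ, htrσ⟩ := H.exists_sigma hc hcB hσ₀ (ne_scalar hne hdet htr)
    obtain ⟨q, hq, hqS, hqp, hdvd, heig, hloc⟩ := H.exists_prime hc hσ hne hαβ
      (by rw [hρσ, htr]) S hS hunr n
    obtain ⟨Q, hQ1, hQ2, hQ3⟩ := ih (fun c' hc' => hF c' (Finset.mem_insert_of_mem hc'))
      (insert q S) (hS.insert q) (fun q' hq' hq'S => hunr q' hq' fun h =>
        hq'S (Set.mem_insert_of_mem q h))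
    have hqQ : q ∉ Q := fun h => (hQ2 q h).nmem (Set.mem_insert q S)
    refine ⟨insert q Q, ?_, ?_, ?_⟩
    · rw [Finset.card_insert_of_notMem hqQ, Finset.card_insert_of_notMem hcF, hQ1]
    · intro q' hq'
      rcases Finset.mem_insert.mp hq' with rfl | hq'
      · exact ⟨hq, hqS, hqp, hdvd, heig⟩
      · obtain ⟨h1, h2, h3, h4, h5⟩ := hQ2 q' hq'
        exact ⟨h1, fun h => h2 (Set.mem_insert_of_mem q h), h3, h4, h5⟩
    · intro c' hc'
      rcases Finset.mem_insert.mp hc' with rfl | hc'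
      · exact ⟨q, Finset.mem_insert_self q Q, hloc htrσ⟩
      · obtain ⟨q', hq', h⟩ := hQ3 c' hc'
        exact ⟨q', Finset.mem_insert_of_mem hq', h⟩

end Fermat.Agent.TWPr
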