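import Fermat.Agent.TWPr.Cond
import Fermat.Agent.CFT.Sha2

/-!
# The adjoint representation and its Cartier dual as Galois modules
-/

set_option autoImplicit false
set_option maxHeartbeats 400000

noncomputable section

namespace Fermat.Agent.TWPr

open Matrix Fermat.Agent.DefRing Fermat.Agent.GalRep Fermat.Agent.S43Glue

local notation "Qbar" => AlgebraicClosure ℚ

/-- trace zero matrices -/
def sl0 (k : Type) [Field k] : Submodule k (Matrix (Fin 2) (Fin 2) k) :=
  LinearMap.ker (Matrix.traceLinearMap (Fin 2) k k)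

theorem mem_sl0 {k : Type} [Field k] {X : Matrix (Fin 2) (Fin 2) k} :
    X ∈ sl0 k ↔ X.trace = 0 := Iff.rfl

/-- the adjoint representation -/
def VV {k : Type} [Field k] (_ : GQ →* Matrix (Fin 2) (Fin 2) k) : Type := sl0 k

/-- the twisted adjoint representation -/
def WW (_ : ℕ) {k : Type} [Field k] (_ : GQ →* Matrix (Fin 2) (Fin 2) k) : Type := sl0 k

section basic

variable {p : ℕ} {k : Type} [Field k] {ρ : GQ →* Matrix (Fin 2) (Fin 2) k}

instance : AddCommGroup (VV ρ) := inferInstanceAs (AddCommGroup (sl0 k))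
instance : AddCommGroup (WW p ρ) := inferInstanceAs (AddCommGroup (sl0 k))
instance : Module k (VV ρ) := inferInstanceAs (Module k (sl0 k))
instance : Module k (WW p ρ) := inferInstanceAs (Module k (sl0 k))
instance [Algebra (ZMod p) k] : Module (ZMod p) (VV ρ) := inferInstanceAs (Module (ZMod p) (sl0 k))
instance [Algebra (ZMod p) k] : Module (ZMod p) (WW p ρ) :=
  inferInstanceAs (Module (ZMod p) (sl0 k))
instance [Finite k] : Finite (VV ρ) := inferInstanceAs (Finite (sl0 k))
instance [Finite k] : Finite (WW p ρ) := inferInstanceAs (Finite (sl0 k))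

/-- the underlying matrix -/
def VV.mat (X : VV ρ) : Matrix (Fin 2) (Fin 2) k := (show sl0 k from X).1

/-- the underlying matrix -/
def WW.mat (X : WW p ρ) : Matrix (Fin 2) (Fin 2) k := (show sl0 k from X).1

/-- constructor -/
def VV.mk (X : Matrix (Fin 2) (Fin 2) k) (h : X.trace = 0) : VV ρ := (⟨X, h⟩ : sl0 k)

/-- constructor -/
def WW.mk (X : Matrix (Fin 2) (Fin 2) k) (h : X.trace = 0) : WW p ρ := (⟨X, h⟩ : sl0 k)

theorem VV.ext' {X Y : VV ρ} (h : X.mat = Y.mat) : X = Y := Subtype.ext h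
theorem WW.ext' {X Y : WW p ρ} (h : X.mat = Y.mat) : X = Y := Subtype.ext h
theorem VV.trace (X : VV ρ) : X.mat.trace = 0 := (show sl0 k from X).2
theorem WW.trace (X : WW p ρ) : X.mat.trace = 0 := (show sl0 k from X).2
@[simp] theorem VV.mat_mk (X : Matrix (Fin 2) (Fin 2) k) (h : X.trace = 0) :
    (VV.mk X h : VV ρ).mat = X := rfl
@[simp] theorem WW.mat_mk (X : Matrix (Fin 2) (Fin 2) k) (h : X.trace = 0) :
    (WW.mk X h : WW p ρ).mat = X := rfl
@[simp] theorem VV.mat_add (X Y : VV ρ) : (X + Y).mat = X.mat + Y.mat := rfl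
@[simp] theorem WW.mat_add (X Y : WW p ρ) : (X + Y).mat = X.mat + Y.mat := rfl
@[simp] theorem VV.mat_zero : (0 : VV ρ).mat = 0 := rfl
@[simp] theorem WW.mat_zero : (0 : WW p ρ).mat = 0 := rfl
@[simp] theorem VV.mat_neg (X : VV ρ) : (-X).mat = -X.mat := rfl
@[simp] theorem WW.mat_neg (X : WW p ρ) : (-X).mat = -X.mat := rfl
@[simp] theorem VV.mat_sub (X Y : VV ρ) : (X - Y).mat = X.mat - Y.mat := rfl
@[simp] theorem WW.mat_sub (X Y : WW p ρ) : (X - Y).mat = X.mat - Y.mat := rfl
@[simp] theorem VV.mat_smulk (a : k) (X : VV ρ) : (a • X).mat = a • X.mat := rfl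
@[simp] theorem WW.mat_smulk (a : k) (X : WW p ρ) : (a • X).mat = a • X.mat := rfl

instance : DistribMulAction GQ (VV ρ) where
  smul g X := VV.mk (ρ g * X.mat * ρ g⁻¹) (by rw [trace_conj, X.trace])
  one_smul X := VV.ext' (by
    show ρ 1 * X.mat * ρ 1⁻¹ = X.mat
    rw [inv_one, map_one, one_mul, mul_one])
  mul_smul g h X := VV.ext' (by
    show ρ (g * h) * X.mat * ρ (g * h)⁻¹ = ρ g * (ρ h * X.mat * ρ h⁻¹) * ρ g⁻¹
    rw [map_mul, _root_.mul_inv_rev, map_mul]
    simp only [mul_assoc])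
  smul_zero g := VV.ext' (by
    show ρ g * 0 * ρ g⁻¹ = 0
    rw [mul_zero, zero_mul])
  smul_add g X Y := VV.ext' (by
    show ρ g * (X.mat + Y.mat) * ρ g⁻¹ = ρ g * X.mat * ρ g⁻¹ + ρ g * Y.mat * ρ g⁻¹
    rw [mul_add, add_mul])

theorem VV.mat_smul (g : GQ) (X : VV ρ) : (g • X).mat = ρ g * X.mat * ρ g⁻¹ := rfl

instance : SMulCommClass GQ k (VV ρ) where
  smul_comm g a X := VV.ext' (by
    rw [VV.mat_smul, VV.mat_smulk, VV.mat_smulk, VV.mat_smul, Matrix.mul_smul, Matrix.smul_mul])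

end basic

variable {p : ℕ} [hpf : Fact p.Prime] {k : Type} [Field k] [Algebra (ZMod p) k]
  {ρ : GQ →* Matrix (Fin 2) (Fin 2) k}

instance : DistribMulAction GQ (WW p ρ) where
  smul g X := WW.mk (ta p ρ g X.mat) (by rw [trace_ta, X.trace, mul_zero])
  one_smul X := WW.ext' (ta_one X.mat)
  mul_smul g h X := WW.ext' (ta_mul g h X.mat)
  smul_zero g := WW.ext' (ta_zero g)
  smul_add g X Y := WW.ext' (ta_add g X.mat Y.mat)

theorem WW.mat_smul (g : GQ) (X : WW p ρ) : (g • X).mat = ta p ρ g X.mat := rfl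

variable (p ρ) in
/-- the pairing -/
def BB : VV ρ →+ WW p ρ →+ ZMod p :=
  AddMonoidHom.mk' (fun X => AddMonoidHom.mk' (fun Y =>
      Algebra.trace (ZMod p) k (X.mat * Y.mat).trace) (fun Y Y' => by
        rw [WW.mat_add, mul_add, Matrix.trace_add, map_add]))
    (fun X X' => by
      ext Y
      show Algebra.trace (ZMod p) k ((X + X').mat * Y.mat).trace =
        Algebra.trace (ZMod p) k (X.mat * Y.mat).trace +
          Algebra.trace (ZMod p) k (X'.mat * Y.mat).trace
      rw [VV.mat_add, add_mul, Matrix.trace_add, map_add])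

theorem BB_apply (X : VV ρ) (Y : WW p ρ) :
    BB p ρ X Y = Algebra.trace (ZMod p) k (X.mat * Y.mat).trace := rfl

theorem BB_equi {ζ : Qbar} (hζ : IsPrimitiveRoot ζ p) (g : GQ) (c : ZMod p)
    (hg : g ζ = ζ ^ c.val) (X : VV ρ) (Y : WW p ρ) :
    BB p ρ (g • X) (g • Y) = c * BB p ρ X Y := by
  have h1 : chiK p (ZMod p) g = c := by
    rw [chiK_spec p (ZMod p) g hζ hg, ZMod.natCast_zmod_val]
  rw [BB_apply, BB_apply, VV.mat_smul, WW.mat_smul, ta]
  have h2 : (ρ g * X.mat * ρ g⁻¹ *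
      (chk p k g • (ρ g * Y.mat * ρ g⁻¹))).trace =
      algebraMap (ZMod p) k c * (X.mat * Y.mat).trace := by
    rw [Matrix.mul_smul, Matrix.trace_smul, smul_eq_mul]
    have h3 : ρ g * X.mat * ρ g⁻¹ * (ρ g * Y.mat * ρ g⁻¹) =
        ρ g * (X.mat * Y.mat) * ρ g⁻¹ := by
      calc _ = ρ g * X.mat * (ρ g⁻¹ * ρ g) * Y.mat * ρ g⁻¹ := by simp only [mul_assoc]
        _ = _ := by rw [rinv', mul_one]; simp only [mul_assoc]
    rw [h3, trace_conj]
    congr 1
    change algebraMap (ZMod p) k (chiK p (ZMod p) g) = _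
    rw [h1]
  rw [h2, ← smul_eq_mul, algebraMap_smul, map_smul, smul_eq_mul]

theorem BB_sep [Finite k] (h2k : (2 : k) ≠ 0) (Y : WW p ρ) (h : ∀ X : VV ρ, BB p ρ X Y = 0) :
    Y = 0 := by
  have hfin : Module.Finite (ZMod p) k := Module.Finite.of_finite
  have hsep : Algebra.IsSeparable (ZMod p) k := inferInstance
  have h0 : ∀ X : Matrix (Fin 2) (Fin 2) k, X.trace = 0 → (X * Y.mat).trace = 0 := by
    intro X hX
    by_contra hne
    have h1 := traceForm_nondegenerate (ZMod p) k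
    have h2 : ∀ a : k, Algebra.traceForm (ZMod p) k ((X * Y.mat).trace) a = 0 := by
      intro a
      have h3 := h (VV.mk (a • X) (by rw [Matrix.trace_smul, hX, smul_zero]))
      rw [BB_apply, VV.mat_mk, Matrix.smul_mul, Matrix.trace_smul, smul_eq_mul] at h3
      rw [Algebra.traceForm_apply, mul_comm]
      exact h3
    exact hne (h1.1 _ h2)
  apply WW.ext'
  rw [WW.mat_zero]
  have e1 := h0 !![0, 1; 0, 0] (by rw [Matrix.trace_fin_two_of, add_zero])
  have e2 := h0 !![0, 0; 1, 0] (by rw [Matrix.trace_fin_two_of, add_zero])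
  have e3 := h0 !![1, 0; 0, -1] (by rw [Matrix.trace_fin_two_of, add_neg_cancel])
  have e4 := Y.trace
  rw [Matrix.trace_fin_two] at e1 e2 e3 e4
  simp only [Matrix.mul_apply, Fin.sum_univ_two, Matrix.of_apply, Matrix.cons_val',
    Matrix.cons_val_zero, Matrix.cons_val_one, Matrix.cons_val_fin_one, Fin.isValue, zero_mul,
    one_mul, zero_add, add_zero] at e1 e2 e3
  have e5 : Y.mat 0 0 = 0 := by
    have : (2 : k) * Y.mat 0 0 = 0 := by linear_combination e3 + e4
    exact (mul_eq_zero.mp this).resolve_left h2k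
  have e6 : Y.mat 1 1 = 0 := by linear_combination e4 - e5
  ext i j
  fin_cases i <;> fin_cases j
  · exact e5
  · exact e2
  · exact e1
  · exact e6

/-- the duality data -/
theorem pdata [Finite k] (h2k : (2 : k) ≠ 0) {ζ : Qbar} (hζ : IsPrimitiveRoot ζ p) :
    CFT.PData p ζ (BB p ρ) where
  tors v := by
    have h1 : ((p : ℕ) : ZMod p) • v = 0 := by rw [CharP.cast_eq_zero, zero_smul]
    rwa [Nat.cast_smul_eq_nsmul] at h1
  equi g c hg v w := BB_equi hζ g c hg v w
  sep w h := BB_sep h2k w h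
  surj f := by
    haveI : Module.Finite (ZMod p) (VV ρ) := Module.Finite.of_finite
    haveI : Module.Finite (ZMod p) (WW p ρ) := Module.Finite.of_finite
    let F : WW p ρ →ₗ[ZMod p] (VV ρ →ₗ[ZMod p] ZMod p) :=
      AddMonoidHom.toZModLinearMap p (AddMonoidHom.mk' (fun Y =>
        AddMonoidHom.toZModLinearMap p ((BB p ρ).flip Y)) (fun Y Y' => by
          ext X
          show BB p ρ X (Y + Y') = BB p ρ X Y + BB p ρ X Y'
          rw [map_add]))
    have hF : Function.Injective F := by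
      rw [injective_iff_map_eq_zero]
      intro Y hY
      exact BB_sep h2k Y fun X => LinearMap.congr_fun hY X
    have hdim : Module.finrank (ZMod p) (WW p ρ) =
        Module.finrank (ZMod p) (VV ρ →ₗ[ZMod p] ZMod p) :=
      (Subspace.dual_finrank_eq (K := ZMod p) (V := VV ρ)).symm
    obtain ⟨Y, hY⟩ := (LinearMap.injective_iff_surjective_of_finrank_eq_finrank hdim).mp hF
      (AddMonoidHom.toZModLinearMap p f)
    exact ⟨Y, fun X => (LinearMap.congr_fun hY X).symm⟩

end Fermat.Agent.TWPr
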