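import Fermat.Agent.TWPr.Conds
import Fermat.Agent.TWPr.Prime
import Fermat.Prelude.Def_GaloisRep_ComplexConjugation

/-!
# Assembly of the Selmer bound
-/

set_option autoImplicit false
set_option maxHeartbeats 400000

noncomputable section

namespace Fermat.Agent.TWPr

open Matrix Fermat.Agent.DefRing Fermat.Agent.GalRep Fermat.Agent.S43Glue
open Fermat.Agent.CFT hiding GQ

local notation "Qbar" => AlgebraicClosure ℚ

variable {p : ℕ} [hpf : Fact p.Prime] {k : Type} [Field k] [Algebra (ZMod p) k]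
  {ρ : GQ →* Matrix (Fin 2) (Fin 2) k} {Smin s : Finset Nat.Primes}
  {Lp : Submodule k ((padicPlace p).decompositionSubgroup ℚ → Matrix (Fin 2) (Fin 2) k)}

open Classical in
variable (p ρ Smin s Lp) in
/-- local conditions including Taylor–Wiles primes -/
def LcQ (Q : Finset ℕ) (q : Nat.Primes) : AddSubgroup (LG q → VV ρ) :=
  if (q : ℕ) ∈ Q then Z1q q (VV ρ) else LcOf ρ (Pq p ρ Smin s Lp q) q

/-- the sum of the exponents -/
theorem sum_dq (hp : pP p ∈ Smin) (hd : ∀ q ∈ s, q ∉ Smin) {T : Finset Nat.Primes}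
    (hT : Smin ∪ s ⊆ T) : ∑ q ∈ T, dq p Smin s q + 3 * s.card = 3 * T.card + 1 := by
  classical
  have h1 : ∀ q ∈ T, dq p Smin s q + (if q ∈ s then 3 else 0) = 3 + (if q = pP p then 1 else 0) := by
    intro q _
    unfold dq
    by_cases h2 : q = pP p
    · have h3 : q ∉ s := fun h => hd q h (h2 ▸ hp)
      simp [h2, h3]
      exact fun h => h3 (h2 ▸ h)
    · by_cases h3 : q ∈ Smin
      · have h4 : q ∉ s := fun h => hd q h h3
        simp [h2, h3, h4]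
      · by_cases h4 : q ∈ s
        · simp [h2, h3, h4]
        · simp [h2, h3, h4]
  have h2 := Finset.sum_congr rfl h1
  rw [Finset.sum_add_distrib, Finset.sum_add_distrib, Finset.sum_ite_mem,
    Finset.sum_const, Finset.sum_const, Finset.sum_ite_eq', smul_eq_mul, smul_eq_mul,
    if_pos (hT (Finset.mem_union_left _ hp)),
    Finset.inter_eq_right.mpr (Finset.subset_union_right.trans hT)] at h2
  linarith

/-- the size bound at Taylor–Wiles primes (hypothesis) -/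
def L3Hyp (p : ℕ) [Fact p.Prime] (k : Type) [Field k] [Algebra (ZMod p) k]
    (ρ : GQ →* Matrix (Fin 2) (Fin 2) k) : Prop :=
  ∀ q : Nat.Primes, (q : ℕ) ≠ p → p ∣ (q : ℕ) - 1 →
    (∀ σ ∈ (padicPlace (q : ℕ)).inertiaSubgroupIn ℚ, ρ σ = 1) →
    ∀ φ : GQ, (padicPlace (q : ℕ)).IsFrobeniusAt φ q → ∀ α β : k, α ≠ β →
      (ρ φ).det = α * β → (ρ φ).trace = α + β → Nat.card (Z1q q (VV ρ)) ≤ Nat.card k ^ 4

/-- cocycles of the dual representation as matrix valued functions -/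
theorem twC_of_mem {x : GQ → WW p ρ} {T : Finset Nat.Primes} (hx : x ∈ Z1S T (WW p ρ)) :
    TwC p ρ (fun g => (x g).mat) where
  mul g h := by
    rw [hx.1 g h, WW.mat_add, WW.mat_smul]
  tr g := (x g).trace
  lev := by
    have h1 := (finLev_of_levC hx.1 hx.2).comp (WW.mat)
    exact h1

theorem mem_B1_of_twB {x : GQ → WW p ρ} (h : TwB p ρ (fun g => (x g).mat)) :
    x ∈ B1 GQ (WW p ρ) := by
  obtain ⟨X, hX, h⟩ := h
  refine ⟨WW.mk X hX, fun g => WW.ext' ?_⟩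
  rw [WW.mat_sub, WW.mat_smul, WW.mat_mk]
  exact h g

theorem locB_of_mem {x : GQ → WW p ρ} {q : Nat.Primes}
    (h : (fun d => x (localGaloisToGlobal (q : ℕ) d)) ∈ B1q q (WW p ρ)) :
    LocB p ρ (fun g => (x g).mat) (padicPlace (q : ℕ)) := by
  obtain ⟨v, hv⟩ := h
  refine ⟨v.mat, v.trace, fun g hg => ?_⟩
  obtain ⟨d, rfl⟩ := CFTSec.exists_lg_eq_decomp (q := (q : ℕ)) hg
  exact congrArg WW.mat (hv d)

theorem chk_inertia {q : ℕ} (hq : q.Prime) (hqp : q ≠ p) {A : ValuationSubring Qbar}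
    (hA : A.LiesOverPrime q) {σ : GQ} (hσ : σ ∈ A.inertiaSubgroupIn ℚ) : chk p k σ = 1 := by
  change algebraMap (ZMod p) k (chiK p (ZMod p) σ) = 1
  rw [chiK_inertia p _ hq hA hqp hσ, map_one]

theorem levM_WW {T : Finset Nat.Primes} (hp : pP p ∈ T) (h2k : (2 : k) ≠ 0) [Finite k]
    {ζ : Qbar} (hζ : IsPrimitiveRoot ζ p) (hV : LevM T (VV ρ)) : LevM T (WW p ρ) :=
  (pdata h2k hζ).levM hp hζ hV

/-- dual Selmer classes which are locally trivial at `Q` descend -/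
theorem descend [Finite k] (h2k : (2 : k) ≠ 0) {ζ : Qbar} (hζ : IsPrimitiveRoot ζ p)
    {T₁ T : Finset Nat.Primes} (hp : pP p ∈ T₁) (hV : LevM T₁ (VV ρ))
    {x : GQ → WW p ρ} (hx : x ∈ Z1S T (WW p ρ))
    (hunr : ∀ q : Nat.Primes, q ∉ T₁ → ∀ A : ValuationSubring Qbar, A.LiesOverPrime (q : ℕ) →
      ∀ σ ∈ A.inertiaSubgroupIn ℚ, ρ σ = 1)
    (hQ : ∀ q ∈ T, q ∉ T₁ → (fun d => x (localGaloisToGlobal (q : ℕ) d)) ∈ B1q q (WW p ρ)) :
    x ∈ Z1S T₁ (WW p ρ) := by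
  refine ⟨hx.1, levC_of_inertia (levM_WW hp h2k hζ hV) hx.1 (finLev_of_levC hx.1 hx.2) ?_⟩
  intro q hq A hA σ hσ
  have hqp : (q : ℕ) ≠ p := fun h => hq (by
    have : q = pP p := Subtype.ext h
    rwa [this])
  have hta : ∀ Y : Matrix (Fin 2) (Fin 2) k, ta p ρ σ Y = Y := fun Y =>
    ta_triv (hunr q hq A hA σ hσ) (chk_inertia q.2 hqp hA hσ) Y
  by_cases hqT : q ∈ T
  · obtain ⟨g, hg⟩ := Frob.exists_eq_smul_Qbar A (padicPlace (q : ℕ)) q.2 hA
      (CFT.padicPlace_liesOver (q : ℕ))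
    have h1 := locB_of_mem (hQ q hqT hq)
    rw [hg] at h1
    obtain ⟨X, hX, h⟩ := (twC_of_mem hx).locB_of_smul g h1
    apply WW.ext'
    have h2 := h σ (TWGal.inertia_le_decomp hσ)
    simp only at h2
    rw [h2, hta, sub_self, WW.mat_zero]
  · obtain ⟨E, hE, h⟩ := hx.2
    have hx1 : x 1 = 0 := by
      have := hx.1 1 1
      rw [mul_one, one_smul, left_eq_add] at this
      exact this
    rw [← one_mul σ, h 1 σ (hE.2 q hqT A hA hσ), hx1]

variable (ρ) in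
/-- the Selmer module as a space of matrix valued functions -/
def selZ (T : Finset Nat.Primes) (Lc : ∀ q : Nat.Primes, AddSubgroup (LG q → VV ρ))
    (hk : ∀ q, ∀ y ∈ Lc q, ∀ a : k, (fun d => a • y d) ∈ Lc q) :
    Submodule k (GQ → Matrix (Fin 2) (Fin 2) k) where
  carrier := {C | ∃ x ∈ SelL T (VV ρ) Lc, ∀ g, (x g).mat = C g}
  zero_mem' := ⟨0, (SelL T (VV ρ) Lc).zero_mem, fun _ => rfl⟩
  add_mem' := by
    rintro a b ⟨x, hx, h⟩ ⟨x', hx', h'⟩
    refine ⟨x + x', (SelL T (VV ρ) Lc).add_mem hx hx', fun g => ?_⟩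
    show (x g + x' g).mat = _
    rw [VV.mat_add, h, h']
    rfl
  smul_mem' := by
    rintro t a ⟨x, hx, h⟩
    refine ⟨fun g => t • x g, ⟨⟨fun g g' => ?_, hx.1.2.comp (fun y => t • y)⟩,
      fun q hq => hk q _ (hx.2 q hq) t⟩, fun g => ?_⟩
    · show t • x (g * g') = t • x g + g • t • x g'
      rw [hx.1.1 g g', smul_add, smul_comm g t]
    · rw [VV.mat_smulk, h]
      rfl

theorem card_selZ {T : Finset Nat.Primes} {Lc : ∀ q : Nat.Primes, AddSubgroup (LG q → VV ρ)}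
    {hk : ∀ q, ∀ y ∈ Lc q, ∀ a : k, (fun d => a • y d) ∈ Lc q} [Finite (SelL T (VV ρ) Lc)] :
    Finite (selZ ρ T Lc hk) ∧ Nat.card (selZ ρ T Lc hk) ≤ Nat.card (SelL T (VV ρ) Lc) := by
  have hs : Function.Surjective (fun x : SelL T (VV ρ) Lc =>
      (⟨fun g => (x.1 g).mat, x.1, x.2, fun _ => rfl⟩ : selZ ρ T Lc hk)) := by
    rintro ⟨C, x, hx, h⟩
    refine ⟨⟨x, hx⟩, Subtype.ext (funext fun g => h g)⟩
  exact ⟨Finite.of_surjective _ hs, Nat.card_le_card_of_surjective _ hs⟩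

end Fermat.Agent.TWPr
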