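import Fermat.Agent.TWPr.Gw

/-!
# The local conditions and their sizes
-/

set_option autoImplicit false
set_option maxHeartbeats 400000

noncomputable section

namespace Fermat.Agent.TWPr

open Matrix Fermat.Agent.DefRing Fermat.Agent.GalRep Fermat.Agent.S43Glue
open Fermat.Agent.CFT hiding GQ

local notation "Qbar" => AlgebraicClosure ℚ

variable {k : Type} [Field k]

/-- cocycles satisfying pointwise linear conditions on a set -/
def condSub (ρ : GQ →* Matrix (Fin 2) (Fin 2) k) {M : Type} [AddCommGroup M] [Module k M]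
    (I : Set GQ) (L : GQ → (Matrix (Fin 2) (Fin 2) k →ₗ[k] M)) :
    Submodule k (GQ → Matrix (Fin 2) (Fin 2) k) where
  carrier := {C | C ∈ G1 ρ ∧ ∀ σ ∈ I, L σ (C σ) = 0}
  zero_mem' := ⟨(G1 ρ).zero_mem, fun σ _ => map_zero _⟩
  add_mem' := fun {a b} ha hb => ⟨(G1 ρ).add_mem ha.1 hb.1, fun σ hσ => by
    show L σ (a σ + b σ) = 0
    rw [map_add, ha.2 σ hσ, hb.2 σ hσ, add_zero]⟩
  smul_mem' := fun t a ha => ⟨(G1 ρ).smul_mem t ha.1, fun σ hσ => by
    show L σ (t • a σ) = 0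
    rw [map_smul, ha.2 σ hσ, smul_zero]⟩

/-- the trace condition -/
def trL (ρ : GQ →* Matrix (Fin 2) (Fin 2) k) (σ : GQ) : Matrix (Fin 2) (Fin 2) k →ₗ[k] k :=
  (Matrix.traceLinearMap (Fin 2) k k).comp (LinearMap.mulRight k (ρ σ))

theorem trL_apply (ρ : GQ →* Matrix (Fin 2) (Fin 2) k) (σ : GQ) (X : Matrix (Fin 2) (Fin 2) k) :
    trL ρ σ X = (X * ρ σ).trace := rfl

/-- restriction to the decomposition group -/
abbrev resD (k : Type) [Field k] (q : Nat.Primes) : (GQ → Matrix (Fin 2) (Fin 2) k) →ₗ[k]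
    ((padicPlace (q : ℕ)).decompositionSubgroup ℚ → Matrix (Fin 2) (Fin 2) k) :=
  LinearMap.funLeft k (Matrix (Fin 2) (Fin 2) k)
      (Subtype.val : (padicPlace (q : ℕ)).decompositionSubgroup ℚ → GQ)

open Classical in
/-- the local conditions -/
def Pq (p : ℕ) [Fact p.Prime] (ρ : GQ →* Matrix (Fin 2) (Fin 2) k) (Smin s : Finset Nat.Primes)
    (Lp : Submodule k ((padicPlace p).decompositionSubgroup ℚ → Matrix (Fin 2) (Fin 2) k))
    (q : Nat.Primes) : Submodule k (GQ → Matrix (Fin 2) (Fin 2) k) :=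
  if q = pP p then G1 ρ ⊓ Lp.comap (resD k (pP p))
  else if q ∈ Smin then condSub ρ {σ | σ ∈ (padicPlace (q : ℕ)).inertiaSubgroupIn ℚ} (trL ρ)
  else if q ∈ s then
    condSub ρ {σ | σ ∈ (padicPlace (q : ℕ)).decompositionSubgroup ℚ} (fun _ => LinearMap.id)
  else condSub ρ {σ | σ ∈ (padicPlace (q : ℕ)).inertiaSubgroupIn ℚ} (fun _ => LinearMap.id)

open Classical in
/-- the exponents -/
def dq (p : ℕ) [Fact p.Prime] (Smin s : Finset Nat.Primes) (q : Nat.Primes) : ℕ :=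
  if q = pP p then 4 else if q ∈ Smin then 3 else if q ∈ s then 0 else 3

variable {p : ℕ} [hpf : Fact p.Prime] [Algebra (ZMod p) k]
  {ρ : GQ →* Matrix (Fin 2) (Fin 2) k} {Smin s : Finset Nat.Primes}
  {Lp : Submodule k ((padicPlace p).decompositionSubgroup ℚ → Matrix (Fin 2) (Fin 2) k)}

omit [Algebra (ZMod p) k] in
theorem Pq_le (q : Nat.Primes) : Pq p ρ Smin s Lp q ≤ G1 ρ := by
  unfold Pq
  split_ifs
  · exact inf_le_left
  · exact fun C hC => hC.1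
  · exact fun C hC => hC.1
  · exact fun C hC => hC.1

/-- the size of the unramified condition -/
theorem card_unr [Finite k] (q : Nat.Primes) : Nat.card (LcOf ρ (condSub ρ
    {σ | σ ∈ (padicPlace (q : ℕ)).inertiaSubgroupIn ℚ} (fun _ => LinearMap.id)) q) ≤
      Nat.card k ^ 3 := by
  rw [← card_VV (ρ := ρ)]
  have hA := CFT.padicPlace_liesOver (q : ℕ)
  obtain ⟨φ, hφ⟩ := Fermat.Agent.Frob.exists_isFrobeniusAt_Qbar (padicPlace (q : ℕ)) q.2 hA
  obtain ⟨dφ, hdφ⟩ := CFTSec.exists_lg_eq_decomp (q := (q : ℕ)) hφ.1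
  refine Nat.card_le_card_of_injective (fun y => y.1 dφ) ?_
  have key : ∀ y ∈ LcOf ρ (condSub ρ
      {σ | σ ∈ (padicPlace (q : ℕ)).inertiaSubgroupIn ℚ} (fun _ => LinearMap.id)) q,
      y dφ = 0 → y = 0 := by
    rintro y ⟨C, ⟨⟨hC1, hC2, hC3⟩, hCI⟩, hy⟩ h0
    have hCφ : C φ = 0 := by
      rw [← hdφ, ← hy, h0, VV.mat_zero]
    have hC1' : C 1 = 0 := hC1.one
    have hpow : ∀ n : ℕ, C (φ ^ n) = 0 := by
      intro n
      induction n with
      | zero => rw [pow_zero, hC1']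
      | succ n ih => rw [pow_succ, hC1, ih, hCφ, mul_zero, zero_mul, add_zero]
    obtain ⟨K, hK, h3⟩ := hC3
    funext d
    apply VV.ext'
    rw [hy]
    show C (localGaloisToGlobal (q : ℕ) d) = 0
    obtain ⟨n, σ, hσ, h⟩ := TWGal.exists_frob_mul_inertia q.2 hA hφ
      (localGaloisToGlobal_mem_decompositionSubgroup (q : ℕ) d) K
    have h4 : C ((φ ^ n * σ)⁻¹ * localGaloisToGlobal (q : ℕ) d) = 0 := h3 _ fun x hx => by
      rw [AlgEquiv.mul_apply, ← h x hx]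
      exact inv_smul_smul (φ ^ n * σ) x
    have h5 : C σ = 0 := hCI σ hσ
    rw [← mul_inv_cancel_left (φ ^ n * σ) (localGaloisToGlobal (q : ℕ) d), hC1, h4, mul_zero,
      zero_mul, add_zero, hC1, hpow, h5, mul_zero, zero_mul, add_zero]
  intro y y' hyy
  have h1 := key (y.1 - y'.1) (AddSubgroup.sub_mem _ y.2 y'.2) (by
    show y.1 dφ - y'.1 dφ = 0
    exact sub_eq_zero.mpr hyy)
  exact Subtype.ext (sub_eq_zero.mp h1)

/-- the size of the split condition -/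
theorem card_spl [Finite k] (q : Nat.Primes) : Nat.card (LcOf ρ (condSub ρ
    {σ | σ ∈ (padicPlace (q : ℕ)).decompositionSubgroup ℚ} (fun _ => LinearMap.id)) q) ≤
      Nat.card k ^ 0 := by
  rw [pow_zero]
  have h1 : ∀ y : LcOf ρ (condSub ρ
    {σ | σ ∈ (padicPlace (q : ℕ)).decompositionSubgroup ℚ} (fun _ => LinearMap.id)) q,
      y = 0 := by
    rintro ⟨y, C, ⟨-, hCI⟩, hy⟩
    apply Subtype.ext
    funext d
    apply VV.ext'
    show (y d).mat = _
    rw [hy]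
    exact hCI _ (localGaloisToGlobal_mem_decompositionSubgroup (q : ℕ) d)
  haveI : Subsingleton (LcOf ρ (condSub ρ
    {σ | σ ∈ (padicPlace (q : ℕ)).decompositionSubgroup ℚ} (fun _ => LinearMap.id)) q) :=
    ⟨fun a b => by rw [h1 a, h1 b]⟩
  exact (Nat.card_of_subsingleton 0).le

/-- the hypotheses on the residual representation -/
structure SelHyp (p : ℕ) [Fact p.Prime] (k : Type) [Field k] [Algebra (ZMod p) k]
    (ρ : GQ →* Matrix (Fin 2) (Fin 2) k) (Smin s : Finset Nat.Primes)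
    (Lp : Submodule k ((padicPlace p).decompositionSubgroup ℚ → Matrix (Fin 2) (Fin 2) k)) :
    Prop where
  cond : TWCond p k ρ
  hpS : pP p ∈ Smin
  disj : ∀ q ∈ s, q ∉ Smin
  unr : ∀ q : Nat.Primes, q ∉ Smin → ∀ A : ValuationSubring Qbar, A.LiesOverPrime (q : ℕ) →
      ∀ σ ∈ A.inertiaSubgroupIn ℚ, ρ σ = 1
  unip : ∀ q ∈ Smin, (q : ℕ) ≠ p → ∀ σ ∈ (padicPlace (q : ℕ)).inertiaSubgroupIn ℚ,
      (ρ σ - 1) * (ρ σ - 1) = 0
  ram : ∀ q ∈ Smin, (q : ℕ) ≠ p → ∃ σ ∈ (padicPlace (q : ℕ)).inertiaSubgroupIn ℚ, ρ σ ≠ 1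
  scal : ∀ q ∈ s, ∀ σ ∈ (padicPlace (q : ℕ)).decompositionSubgroup ℚ,
      ∃ a : k, ρ σ = a • (1 : Matrix (Fin 2) (Fin 2) k)
  Lfin : Module.Finite k Lp
  Lrank : Module.finrank k Lp ≤ 4
  Lcob : ∀ X : Matrix (Fin 2) (Fin 2) k, X.trace = 0 → resD k (pP p) (cob ρ X) ∈ Lp

theorem cob_eq_zero {X : Matrix (Fin 2) (Fin 2) k} {σ : GQ}
    (h : ∃ a : k, ρ σ = a • (1 : Matrix (Fin 2) (Fin 2) k)) : cob ρ X σ = 0 := by
  obtain ⟨a, ha⟩ := h
  have h1 : ρ σ * X = X * ρ σ := by rw [ha, Matrix.smul_mul, Matrix.mul_smul, one_mul, mul_one]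
  show ρ σ * X * ρ σ⁻¹ - X = 0
  rw [h1, mul_assoc, rinv, mul_one, sub_self]

theorem SelHyp.cob_mem (H : SelHyp p k ρ Smin s Lp) (q : Nat.Primes)
    {X : Matrix (Fin 2) (Fin 2) k} (hX : X.trace = 0) : cob ρ X ∈ Pq p ρ Smin s Lp q := by
  have h0 := TWPr.cob_mem H.cond.lev hX
  unfold Pq
  split_ifs with h1 h2 h3
  · exact ⟨h0, H.Lcob X hX⟩
  · refine ⟨h0, fun σ hσ => ?_⟩
    rw [trL_apply]
    show ((ρ σ * X * ρ σ⁻¹ - X) * ρ σ).trace = 0
    rw [sub_mul, Matrix.trace_sub, mul_assoc, rinv', mul_one, Matrix.trace_mul_comm, sub_self]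
  · exact ⟨h0, fun σ hσ => cob_eq_zero (H.scal q h3 σ hσ)⟩
  · refine ⟨h0, fun σ hσ => cob_eq_zero ⟨1, ?_⟩⟩
    rw [one_smul]
    exact H.unr q h2 _ (CFT.padicPlace_liesOver (q : ℕ)) σ hσ

/-- the sizes of the local conditions -/
theorem SelHyp.card_le [Finite k] (H : SelHyp p k ρ Smin s Lp) (q : Nat.Primes) :
    Nat.card (LcOf ρ (Pq p ρ Smin s Lp q) q) ≤ Nat.card k ^ dq p Smin s q := by
  haveI : CharP k p := charP_of_injective_algebraMap (algebraMap (ZMod p) k).injective p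
  unfold Pq dq
  split_ifs with h1 h2 h3
  · subst h1
    haveI := H.Lfin
    have hle : (G1 ρ ⊓ Lp.comap (resD k (pP p))).map (resD k (pP p)) ≤ Lp := by
      rintro _ ⟨C, hC, rfl⟩
      exact hC.2
    refine card_LcOf_le ?_ ((Submodule.finrank_mono hle).trans H.Lrank)
    exact Module.Finite.of_injective (Submodule.inclusion hle) (Submodule.inclusion_injective hle)
  · have hqp : p ≠ (q : ℕ) := by
      intro h
      apply h1
      exact Subtype.ext h.symm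
    obtain ⟨ha, hb⟩ := TWUni.finrank_le (p := p) (q := (q : ℕ)) q.2 hqp H.cond.p2 H.cond.lev
      (CFT.padicPlace_liesOver (q : ℕ)) (H.unip q h2 hqp.symm) (H.ram q h2 hqp.symm)
      (condSub ρ {σ | σ ∈ (padicPlace (q : ℕ)).inertiaSubgroupIn ℚ} (trL ρ))
      (fun C hC => ⟨hC.1.1, hC.1.2.1, hC.1.2.2, hC.2⟩)
    exact card_LcOf_le ha hb
  · exact card_spl q
  · exact card_unr q

end Fermat.Agent.TWPr
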