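import Fermat.Agent.TWPr.Lev
import Fermat.Agent.EulerC.EC
import Fermat.Agent.TWL4.Main
import Fermat.Agent.TWUni.Bound

/-!
# The Greenberg–Wiles bound for the adjoint representation
-/

set_option autoImplicit false
set_option maxHeartbeats 400000

noncomputable section

namespace Fermat.Agent.TWPr

open Matrix Fermat.Agent.DefRing Fermat.Agent.GalRep Fermat.Agent.S43Glue
open Fermat.Agent.CFT hiding GQ

local notation "Qbar" => AlgebraicClosure ℚ

variable {p : ℕ} [hpf : Fact p.Prime] {k : Type} [Field k] [Algebra (ZMod p) k]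
  {ρ : GQ →* Matrix (Fin 2) (Fin 2) k}

theorem tors_VV (x : VV ρ) : p • x = 0 := by
  have h1 : ((p : ℕ) : ZMod p) • x = 0 := by rw [CharP.cast_eq_zero, zero_smul]
  rwa [Nat.cast_smul_eq_nsmul] at h1

/-- **the Greenberg–Wiles bound** for the adjoint representation -/
theorem exists_gw [Finite k] (hp2 : 2 < p) (hlev : FlatLoc.FinLev ρ 1)
    {S₀ : Finset Nat.Primes} (hpS : pP p ∈ S₀)
    (hI : ∀ q : Nat.Primes, q ∉ S₀ → ∀ A : ValuationSubring Qbar, A.LiesOverPrime (q : ℕ) →
      ∀ s ∈ A.inertiaSubgroupIn ℚ, ρ s = 1)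
    (hun : ∀ q : Nat.Primes, (q : ℕ) ≠ p → ∀ σ ∈ (padicPlace (q : ℕ)).inertiaSubgroupIn ℚ,
      (ρ σ - 1) * (ρ σ - 1) = 0)
    {ζ : Qbar} (hζ : IsPrimitiveRoot ζ p) (h2k : (2 : k) ≠ 0)
    {ι : Qbar →+* ℂ} {c : GQ} (hc : ∀ x, ι (c x) = (starRingEnd ℂ) (ι x)) :
    ∃ T₁ : Finset Nat.Primes, S₀ ⊆ T₁ ∧ ∀ T, T₁ ⊆ T → GWBound (BB p ρ) T c := by
  haveI : CharP k p := charP_of_injective_algebraMap (algebraMap (ZMod p) k).injective p
  have hE := levM_VV hlev hI
  obtain ⟨T₁, hT₁, h⟩ := EulerC.ec_rep hp2 hpS hζ (ρ.toHomUnits) (by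
    obtain ⟨E, hE, h⟩ := hE
    refine ⟨E, hE, fun g hg => ?_⟩
    apply Units.ext
    exact h g hg)
  refine ⟨T₁, hT₁, fun T hT => ?_⟩
  have hV : LevM T (VV ρ) := by
    obtain ⟨E, hE, h⟩ := LevM_VV hE
    exact ⟨E, hE.mono (hT₁.trans hT), h⟩
  refine gw_bound hp2 (hT (hT₁ hpS)) hζ (pdata h2k hζ) hV c ?_ ?_
  · refine ECz_of hV c ?_
    refine (h T hT (VV ρ) tors_VV ?_ ι c hc).2.2
    rintro g ⟨a, ha⟩ - x
    apply VV.ext'
    have ha' : ρ g = a • (1 : Matrix (Fin 2) (Fin 2) k) := ha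
    rw [VV.mat_smul]
    have h1 : ρ g * x.mat = x.mat * ρ g := by
      rw [ha', Matrix.smul_mul, Matrix.mul_smul, one_mul, mul_one]
    rw [h1, mul_assoc, rinv, mul_one]
  · intro q hq
    haveI : Finite (RL q (VV ρ)) := inferInstanceAs (Finite (VV ρ))
    refine LECz_of (hV.opK q) ?_
    have h1 := TWL4.lb_of_rep (p := p) (k := k) (M := RL q (VV ρ)) (by omega) ρ
      (by
        obtain ⟨L, hL, h'⟩ := hlev
        exact ⟨L, hL, h'⟩) (q := (q : ℕ)) (hun q) (fun m => tors_VV (p := p) (show VV ρ from m))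
      (by
        intro g hg m
        show (localGaloisToGlobal (q : ℕ) g • (show VV ρ from m) : VV ρ) = m
        apply VV.ext'
        rw [VV.mat_smul, hg, one_mul]
        have h2 := rinv (ρ := ρ) (localGaloisToGlobal (q : ℕ) g)
        rw [hg, one_mul] at h2
        rw [h2, mul_one])
    exact h1.2

/-- the cardinality of the adjoint representation -/
theorem card_VV [Finite k] : Nat.card (VV ρ) = Nat.card k ^ 3 := by
  have e : VV ρ ≃ (Fin 3 → k) :=
    { toFun := fun X => ![X.mat 0 0, X.mat 0 1, X.mat 1 0]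
      invFun := fun f => VV.mk !![f 0, f 1; f 2, -f 0] (by
        rw [Matrix.trace_fin_two_of, add_neg_cancel])
      left_inv := fun X => by
        apply VV.ext'
        have h := X.trace
        rw [Matrix.trace_fin_two] at h
        have h1 : X.mat 1 1 = - X.mat 0 0 := by linear_combination h
        ext i j
        fin_cases i <;> fin_cases j
        · rfl
        · rfl
        · rfl
        · exact h1.symm
      right_inv := fun f => by
        ext i
        fin_cases i <;> rfl }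
  rw [Nat.card_congr e, Nat.card_fun, Nat.card_eq_fintype_card (α := Fin 3), Fintype.card_fin]

/-- complex conjugation fixes a line -/
theorem card_conj_ge [Finite k] (h2k : (2 : k) ≠ 0) (hdet : ∀ g, (ρ g).det = chk p k g)
    {ζ : Qbar} (hζ : IsPrimitiveRoot ζ p)
    {ι : Qbar →+* ℂ} {c : GQ} (hc : ∀ x, ι (c x) = (starRingEnd ℂ) (ι x)) :
    Nat.card k ≤ Nat.card (fix (VV ρ) (Subgroup.zpowers c)) := by
  have hcc : c * c = 1 := EulerC.conj_sq hc
  have h1 : c ζ = ζ ^ (p - 1) := by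
    apply ι.injective
    rw [hc, map_pow]
    have h2 : ‖ι ζ‖ = 1 := by
      have : (ι ζ) ^ p = 1 := by rw [← map_pow, hζ.pow_eq_one, map_one]
      exact Complex.norm_eq_one_of_pow_eq_one this hpf.out.ne_zero
    have h3 : (ι ζ) ^ (p - 1) = (ι ζ)⁻¹ := by
      symm
      apply inv_eq_of_mul_eq_one_left
      rw [← pow_succ, Nat.sub_add_cancel hpf.out.one_lt.le, ← map_pow, hζ.pow_eq_one, map_one]
    rw [h3, Complex.inv_def, Complex.normSq_eq_norm_sq, h2]
    simp
  have hchi : chk p k c = -1 := by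
    change algebraMap (ZMod p) k (chiK p (ZMod p) c) = -1
    rw [chiK_spec p (ZMod p) c hζ h1, Nat.cast_sub hpf.out.one_lt.le, CharP.cast_eq_zero,
      Nat.cast_one, zero_sub, map_neg, map_one]
  set M := ρ c with hM
  have hMM : M * M = 1 := by rw [hM, ← map_mul, hcc, map_one]
  have hMd : M.det = -1 := by rw [hM, hdet, hchi]
  set N := M - (M.trace / 2) • (1 : Matrix (Fin 2) (Fin 2) k) with hN
  have hNt : N.trace = 0 := by
    rw [hN, Matrix.trace_sub, Matrix.trace_smul, Matrix.trace_one, Fintype.card_fin, smul_eq_mul]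
    push_cast
    field_simp
    ring
  have hN0 : N ≠ 0 := by
    intro h0
    rw [hN, sub_eq_zero] at h0
    rw [h0, Matrix.smul_mul, Matrix.mul_smul, one_mul, smul_smul] at hMM
    rw [h0, Matrix.det_smul, Matrix.det_one, mul_one, Fintype.card_fin] at hMd
    have h5 := congrFun (congrFun hMM 0) 0
    rw [Matrix.smul_apply, Matrix.one_apply_eq, smul_eq_mul, mul_one] at h5
    apply h2k
    linear_combination hMd - h5
  have hcomm : M * N = N * M := by
    rw [hN, mul_sub, sub_mul, Matrix.mul_smul, Matrix.smul_mul, mul_one, one_mul]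
  have hfix : ∀ a : k, (VV.mk (a • N) (by rw [Matrix.trace_smul, hNt, smul_zero]) : VV ρ) ∈
      fix (VV ρ) (Subgroup.zpowers c) := by
    intro a g hg
    have h6 : c • (VV.mk (a • N) (by rw [Matrix.trace_smul, hNt, smul_zero]) : VV ρ) =
        VV.mk (a • N) (by rw [Matrix.trace_smul, hNt, smul_zero]) := by
      apply VV.ext'
      rw [VV.mat_smul, VV.mat_mk, Matrix.mul_smul, Matrix.smul_mul, ← hM, hcomm, mul_assoc, hM,
        rinv, mul_one]
    obtain ⟨n, rfl⟩ := hg
    exact (MulAction.mem_stabilizer_iff (G := GQ)).mp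
      (Subgroup.zpow_mem _ (MulAction.mem_stabilizer_iff.mpr h6) n)
  refine Nat.card_le_card_of_injective (fun a : k => (⟨_, hfix a⟩ : fix (VV ρ)
    (Subgroup.zpowers c))) ?_
  intro a b hab
  have h7 : a • N = b • N := congrArg (fun z : fix (VV ρ) (Subgroup.zpowers c) => VV.mat z.1) hab
  exact smul_left_injective k hN0 h7

end Fermat.Agent.TWPr
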