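import Fermat.Agent.TWPr.Cond

/-!
# The residual conditions from irreducibility on subgroups of index two
-/

set_option autoImplicit false
set_option maxHeartbeats 400000

noncomputable section

namespace Fermat.Agent.TWPr

open Matrix Fermat.Agent.DefRing Fermat.Agent.GalRep Fermat.Agent.S43Glue

local notation "Qbar" => AlgebraicClosure ℚ

variable {k : Type} [Field k] {ρ : GQ →* Matrix (Fin 2) (Fin 2) k}

/-- the commutant of every subgroup of index at most two consists of scalars -/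
def Comm2 (ρ : GQ →* Matrix (Fin 2) (Fin 2) k) : Prop :=
  ∀ G : Subgroup GQ, (G.index = 1 ∨ G.index = 2) → ∀ Y : Matrix (Fin 2) (Fin 2) k,
    (∀ g ∈ G, ρ g * Y = Y * ρ g) → ∃ a : k, Y = a • (1 : Matrix (Fin 2) (Fin 2) k)

/-- there are no stable lines -/
def NoLine (ρ : GQ →* Matrix (Fin 2) (Fin 2) k) : Prop :=
  ∀ v : Fin 2 → k, v ≠ 0 → ∃ g, ∀ a : k, ρ g *ᵥ v ≠ a • v

theorem Comm2.scalar_of_pm (h2 : (2 : k) ≠ 0) (H : Comm2 ρ) {Y : Matrix (Fin 2) (Fin 2) k}
    (hY : ∀ h, ρ h * Y = Y * ρ h ∨ ρ h * Y = -(Y * ρ h)) :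
    ∃ a : k, Y = a • (1 : Matrix (Fin 2) (Fin 2) k) := by
  by_cases hY0 : Y = 0
  · exact ⟨0, by rw [hY0, zero_smul]⟩
  let G : Subgroup GQ :=
    { carrier := {h | ρ h * Y = Y * ρ h}
      one_mem' := by rw [Set.mem_setOf_eq, map_one, one_mul, mul_one]
      mul_mem' := fun {a b} ha hb => by
        rw [Set.mem_setOf_eq] at ha hb ⊢
        rw [map_mul, mul_assoc, hb, ← mul_assoc, ha, mul_assoc]
      inv_mem' := fun {a} ha => by
        rw [Set.mem_setOf_eq] at ha ⊢
        calc ρ a⁻¹ * Y = ρ a⁻¹ * (Y * ρ a) * ρ a⁻¹ := by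
              rw [mul_assoc, mul_assoc, rinv, mul_one]
          _ = ρ a⁻¹ * (ρ a * Y) * ρ a⁻¹ := by rw [ha]
          _ = Y * ρ a⁻¹ := by rw [← mul_assoc (ρ a⁻¹), rinv', one_mul] }
  have hG : ∀ h, h ∈ G ↔ ρ h * Y = Y * ρ h := fun h => Iff.rfl
  refine H G ?_ Y fun g hg => hg
  by_cases htop : G = ⊤
  · left; rw [htop, Subgroup.index_top]
  · right
    have hne : ∃ a, a ∉ G := by
      by_contra hcon
      push Not at hcon
      exact htop (eq_top_iff.mpr fun x _ => hcon x)
    obtain ⟨a, ha⟩ := hne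
    have ha' : ρ a * Y = -(Y * ρ a) := (hY a).resolve_left ha
    rw [Subgroup.index_eq_two_iff]
    refine ⟨a, fun b => ?_⟩
    by_cases hb : b ∈ G
    · right
      refine ⟨hb, fun hba => ?_⟩
      rw [hG] at hb hba
      rw [map_mul, mul_assoc, ha', mul_neg, ← mul_assoc, hb, mul_assoc, ← map_mul] at hba
      have h3 : (2 : k) • (Y * ρ (b * a)) = 0 := by
        rw [two_smul]
        nth_rewrite 1 [← hba]
        exact neg_add_cancel _
      have h4 : Y * ρ (b * a) = 0 := (smul_eq_zero.mp h3).resolve_left h2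
      apply hY0
      calc Y = Y * ρ (b * a) * ρ (b * a)⁻¹ := by rw [mul_assoc, rinv, mul_one]
        _ = 0 := by rw [h4, zero_mul]
    · left
      refine ⟨?_, hb⟩
      have hb' : ρ b * Y = -(Y * ρ b) := (hY b).resolve_left hb
      rw [hG, map_mul, mul_assoc, ha', mul_neg, ← mul_assoc, hb', neg_mul, neg_neg, mul_assoc]

theorem exists_ker {X : Matrix (Fin 2) (Fin 2) k} (hd : X.det = 0) :
    ∃ v : Fin 2 → k, v ≠ 0 ∧ X *ᵥ v = 0 := Matrix.exists_mulVec_eq_zero_iff.mpr hd

theorem ker_line {X : Matrix (Fin 2) (Fin 2) k} (hX : X ≠ 0) {v w : Fin 2 → k} (hv : v ≠ 0)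
    (h1 : X *ᵥ v = 0) (h2 : X *ᵥ w = 0) : ∃ a : k, w = a • v := by
  have hex : ∃ i j, X i j ≠ 0 := by
    by_contra hcon
    push Not at hcon
    exact hX (by ext i j; exact hcon i j)
  obtain ⟨i, j, hij⟩ := hex
  have e1 := congrFun h1 i
  have e2 := congrFun h2 i
  rw [Matrix.mulVec, dotProduct, Fin.sum_univ_two, Pi.zero_apply] at e1 e2
  have hdet : v 0 * w 1 - v 1 * w 0 = 0 := by
    have h3 : X i 0 * (v 0 * w 1 - v 1 * w 0) = 0 := by linear_combination w 1 * e1 - v 1 * e2
    have h4 : X i 1 * (v 0 * w 1 - v 1 * w 0) = 0 := by linear_combination v 0 * e2 - w 0 * e1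
    fin_cases j
    · exact (mul_eq_zero.mp h3).resolve_left hij
    · exact (mul_eq_zero.mp h4).resolve_left hij
  by_cases h0 : v 0 = 0
  · have hv1 : v 1 ≠ 0 := by
      intro h1'
      apply hv
      ext l
      fin_cases l
      · exact h0
      · exact h1'
    refine ⟨w 1 / v 1, ?_⟩
    ext l
    fin_cases l
    · show w 0 = w 1 / v 1 * v 0
      rw [h0, mul_zero]
      rw [h0, zero_mul, zero_sub, neg_eq_zero] at hdet
      exact (mul_eq_zero.mp hdet).resolve_left hv1
    · show w 1 = w 1 / v 1 * v 1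
      rw [div_mul_cancel₀ _ hv1]
  · refine ⟨w 0 / v 0, ?_⟩
    ext l
    fin_cases l
    · show w 0 = w 0 / v 0 * v 0
      rw [div_mul_cancel₀ _ h0]
    · show w 1 = w 0 / v 0 * v 1
      rw [div_mul_eq_mul_div, eq_div_iff h0]
      linear_combination hdet

theorem pm_one_of_sq {a : k} (h : a ^ 2 = 1) : a = 1 ∨ a = -1 := by
  have h1 : (a - 1) * (a + 1) = 0 := by linear_combination h
  rcases mul_eq_zero.mp h1 with h | h
  · left; linear_combination h
  · right; linear_combination h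

/-- irreducibility of the adjoint representation -/
theorem irr_of (h2 : (2 : k) ≠ 0) (H : Comm2 ρ) (HL : NoLine ρ)
    (X : Matrix (Fin 2) (Fin 2) k) (hX : X.trace = 0) (hX0 : X ≠ 0) :
    ∃ g, ∀ a : k, ρ g * X * ρ g⁻¹ ≠ a • X := by
  by_contra hcon
  push Not at hcon
  have hrel : ∀ g, ∃ a : k, ρ g * X = a • (X * ρ g) ∧ a ≠ 0 := by
    intro g
    obtain ⟨a, ha⟩ := hcon g
    have h3 : ρ g * X = a • (X * ρ g) := by
      rw [← Matrix.smul_mul, ← ha, mul_assoc, rinv', mul_one]
    refine ⟨a, h3, ?_⟩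
    rintro rfl
    rw [zero_smul] at h3
    apply hX0
    calc X = ρ g⁻¹ * (ρ g * X) := by rw [← mul_assoc, rinv', one_mul]
      _ = 0 := by rw [h3, mul_zero]
  by_cases hd : X.det = 0
  · obtain ⟨v, hv, hXv⟩ := exists_ker hd
    obtain ⟨g, hg⟩ := HL v hv
    obtain ⟨a, ha, ha0⟩ := hrel g
    have h3 : X *ᵥ (ρ g *ᵥ v) = 0 := by
      have h4 : a • (X *ᵥ (ρ g *ᵥ v)) = 0 := by
        rw [Matrix.mulVec_mulVec, ← Matrix.smul_mulVec, ← ha, ← Matrix.mulVec_mulVec, hXv,
          Matrix.mulVec_zero]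
      exact (smul_eq_zero.mp h4).resolve_left ha0
    obtain ⟨b, hb⟩ := ker_line hX0 hv hXv h3
    exact hg b hb
  · obtain ⟨a, ha⟩ := H.scalar_of_pm h2 (Y := X) (by
      intro g
      obtain ⟨a, ha, ha0⟩ := hrel g
      have hρd : (ρ g).det ≠ 0 := by
        intro h0
        have h3 := congrArg Matrix.det (rinv (ρ := ρ) g)
        rw [Matrix.det_mul, h0, zero_mul, Matrix.det_one] at h3
        exact zero_ne_one h3
      have h3 := congrArg Matrix.det ha
      rw [Matrix.det_mul, Matrix.det_smul, Matrix.det_mul, Fintype.card_fin] at h3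
      have h4 : a ^ 2 = 1 := by
        apply mul_right_cancel₀ (mul_ne_zero hd hρd)
        linear_combination -h3
      rcases pm_one_of_sq h4 with h | h
      · left; rw [ha, h, one_smul]
      · right; rw [ha, h, neg_smul, one_smul])
    apply hX0
    rw [ha, Matrix.trace_smul, Matrix.trace_one, Fintype.card_fin, smul_eq_mul] at hX
    have h5 : a = 0 := by
      push_cast at hX
      exact (mul_eq_zero.mp hX).resolve_right h2
    rw [ha, h5, zero_smul]

/-- orthogonal nilpotent matrices are parallel -/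
theorem nilp_parallel {X Y : Matrix (Fin 2) (Fin 2) k} (hX : X ≠ 0) (hXt : X.trace = 0)
    (hXd : X.det = 0) (hYt : Y.trace = 0) (hYd : Y.det = 0) (h : (X * Y).trace = 0) :
    ∃ a : k, Y = a • X := by
  rw [Matrix.trace_fin_two] at hXt hYt h
  rw [Matrix.mul_apply, Matrix.mul_apply, Fin.sum_univ_two, Fin.sum_univ_two] at h
  rw [Matrix.det_fin_two] at hXd hYd
  have hX1 : X 1 1 = - X 0 0 := by linear_combination hXt
  have hY1 : Y 1 1 = - Y 0 0 := by linear_combination hYt
  rw [hX1] at hXd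
  rw [hY1] at hYd
  rw [hX1, hY1] at h
  have m1 : X 0 0 * Y 0 1 - X 0 1 * Y 0 0 = 0 := by
    have : (X 0 0 * Y 0 1 - X 0 1 * Y 0 0) ^ 2 = 0 := by
      linear_combination -(Y 0 1 ^ 2) * hXd - X 0 1 ^ 2 * hYd - X 0 1 * Y 0 1 * h
    exact pow_eq_zero_iff (two_ne_zero) |>.mp this
  have m2 : X 0 0 * Y 1 0 - X 1 0 * Y 0 0 = 0 := by
    have : (X 0 0 * Y 1 0 - X 1 0 * Y 0 0) ^ 2 = 0 := by
      linear_combination -(Y 1 0 ^ 2) * hXd - X 1 0 ^ 2 * hYd - X 1 0 * Y 1 0 * h
    exact pow_eq_zero_iff (two_ne_zero) |>.mp this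
  have m3 : X 0 1 * Y 1 0 - X 1 0 * Y 0 1 = 0 := by
    have : (X 0 1 * Y 1 0 - X 1 0 * Y 0 1) ^ 2 = 0 := by
      linear_combination (X 0 1 * Y 1 0 + X 1 0 * Y 0 1 - 2 * X 0 0 * Y 0 0) * h -
        4 * (Y 0 0) ^ 2 * hXd + 4 * X 0 1 * X 1 0 * hYd
    exact pow_eq_zero_iff (two_ne_zero) |>.mp this
  apply exists_smul_of_minors hX
  intro i j i' j'
  fin_cases i <;> fin_cases j <;> fin_cases i' <;> fin_cases j' <;>
    simp only [Fin.zero_eta, Fin.mk_one, Fin.isValue, hX1, hY1] <;>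
    first | ring1 | linear_combination m1 | linear_combination -m1 | linear_combination m2 |
      linear_combination -m2 | linear_combination m3 | linear_combination -m3

theorem sq_sub_one {M : Matrix (Fin 2) (Fin 2) k} {e : k} (hd : M.det = e * e)
    (ht : M.trace = e + e) : (M - e • (1 : Matrix (Fin 2) (Fin 2) k)) *
      (M - e • (1 : Matrix (Fin 2) (Fin 2) k)) = 0 := by
  rw [Matrix.det_fin_two] at hd
  rw [Matrix.trace_fin_two] at ht
  have h1 : M 1 1 = e + e - M 0 0 := by linear_combination ht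
  rw [h1] at hd
  ext i j
  fin_cases i <;> fin_cases j <;>
    simp [Matrix.mul_apply, Fin.sum_univ_two, h1] <;>
    first | linear_combination -hd | linear_combination hd | ring1

variable {p : ℕ} [hpf : Fact p.Prime] [Algebra (ZMod p) k]

/-- existence of regular elements -/
theorem reg_of (h2 : (2 : k) ≠ 0) (H : Comm2 ρ) (HL : NoLine ρ)
    (hdet : ∀ g, (ρ g).det = chk p k g)
    (hsplit : ∀ g, ∃ α β : k, (ρ g).trace = α + β ∧ (ρ g).det = α * β) :
    ∃ σ, cycP p σ = 1 ∧ ∃ α β : k, α ≠ β ∧ α * β = 1 ∧ (ρ σ).trace = α + β := by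
  by_contra hcon
  push Not at hcon
  have hirr := irr_of h2 H HL
  -- all elements are plus or minus unipotent
  have hpm : ∀ σ, cycP p σ = 1 → ∃ e : k, (e = 1 ∨ e = -1) ∧ (ρ σ).trace = e + e ∧
      (ρ σ).det = e * e := by
    intro σ hσ
    obtain ⟨α, β, h3, h4⟩ := hsplit σ
    have h5 : α * β = 1 := by rw [← h4, hdet, chk_of_cycP hσ]
    have h6 : α = β := by
      by_contra hne
      exact hcon σ hσ α β hne h5 h3
    subst h6
    exact ⟨α, pm_one_of_sq (by rw [sq]; exact h5), h3, h4⟩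
  -- all elements are scalar
  have hsc : ∀ σ, cycP p σ = 1 → ∃ e : k, (e = 1 ∨ e = -1) ∧
      ρ σ = e • (1 : Matrix (Fin 2) (Fin 2) k) := by
    intro σ hσ
    obtain ⟨e, he, ht, hd⟩ := hpm σ hσ
    refine ⟨e, he, ?_⟩
    by_contra hne
    have he2 : e * e = 1 := by rcases he with rfl | rfl <;> ring
    set N := ρ σ - e • (1 : Matrix (Fin 2) (Fin 2) k) with hN
    have hN0 : N ≠ 0 := sub_ne_zero.mpr hne
    have hNN : N * N = 0 := sq_sub_one hd ht
    have hσN : ρ σ = e • (1 : Matrix (Fin 2) (Fin 2) k) + N := by rw [hN]; abel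
    -- the square
    set X := ((2 : k) * e) • N with hX
    have h2e : (2 : k) * e ≠ 0 := mul_ne_zero h2 (by rintro rfl; simp at he2)
    have hX0 : X ≠ 0 := smul_ne_zero h2e hN0
    have hXX : X * X = 0 := by rw [hX, Matrix.smul_mul, Matrix.mul_smul, hNN, smul_zero, smul_zero]
    have hNt : N.trace = 0 := by
      rw [hN, Matrix.trace_sub, ht, Matrix.trace_smul, Matrix.trace_one, Fintype.card_fin,
        smul_eq_mul]
      push_cast
      ring
    have hXt : X.trace = 0 := by rw [hX, Matrix.trace_smul, hNt, smul_zero]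
    have hXd : X.det = 0 := by
      have h3 := congrArg Matrix.det hXX
      rw [Matrix.det_mul, Matrix.det_zero] at h3
      exact mul_self_eq_zero.mp h3
    have hσ2 : ρ (σ * σ) = 1 + X := by
      rw [map_mul, hσN, hX]
      rw [add_mul, mul_add, mul_add, hNN, Matrix.smul_mul, Matrix.mul_smul, Matrix.smul_mul,
        Matrix.mul_smul, one_mul, one_mul, mul_one, smul_smul, he2, one_smul, add_zero,
        mul_smul, two_smul]
      abel
    have hpow : ∀ {τ : GQ} {Y : Matrix (Fin 2) (Fin 2) k}, Y * Y = 0 → ρ τ = 1 + Y →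
        ρ (τ * τ) = 1 + (2 : k) • Y := by
      intro τ Y hY hτ
      rw [map_mul, hτ, add_mul, mul_add, mul_add, hY, one_mul, one_mul, mul_one, two_smul]
      abel
    -- all conjugates are parallel
    apply absurd hirr
    intro hirr'
    obtain ⟨g, hg⟩ := hirr' X hXt hX0
    set X' := ρ g * X * ρ g⁻¹ with hX'
    have hXX' : X' * X' = 0 := by
      rw [hX']
      calc ρ g * X * ρ g⁻¹ * (ρ g * X * ρ g⁻¹) = ρ g * X * (ρ g⁻¹ * ρ g) * X * ρ g⁻¹ := by
            simp only [mul_assoc]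
        _ = 0 := by rw [rinv', mul_one, mul_assoc (ρ g), hXX, mul_zero, zero_mul]
    have hXt' : X'.trace = 0 := by rw [hX', trace_conj, hXt]
    have hXd' : X'.det = 0 := by
      have h3 := congrArg Matrix.det hXX'
      rw [Matrix.det_mul, Matrix.det_zero] at h3
      exact mul_self_eq_zero.mp h3
    have hσ' : ρ (g * (σ * σ) * g⁻¹) = 1 + X' := by
      rw [map_mul, map_mul, hσ2, mul_add, add_mul, mul_one, rinv, hX']
    have hcyc2 : cycP p (σ * σ) = 1 := by rw [map_mul, hσ, one_mul]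
    have hcyc2' : cycP p (g * (σ * σ) * g⁻¹) = 1 := by rw [cycP_conj, hcyc2]
    have htr : ∀ {τ τ' : GQ} {Y Y' : Matrix (Fin 2) (Fin 2) k}, cycP p τ = 1 → cycP p τ' = 1 →
        ρ τ = 1 + Y → ρ τ' = 1 + Y' → Y.trace = 0 → Y'.trace = 0 →
        (Y * Y').trace = 0 ∨ (Y * Y').trace = -4 := by
      intro τ τ' Y Y' h3 h4 h5 h6 h7 h8
      obtain ⟨e', he', ht', -⟩ := hpm (τ * τ') (by rw [map_mul, h3, h4, one_mul])
      have h9 : (ρ (τ * τ')).trace = 2 + (Y * Y').trace := by
        rw [map_mul, h5, h6, add_mul, mul_add, mul_add, one_mul, one_mul, mul_one,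
          Matrix.trace_add, Matrix.trace_add, Matrix.trace_add, h7, h8, Matrix.trace_one,
          Fintype.card_fin]
        push_cast
        ring
      rw [h9] at ht'
      rcases he' with rfl | rfl
      · left; linear_combination ht'
      · right; linear_combination ht'
    have h11 := htr hcyc2 hcyc2' hσ2 hσ' hXt hXt'
    have h21 := htr (τ := (σ * σ) * (σ * σ)) (by rw [map_mul, hcyc2, one_mul]) hcyc2'
      (hpow hXX hσ2) hσ' (by rw [Matrix.trace_smul, hXt, smul_zero]) hXt'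
    rw [Matrix.smul_mul, Matrix.trace_smul, smul_eq_mul] at h21
    have h0 : (X * X').trace = 0 := by
      rcases h11 with h | h
      · exact h
      · exfalso
        rw [h] at h21
        rcases h21 with h | h
        · have : (2 : k) * 2 * 2 = 0 := by linear_combination -h
          exact mul_ne_zero (mul_ne_zero h2 h2) h2 this
        · have : (2 : k) * 2 = 0 := by linear_combination -h
          exact mul_ne_zero h2 h2 this
    obtain ⟨a, ha⟩ := nilp_parallel hX0 hXt hXd hXt' hXd' h0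
    exact hg a ha
  -- all elements are scalar
  have hall : ∀ g, ∃ a : k, ρ g = a • (1 : Matrix (Fin 2) (Fin 2) k) := by
    intro g
    apply H.scalar_of_pm h2
    intro h
    obtain ⟨e, he, hs⟩ := hsc (h * g * h⁻¹ * g⁻¹) (map_comm (cycP p) h g)
    have h3 : ρ h * ρ g = e • (ρ g * ρ h) := by
      calc ρ h * ρ g = ρ (h * g * h⁻¹ * g⁻¹) * (ρ g * ρ h) := by
            rw [← map_mul, ← map_mul, ← map_mul]
            congr 1
            group
        _ = e • (ρ g * ρ h) := by rw [hs, Matrix.smul_mul, one_mul]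
    rcases he with rfl | rfl
    · left; rw [h3, one_smul]
    · right; rw [h3, neg_smul, one_smul]
  obtain ⟨g, hg⟩ := HL ![1, 0] (by
    intro h
    exact one_ne_zero (congrFun h 0))
  obtain ⟨a, ha⟩ := hall g
  apply hg a
  rw [ha, Matrix.smul_mulVec, Matrix.one_mulVec]

/-- **the residual conditions**, from irreducibility on subgroups of index two -/
theorem TWCond.of_comm (hp2 : p ≠ 2) (hlev : FlatLoc.FinLev ρ 1)
    (hdet : ∀ g, (ρ g).det = chk p k g) (H : Comm2 ρ) (HL : NoLine ρ)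
    (hsplit : ∀ g, ∃ α β : k, (ρ g).trace = α + β ∧ (ρ g).det = α * β)
    (h1 : ∀ c, TwC p ρ c → (∀ g, ρ g = 1 → c g = 0) → TwB p ρ c) : TWCond p k ρ := by
  have h2 : (2 : k) ≠ 0 := by
    have h1 : (2 : ZMod p) ≠ 0 := by
      intro h
      have h2 : ((2 : ℕ) : ZMod p) = 0 := by exact_mod_cast h
      rw [ZMod.natCast_eq_zero_iff] at h2
      exact hp2 ((Nat.prime_dvd_prime_iff_eq hpf.out Nat.prime_two).mp h2)
    rw [← map_ofNat (algebraMap (ZMod p) k) 2]
    exact (map_ne_zero _).mpr h1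
  exact ⟨hp2, hlev, hdet, irr_of h2 H HL, reg_of h2 H HL hdet hsplit, h1⟩

/-- the commutant condition from the span condition -/
theorem Comm2.of_span (h : ∀ G : Subgroup GQ, (G.index = 1 ∨ G.index = 2) →
    Submodule.span k (ρ '' G) = ⊤) : Comm2 ρ := by
  intro G hG Y hY
  have h1 : ∀ Z : Matrix (Fin 2) (Fin 2) k, Z * Y = Y * Z := by
    intro Z
    have hZ : Z ∈ Submodule.span k (ρ '' (G : Set GQ)) := by rw [h G hG]; trivial
    induction hZ using Submodule.span_induction with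
    | mem x hx => obtain ⟨g, hg, rfl⟩ := hx; exact hY g hg
    | zero => rw [zero_mul, mul_zero]
    | add x y _ _ hx hy => rw [add_mul, mul_add, hx, hy]
    | smul a x _ hx => rw [Matrix.smul_mul, Matrix.mul_smul, hx]
  have e1 := h1 !![0, 1; 0, 0]
  have e2 := h1 !![0, 0; 1, 0]
  have a1 := congrFun (congrFun e1 0) 0
  have a2 := congrFun (congrFun e1 0) 1
  have a3 := congrFun (congrFun e2 0) 0
  simp only [Matrix.mul_apply, Fin.sum_univ_two, Matrix.of_apply, Matrix.cons_val',
    Matrix.cons_val_zero, Matrix.cons_val_one, Matrix.cons_val_fin_one, Fin.isValue, zero_mul,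
    one_mul, zero_add, add_zero, mul_one, mul_zero] at a1 a2 a3
  refine ⟨Y 0 0, ?_⟩
  ext i j
  fin_cases i <;> fin_cases j
  · simp
  · simpa using a3.symm
  · simpa using a1
  · simpa using a2

/-- no stable lines from the span condition -/
theorem NoLine.of_span (h : Submodule.span k (Set.range ρ) = ⊤) : NoLine ρ := by
  intro v hv
  by_contra hcon
  push Not at hcon
  have h1 : ∀ Z : Matrix (Fin 2) (Fin 2) k, ∃ a : k, Z *ᵥ v = a • v := by
    intro Z
    have hZ : Z ∈ Submodule.span k (Set.range ρ) := by rw [h]; trivial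
    induction hZ using Submodule.span_induction with
    | mem x hx => obtain ⟨g, rfl⟩ := hx; exact hcon g
    | zero => exact ⟨0, by rw [Matrix.zero_mulVec, zero_smul]⟩
    | add x y _ _ hx hy =>
      obtain ⟨a, ha⟩ := hx
      obtain ⟨b, hb⟩ := hy
      exact ⟨a + b, by rw [Matrix.add_mulVec, ha, hb, add_smul]⟩
    | smul t x _ hx =>
      obtain ⟨a, ha⟩ := hx
      exact ⟨t * a, by rw [Matrix.smul_mulVec, ha, mul_smul]⟩
  obtain ⟨a, ha⟩ := h1 !![0, 1; 0, 0]
  obtain ⟨b, hb⟩ := h1 !![0, 0; 1, 0]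
  have a0 := congrFun ha 0
  have a1 := congrFun ha 1
  have b0 := congrFun hb 0
  have b1 := congrFun hb 1
  simp [Matrix.mulVec, dotProduct, Fin.sum_univ_two] at a0 a1 b0 b1
  apply hv
  ext i
  fin_cases i
  · show v 0 = 0
    rcases b0 with h | h
    · rw [b1, h, zero_mul]
    · exact h
  · show v 1 = 0
    rcases a1 with h | h
    · rw [a0, h, zero_mul]
    · exact h

end Fermat.Agent.TWPr
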