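import Fermat.Agent.TWPr.Mod
import Fermat.Agent.CFT.GW3
import Fermat.Agent.CFT.PT10

/-!
# Levels of cocycles and local conditions
-/

set_option autoImplicit false
set_option maxHeartbeats 400000

noncomputable section

namespace Fermat.Agent.TWPr

open Matrix Fermat.Agent.DefRing Fermat.Agent.GalRep Fermat.Agent.S43Glue
open Fermat.Agent.CFT hiding GQ

local notation "Qbar" => AlgebraicClosure ℚ

/-- cocycles vanishing on inertia outside `T` have a level unramified outside `T` -/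
theorem levC_of_inertia {M : Type*} [AddCommGroup M] [DistribMulAction GQ M]
    {T : Finset Nat.Primes} (hM : LevM T M) {x : GQ → M} (hx : x ∈ Z1 GQ M)
    (hlev : FlatLoc.FinLev x 0)
    (hI : ∀ q : Nat.Primes, q ∉ T → ∀ A : ValuationSubring Qbar, A.LiesOverPrime (q : ℕ) →
      ∀ s ∈ A.inertiaSubgroupIn ℚ, x s = 0) : LevC T x := by
  haveI := Fermat.Agent.Frob.isGalois_Qbar
  obtain ⟨E₁, hE₁, h₁⟩ := hM
  obtain ⟨E₂, hE₂, h₂⟩ := hlev
  haveI := hE₁.1
  have hx1 : x 1 = 0 := by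
    have := hx 1 1
    rw [mul_one, one_smul, left_eq_add] at this
    exact this
  let H : Subgroup GQ :=
    { carrier := {s | s ∈ E₁.fixingSubgroup ∧ x s = 0}
      one_mem' := ⟨one_mem _, hx1⟩
      mul_mem' := fun {a b} ha hb => ⟨mul_mem ha.1 hb.1, by
        rw [hx a b, ha.2, hb.2, smul_zero, add_zero]⟩
      inv_mem' := fun {a} ha => ⟨inv_mem ha.1, by
        have := hx a⁻¹ a
        rw [inv_mul_cancel, hx1, ha.2, smul_zero, add_zero] at this
        exact this.symm⟩ }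
  have hopen : IsOpen (H : Set GQ) := by
    refine Subgroup.isOpen_mono (H₁ := (E₁ ⊔ E₂).fixingSubgroup) ?_
      (IntermediateField.fixingSubgroup_isOpen (E₁ ⊔ E₂))
    intro g hg
    refine ⟨IntermediateField.fixingSubgroup_antitone le_sup_left hg, h₂ g fun y hy => ?_⟩
    exact (IntermediateField.mem_fixingSubgroup_iff _ _).mp
      (IntermediateField.fixingSubgroup_antitone le_sup_right hg) y hy
  have h' : (IntermediateField.fixedField H).fixingSubgroup = H :=
    InfiniteGalois.fixingSubgroup_fixedField (k := ℚ) (K := Qb)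
      ⟨H, Subgroup.isClosed_of_isOpen _ hopen⟩
  have hle : IntermediateField.fixedField H ≤ E₁ ⊔ E₂ := by
    refine le_of_fixing_le ?_
    rw [h']
    intro g hg
    refine ⟨IntermediateField.fixingSubgroup_antitone le_sup_left hg, h₂ g fun y hy => ?_⟩
    exact (IntermediateField.mem_fixingSubgroup_iff _ _).mp
      (IntermediateField.fixingSubgroup_antitone le_sup_right hg) y hy
  refine ⟨IntermediateField.fixedField H, ⟨FiniteDimensional.of_injective
    (IntermediateField.inclusion hle).toLinearMap (IntermediateField.inclusion_injective hle),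
    fun q hq A hA s hs => ?_⟩, fun g s hs => ?_⟩
  · rw [h']
    exact ⟨hE₁.2 q hq A hA hs, hI q hq A hA s hs⟩
  · rw [h'] at hs
    rw [hx g s, hs.2, smul_zero, add_zero]

theorem finLev_of_levC {M : Type*} [AddCommGroup M] [DistribMulAction GQ M]
    {T : Finset Nat.Primes} {x : GQ → M} (hx : x ∈ Z1 GQ M) (h : LevC T x) :
    FlatLoc.FinLev x 0 := by
  obtain ⟨E, hE, h⟩ := h
  have hx1 : x 1 = 0 := by
    have := hx 1 1
    rw [mul_one, one_smul, left_eq_add] at this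
    exact this
  refine ⟨E, hE.1, fun σ hσ => ?_⟩
  rw [← one_mul σ, h 1 σ ((IntermediateField.mem_fixingSubgroup_iff _ _).mpr hσ), hx1]

variable {k : Type} [Field k] {ρ : GQ →* Matrix (Fin 2) (Fin 2) k}

/-- the level of the adjoint representation -/
theorem levM_VV {T : Finset Nat.Primes} (hlev : FlatLoc.FinLev ρ 1)
    (hI : ∀ q : Nat.Primes, q ∉ T → ∀ A : ValuationSubring Qbar, A.LiesOverPrime (q : ℕ) →
      ∀ s ∈ A.inertiaSubgroupIn ℚ, ρ s = 1) :
    ∃ E : IntermediateField ℚ Qb, E.IsUnramifiedOutside T ∧ ∀ s ∈ E.fixingSubgroup, ρ s = 1 := by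
  haveI := Fermat.Agent.Frob.isGalois_Qbar
  obtain ⟨E₂, hE₂, h₂⟩ := hlev
  let H : Subgroup GQ := ρ.ker
  have hle2 : E₂.fixingSubgroup ≤ H := fun g hg => h₂ g fun y hy =>
    (IntermediateField.mem_fixingSubgroup_iff _ _).mp hg y hy
  have hopen : IsOpen (H : Set GQ) :=
    Subgroup.isOpen_mono hle2 (IntermediateField.fixingSubgroup_isOpen E₂)
  have h' : (IntermediateField.fixedField H).fixingSubgroup = H :=
    InfiniteGalois.fixingSubgroup_fixedField (k := ℚ) (K := Qb)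
      ⟨H, Subgroup.isClosed_of_isOpen _ hopen⟩
  have hle : IntermediateField.fixedField H ≤ E₂ := by
    refine le_of_fixing_le ?_
    rw [h']
    exact hle2
  refine ⟨IntermediateField.fixedField H, ⟨FiniteDimensional.of_injective
    (IntermediateField.inclusion hle).toLinearMap (IntermediateField.inclusion_injective hle),
    fun q hq A hA s hs => ?_⟩, fun s hs => ?_⟩
  · rw [h']
    exact hI q hq A hA s hs
  · rw [h'] at hs
    exact hs

theorem LevM_VV {T : Finset Nat.Primes} (h : ∃ E : IntermediateField ℚ Qb,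
    E.IsUnramifiedOutside T ∧ ∀ s ∈ E.fixingSubgroup, ρ s = 1) : LevM T (VV ρ) := by
  obtain ⟨E, hE, h⟩ := h
  refine ⟨E, hE, fun s hs v => VV.ext' ?_⟩
  have h1 : ρ s = 1 := h s hs
  have h2 : ρ s⁻¹ = 1 := h _ (inv_mem hs)
  rw [VV.mat_smul, h1, h2, one_mul, mul_one]

/-- global cocycles of finite level with values in trace zero matrices -/
def G1 (ρ : GQ →* Matrix (Fin 2) (Fin 2) k) : Submodule k (GQ → Matrix (Fin 2) (Fin 2) k) where
  carrier := {C | FlatLoc.IsCock ρ C ∧ (∀ σ, (C σ).trace = 0) ∧ FlatLoc.FinLev C 0}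
  zero_mem' := ⟨fun σ τ => by simp, fun σ => Matrix.trace_zero _ _, ⟨⊥, inferInstance, fun _ _ => rfl⟩⟩
  add_mem' := by
    rintro a b ⟨h1, h2, h3⟩ ⟨h1', h2', h3'⟩
    refine ⟨fun σ τ => ?_, fun σ => ?_, ?_⟩
    · show a (σ * τ) + b (σ * τ) = a σ + b σ + ρ σ * (a τ + b τ) * ρ σ⁻¹
      rw [h1, h1', mul_add, add_mul]
      abel
    · show (a σ + b σ).trace = 0
      rw [Matrix.trace_add, h2, h2', add_zero]
    · have h4 := (h3.prod h3').comp (fun z => z.1 + z.2)
      rw [add_zero] at h4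
      exact h4
  smul_mem' := by
    rintro t a ⟨h1, h2, h3⟩
    refine ⟨fun σ τ => ?_, fun σ => ?_, ?_⟩
    · show t • a (σ * τ) = t • a σ + ρ σ * (t • a τ) * ρ σ⁻¹
      rw [h1, smul_add, Matrix.mul_smul, Matrix.smul_mul]
    · show (t • a σ).trace = 0
      rw [Matrix.trace_smul, h2, smul_zero]
    · have h4 := h3.comp (fun z => t • z)
      rw [smul_zero] at h4
      exact h4

theorem mem_G1 {C : GQ → Matrix (Fin 2) (Fin 2) k} : C ∈ G1 ρ ↔
    FlatLoc.IsCock ρ C ∧ (∀ σ, (C σ).trace = 0) ∧ FlatLoc.FinLev C 0 := Iff.rfl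

/-- the coboundary -/
def cob (ρ : GQ →* Matrix (Fin 2) (Fin 2) k) (X : Matrix (Fin 2) (Fin 2) k) :
    GQ → Matrix (Fin 2) (Fin 2) k := fun g => ρ g * X * ρ g⁻¹ - X

theorem cob_mem (hlev : FlatLoc.FinLev ρ 1) {X : Matrix (Fin 2) (Fin 2) k} (hX : X.trace = 0) :
    cob ρ X ∈ G1 ρ := by
  refine ⟨fun σ τ => ?_, fun σ => ?_, ?_⟩
  · show ρ (σ * τ) * X * ρ (σ * τ)⁻¹ - X = (ρ σ * X * ρ σ⁻¹ - X) +
      ρ σ * (ρ τ * X * ρ τ⁻¹ - X) * ρ σ⁻¹
    rw [map_mul, _root_.mul_inv_rev, map_mul, mul_sub, sub_mul]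
    simp only [mul_assoc]
    abel
  · show (ρ σ * X * ρ σ⁻¹ - X).trace = 0
    rw [Matrix.trace_sub, trace_conj, hX, sub_zero]
  · obtain ⟨E, hE, h⟩ := hlev
    refine ⟨E, hE, fun σ hσ => ?_⟩
    have h1 := h σ hσ
    have h2 : ρ σ⁻¹ = 1 := by
      have := rinv (ρ := ρ) σ
      rwa [h1, one_mul] at this
    show ρ σ * X * ρ σ⁻¹ - X = 0
    rw [h1, h2, one_mul, mul_one, sub_self]

section loc

variable (ρ)

/-- local conditions defined by global ones -/
def LcOf (P : Submodule k (GQ → Matrix (Fin 2) (Fin 2) k)) (q : Nat.Primes) :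
    AddSubgroup (LG q → VV ρ) where
  carrier := {y | ∃ C ∈ P, ∀ d, (y d).mat = C (localGaloisToGlobal (q : ℕ) d)}
  zero_mem' := ⟨0, P.zero_mem, fun _ => rfl⟩
  add_mem' := by
    rintro a b ⟨C, hC, h⟩ ⟨C', hC', h'⟩
    refine ⟨C + C', P.add_mem hC hC', fun d => ?_⟩
    show (a d + b d).mat = _
    rw [VV.mat_add, h, h']
    rfl
  neg_mem' := by
    rintro a ⟨C, hC, h⟩
    refine ⟨-C, P.neg_mem hC, fun d => ?_⟩
    show (-a d).mat = _
    rw [VV.mat_neg, h]
    rfl

variable {ρ} {P : Submodule k (GQ → Matrix (Fin 2) (Fin 2) k)} {q : Nat.Primes}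

theorem mem_LcOf {y : LG q → VV ρ} : y ∈ LcOf ρ P q ↔
    ∃ C ∈ P, ∀ d, (y d).mat = C (localGaloisToGlobal (q : ℕ) d) := Iff.rfl

theorem LcOf_smul {y : LG q → VV ρ} (hy : y ∈ LcOf ρ P q) (a : k) :
    (fun d => a • y d) ∈ LcOf ρ P q := by
  obtain ⟨C, hC, h⟩ := hy
  refine ⟨a • C, P.smul_mem a hC, fun d => ?_⟩
  rw [VV.mat_smulk, h]
  rfl

theorem LcOf_le (hP : P ≤ G1 ρ) : LcOf ρ P q ≤ Z1q q (VV ρ) := by
  rintro y ⟨C, hC, h⟩
  obtain ⟨h1, h2, E, hE, h3⟩ := hP hC
  refine ⟨fun d d' => VV.ext' ?_, _, isOpen_comap_lg q E, fun g n hn => VV.ext' ?_⟩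
  · rw [VV.mat_add, VV.mat_smul, h, h, h, map_mul, h1]
  · rw [h, h, map_mul, h1, h3 (localGaloisToGlobal (q : ℕ) n)
      fun x hx => (IntermediateField.mem_fixingSubgroup_iff _ _).mp hn x hx, mul_zero, zero_mul,
      add_zero]

theorem B1q_le_LcOf (hP : ∀ X : Matrix (Fin 2) (Fin 2) k, X.trace = 0 → cob ρ X ∈ P) :
    B1q q (VV ρ) ≤ LcOf ρ P q := by
  rintro y ⟨v, hv⟩
  refine ⟨cob ρ v.mat, hP _ v.trace, fun d => ?_⟩
  rw [hv, VV.mat_sub, VV.mat_smul]
  rfl

/-- the dimension bound for local conditions -/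
theorem card_LcOf_le [Finite k] {m : ℕ}
    (hfin : Module.Finite k (P.map (LinearMap.funLeft k (Matrix (Fin 2) (Fin 2) k)
      (Subtype.val : (padicPlace (q : ℕ)).decompositionSubgroup ℚ → GQ))))
    (hm : Module.finrank k (P.map (LinearMap.funLeft k (Matrix (Fin 2) (Fin 2) k)
      (Subtype.val : (padicPlace (q : ℕ)).decompositionSubgroup ℚ → GQ))) ≤ m) :
    Nat.card (LcOf ρ P q) ≤ Nat.card k ^ m := by
  set R := P.map (LinearMap.funLeft k (Matrix (Fin 2) (Fin 2) k)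
      (Subtype.val : (padicPlace (q : ℕ)).decompositionSubgroup ℚ → GQ)) with hR
  haveI : Finite R := Module.finite_of_finite k
  have h1 : Nat.card R ≤ Nat.card k ^ m := by
    rw [Module.natCard_eq_pow_finrank (K := k) (V := R)]
    exact Nat.pow_le_pow_right Nat.card_pos hm
  refine le_trans ?_ h1
  refine Nat.card_le_card_of_injective (fun y : LcOf ρ P q =>
    (⟨LinearMap.funLeft k (Matrix (Fin 2) (Fin 2) k) Subtype.val y.2.choose,
      Submodule.mem_map_of_mem y.2.choose_spec.1⟩ : R)) ?_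
  intro y y' hyy
  apply Subtype.ext
  funext d
  apply VV.ext'
  rw [y.2.choose_spec.2 d, y'.2.choose_spec.2 d]
  have h2 := congrArg (fun z : R => z.1 ⟨localGaloisToGlobal (q : ℕ) d,
    localGaloisToGlobal_mem_decompositionSubgroup (q : ℕ) d⟩) hyy
  exact h2

end loc

end Fermat.Agent.TWPr
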