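import Fermat.Agent.TWPr.Asm

/-!
# The Selmer bound with Taylor–Wiles primes
-/

set_option autoImplicit false
set_option maxHeartbeats 800000

noncomputable section

namespace Fermat.Agent.TWPr

open Matrix Fermat.Agent.DefRing Fermat.Agent.GalRep Fermat.Agent.S43Glue
open Fermat.Agent.CFT hiding GQ

local notation "Qbar" => AlgebraicClosure ℚ

variable {p : ℕ} [hpf : Fact p.Prime] {k : Type} [Field k] [Algebra (ZMod p) k]
  {ρ : GQ →* Matrix (Fin 2) (Fin 2) k} {Smin s : Finset Nat.Primes}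
  {Lp : Submodule k ((padicPlace p).decompositionSubgroup ℚ → Matrix (Fin 2) (Fin 2) k)}

/-- the Selmer conditions (general form) -/
structure SelC (p : ℕ) [Fact p.Prime] {k : Type} [Field k]
    (ρ : GQ →* Matrix (Fin 2) (Fin 2) k) (Smin s : Finset Nat.Primes)
    (Lp : Submodule k ((padicPlace p).decompositionSubgroup ℚ → Matrix (Fin 2) (Fin 2) k))
    (Q : Finset ℕ) (C : GQ → Matrix (Fin 2) (Fin 2) k) : Prop where
  mem : C ∈ G1 ρ
  unr : ∀ q : Nat.Primes, q ∉ Smin → q ∉ s → (q : ℕ) ∉ Q → ∀ A : ValuationSubring Qbar,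
    A.LiesOverPrime (q : ℕ) → ∀ σ ∈ A.inertiaSubgroupIn ℚ, C σ = 0
  unip : ∀ q ∈ Smin, (q : ℕ) ≠ p → ∀ σ ∈ (padicPlace (q : ℕ)).inertiaSubgroupIn ℚ,
    (C σ * ρ σ).trace = 0
  spl : ∀ q ∈ s, ∀ σ ∈ (padicPlace (q : ℕ)).decompositionSubgroup ℚ, C σ = 0
  locp : resD k (pP p) C ∈ Lp

theorem Z1q_smul {q : Nat.Primes} {y : LG q → VV ρ} (hy : y ∈ Z1q q (VV ρ)) (a : k) :
    (fun d => a • y d) ∈ Z1q q (VV ρ) := by
  refine ⟨fun d d' => ?_, hy.2.comp (fun z => a • z)⟩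
  show a • y (d * d') = a • y d + localGaloisToGlobal (q : ℕ) d • a • y d'
  rw [hy.1 d d', smul_add, smul_comm (localGaloisToGlobal (q : ℕ) d) a]

/-- **the Selmer bound with Taylor–Wiles primes** -/
theorem SelHyp.exists_selmer [Finite k] (H : SelHyp p k ρ Smin s Lp) (hL3 : L3Hyp p k ρ)
    (S : Set ℕ) (hS : S.Finite) :
    ∃ r : ℕ, ∀ n : ℕ, ∃ Q : Finset ℕ, Q.card = r ∧ (∀ q ∈ Q, GoodQ p ρ S n q) ∧
      ∃ Z : Submodule k (GQ → Matrix (Fin 2) (Fin 2) k), FiniteDimensional k Z ∧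
        Module.finrank k Z + 3 * s.card ≤ r + 3 ∧
        (∀ C, SelC p ρ Smin s Lp Q C → C ∈ Z) ∧
        ∀ X : Matrix (Fin 2) (Fin 2) k, X.trace = 0 → cob ρ X ∈ Z := by
  classical
  have hp2 : 2 < p := lt_of_le_of_ne hpf.out.two_le (Ne.symm H.cond.p2)
  have h2k := H.cond.two_ne
  have hlev := H.cond.lev
  obtain ⟨ζ, hζ⟩ := HasEnoughRootsOfUnity.exists_primitiveRoot Qbar p
  have hc : ∀ x, (complexEmbedding : Qbar →+* ℂ) (complexConjugation x) =
      (starRingEnd ℂ) ((complexEmbedding : Qbar →+* ℂ) x) := complexEmbedding_complexConjugation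
  have hun : ∀ q : Nat.Primes, (q : ℕ) ≠ p → ∀ σ ∈ (padicPlace (q : ℕ)).inertiaSubgroupIn ℚ,
      (ρ σ - 1) * (ρ σ - 1) = 0 := by
    intro q hqp σ hσ
    by_cases hq : q ∈ Smin
    · exact H.unip q hq hqp σ hσ
    · rw [H.unr q hq _ (CFT.padicPlace_liesOver (q : ℕ)) σ hσ, sub_self, mul_zero]
  obtain ⟨T₁, hT₁, hGW⟩ := exists_gw hp2 hlev (S₀ := Smin ∪ s)
    (Finset.mem_union_left _ H.hpS) (fun q hq A hA σ hσ =>
      H.unr q (fun h => hq (Finset.mem_union_left _ h)) A hA σ hσ) hun hζ h2k hc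
  have hpT₁ : pP p ∈ T₁ := hT₁ (Finset.mem_union_left _ H.hpS)
  have hunrT₁ : ∀ q : Nat.Primes, q ∉ T₁ → ∀ A : ValuationSubring Qbar,
      A.LiesOverPrime (q : ℕ) → ∀ σ ∈ A.inertiaSubgroupIn ℚ, ρ σ = 1 := fun q hq A hA σ hσ =>
    H.unr q (fun h => hq (hT₁ (Finset.mem_union_left _ h))) A hA σ hσ
  have hV₁ : LevM T₁ (VV ρ) := LevM_VV (levM_VV hlev hunrT₁)
  have hB := pdata (p := p) (ρ := ρ) h2k hζ
  haveI : Finite (Z1S T₁ (WW p ρ)) :=
    finite_Z1S hp2 hpT₁ hζ hB.flip (levM_WW hpT₁ h2k hζ hV₁)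
  -- the dual Selmer cocycles
  let D₁ : Set (GQ → WW p ρ) := {x | x ∈ Z1S T₁ (WW p ρ) ∧ (∀ q ∈ T₁,
    ∀ a ∈ LcOf ρ (Pq p ρ Smin s Lp q) q,
      Orth (BB p ρ) q (fun d => x (localGaloisToGlobal (q : ℕ) d)) a) ∧ x ∉ B1 GQ (WW p ρ)}
  have hD₁ : D₁.Finite := (Set.toFinite (Z1S T₁ (WW p ρ) : Set (GQ → WW p ρ))).subset
    fun x hx => hx.1
  let F : Finset (GQ → Matrix (Fin 2) (Fin 2) k) := hD₁.toFinset.image fun x g => (x g).mat
  have hF : ∀ C ∈ F, TwC p ρ C ∧ ¬ TwB p ρ C := by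
    intro C hC
    obtain ⟨x, hx, rfl⟩ := Finset.mem_image.mp hC
    rw [Set.Finite.mem_toFinset] at hx
    exact ⟨twC_of_mem hx.1, fun h => hx.2.2 (mem_B1_of_twB h)⟩
  let S' : Set ℕ := S ∪ (T₁.image (fun q : Nat.Primes => (q : ℕ)) : Finset ℕ)
  have hS' : S'.Finite := hS.union (Finset.finite_toSet _)
  have hS'T : ∀ q : ℕ, ∀ hq : q.Prime, q ∉ S' → (⟨q, hq⟩ : Nat.Primes) ∉ T₁ := by
    intro q hq hqS h
    apply hqS
    right
    rw [Finset.mem_coe, Finset.mem_image]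
    exact ⟨_, h, rfl⟩
  refine ⟨F.card, fun n => ?_⟩
  obtain ⟨Q, hQ1, hQ2, hQ3⟩ := H.cond.exists_primes F hF (max n 1) S' hS'
    (fun q hq hqS A hA g hg => hunrT₁ ⟨q, hq⟩ (hS'T q hq hqS) A hA g hg)
  refine ⟨Q, hQ1, fun q hq => ?_, ?_⟩
  · obtain ⟨h1, h2, h3, h4, h5⟩ := hQ2 q hq
    exact ⟨h1, fun h => h2 (Or.inl h), h3, (pow_dvd_pow p (le_max_left n 1)).trans h4, h5⟩
  -- the set of primes
  let QP : Finset Nat.Primes := Q.subtype Nat.Prime
  have hQP : ∀ q : Nat.Primes, q ∈ QP ↔ (q : ℕ) ∈ Q := fun q => Finset.mem_subtype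
  have hQPc : QP.card = Q.card := by
    show (Q.subtype Nat.Prime).card = Q.card
    rw [Finset.card_subtype, Finset.filter_true_of_mem fun q hq => (hQ2 q hq).prime]
  have hdisj : Disjoint T₁ QP := by
    rw [Finset.disjoint_left]
    intro q hq1 hq2
    exact hS'T q q.2 (hQ2 q ((hQP q).mp hq2)).nmem hq1
  let T : Finset Nat.Primes := T₁ ∪ QP
  have hT₁T : T₁ ⊆ T := Finset.subset_union_left
  have hVT : LevM T (VV ρ) := by
    obtain ⟨E, hE, h⟩ := hV₁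
    exact ⟨E, hE.mono hT₁T, h⟩
  let Lc : ∀ q : Nat.Primes, AddSubgroup (LG q → VV ρ) := LcQ p ρ Smin s Lp Q
  have hLcQ : ∀ q : Nat.Primes, (q : ℕ) ∈ Q → Lc q = Z1q q (VV ρ) := fun q hq => if_pos hq
  have hLcn : ∀ q : Nat.Primes, (q : ℕ) ∉ Q → Lc q = LcOf ρ (Pq p ρ Smin s Lp q) q :=
    fun q hq => if_neg hq
  have hT₁Q : ∀ q ∈ T₁, (q : ℕ) ∉ Q := fun q hq h =>
    Finset.disjoint_left.mp hdisj hq ((hQP q).mpr h)
  have hLZ : ∀ q ∈ T, Lc q ≤ Z1q q (VV ρ) := by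
    intro q _
    by_cases hq : (q : ℕ) ∈ Q
    · exact (hLcQ q hq).le
    · rw [hLcn q hq]; exact LcOf_le (Pq_le q)
  have hLB : ∀ q ∈ T, B1q q (VV ρ) ≤ Lc q := by
    intro q _
    by_cases hq : (q : ℕ) ∈ Q
    · rw [hLcQ q hq]; exact B1q_le_Z1q (hVT.opK q)
    · rw [hLcn q hq]; exact B1q_le_LcOf fun X hX => H.cob_mem q hX
  have hD : DualZero (BB p ρ) T Lc := by
    intro x hx hort
    by_contra hxB
    have hlocB : ∀ q ∈ T, q ∉ T₁ →
        (fun d => x (localGaloisToGlobal (q : ℕ) d)) ∈ B1q q (WW p ρ) := by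
      intro q hq hq1
      have hqQ : (q : ℕ) ∈ Q := by
        rcases Finset.mem_union.mp hq with h | h
        · exact absurd h hq1
        · exact (hQP q).mp h
      refine orth_all hζ hB (hVT.opK q) (resS T q (WW p ρ) ⟨x, hx⟩).2 fun c hc => ?_
      exact hort q hq c (by rw [hLcQ q hqQ]; exact hc)
    have hx1 := descend h2k hζ hpT₁ hV₁ hx hunrT₁ hlocB
    have hxD : x ∈ D₁ := ⟨hx1, fun q hq a ha => hort q (hT₁T hq) a (by
      rw [hLcn q (hT₁Q q hq)]; exact ha), hxB⟩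
    obtain ⟨q, hq, h⟩ := hQ3 _ (Finset.mem_image.mpr ⟨x, hD₁.mem_toFinset.mpr hxD, rfl⟩)
    have hqP := (hQ2 q hq).prime
    exact h _ (CFT.padicPlace_liesOver (q := q) (hq := ⟨hqP⟩)) (locB_of_mem (q := ⟨q, hqP⟩)
      (hlocB ⟨q, hqP⟩ (Finset.mem_union_right _ ((hQP _).mpr hq)) (hS'T q hqP (hQ2 q hq).nmem)))
  obtain ⟨hfin, hcard⟩ := hGW T hT₁T Lc hLZ hLB hD
  have hk : ∀ q, ∀ y ∈ Lc q, ∀ a : k, (fun d => a • y d) ∈ Lc q := by
    intro q y hy a
    by_cases hq : (q : ℕ) ∈ Q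
    · rw [hLcQ q hq] at hy ⊢
      exact Z1q_smul hy a
    · rw [hLcn q hq] at hy ⊢
      exact LcOf_smul hy a
  obtain ⟨hZfin, hZcard⟩ := card_selZ (ρ := ρ) (T := T) (Lc := Lc) (hk := hk)
  set Z := selZ ρ T Lc hk with hZ
  have hZfd : FiniteDimensional k Z := Module.Finite.of_finite
  refine ⟨Z, hZfd, ?_, ?_, ?_⟩
  · -- the count
    set N := Nat.card k with hN
    have hN1 : 1 < N := Finite.one_lt_card
    have hN0 : 0 < N := by omega
    have h1 := card_conj_ge (ρ := ρ) h2k H.cond.det hζ hc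
    have h2 : ∏ q ∈ T, Nat.card (Lc q) ≤ N ^ (∑ q ∈ T₁, dq p Smin s q) * N ^ (4 * QP.card) := by
      show ∏ q ∈ T₁ ∪ QP, Nat.card (Lc q) ≤ _
      rw [Finset.prod_union hdisj]
      refine Nat.mul_le_mul ?_ ?_
      · rw [← Finset.prod_pow_eq_pow_sum]
        refine Finset.prod_le_prod' fun q hq => ?_
        rw [hLcn q (hT₁Q q hq)]
        exact H.card_le q
      · rw [mul_comm 4, pow_mul', ← Finset.prod_const]
        refine Finset.prod_le_prod' fun q hq => ?_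
        have hqQ := (hQP q).mp hq
        rw [hLcQ q hqQ]
        obtain ⟨g1, g2, g3, g4, α, β, g5, g6, g7⟩ := hQ2 _ hqQ
        have hpd : p ∣ (q : ℕ) - 1 := (dvd_pow_self p (by have := le_max_right n 1; omega)).trans g4
        have hA := CFT.padicPlace_liesOver (q : ℕ)
        obtain ⟨φ, hφ⟩ := Fermat.Agent.Frob.exists_isFrobeniusAt_Qbar (padicPlace (q : ℕ)) q.2 hA
        have hchi : chk p k φ = 1 := by
          change algebraMap (ZMod p) k (chiK p (ZMod p) φ) = 1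
          rw [chiK_frob p _ q.2 hA g3 hφ]
          have h5 : (((q : ℕ) : ZMod p)) = ((1 : ℕ) : ZMod p) := by
            rw [ZMod.natCast_eq_natCast_iff]
            exact ((Nat.modEq_iff_dvd' q.2.one_lt.le).mpr hpd).symm
          rw [h5, Nat.cast_one, map_one]
        refine hL3 q g3 hpd (fun σ hσ => hunrT₁ q
          (fun h => Finset.disjoint_left.mp hdisj h hq) _ hA σ hσ) φ hφ α β g5 ?_ (g7 _ hA φ hφ)
        rw [H.cond.det, hchi, g6]
    have h3 := sum_dq (s := s) H.hpS H.disj hT₁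
    have hTc : T.card = T₁.card + QP.card := Finset.card_union_of_disjoint hdisj
    rw [card_VV] at hcard
    have h4 : Nat.card Z * N ^ (3 * s.card) * N ^ (1 + 3 * T.card) ≤
        N ^ (3 + QP.card) * N ^ (1 + 3 * T.card) := by
      calc Nat.card Z * N ^ (3 * s.card) * N ^ (1 + 3 * T.card)
          = (Nat.card Z * N * (N ^ 3) ^ T.card) * N ^ (3 * s.card) := by
            rw [pow_add, pow_one, ← pow_mul]; ring
        _ ≤ (Nat.card (SelL T (VV ρ) Lc) * Nat.card (fix (VV ρ) (Subgroup.zpowers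
              complexConjugation)) * (N ^ 3) ^ T.card) * N ^ (3 * s.card) := by
            gcongr
        _ ≤ (N ^ 3 * ∏ q ∈ T, Nat.card (Lc q)) * N ^ (3 * s.card) := by
            gcongr
        _ ≤ (N ^ 3 * (N ^ (∑ q ∈ T₁, dq p Smin s q) * N ^ (4 * QP.card))) *
              N ^ (3 * s.card) := by
            gcongr
        _ = N ^ (3 + QP.card) * N ^ (1 + 3 * T.card) := by
            rw [← pow_add, ← pow_add, ← pow_add, ← pow_add]
            congr 1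
            omega
    have h5 : Nat.card Z * N ^ (3 * s.card) ≤ N ^ (3 + QP.card) :=
      Nat.le_of_mul_le_mul_right h4 (pow_pos hN0 _)
    rw [Module.natCard_eq_pow_finrank (K := k) (V := Z), ← hN, ← pow_add] at h5
    have h6 := (Nat.pow_le_pow_iff_right hN1).mp h5
    rw [hQPc, hQ1] at h6
    rw [hQ1.symm] at h6 ⊢
    omega
  · -- membership
    intro C hC
    have hx : (fun g => VV.mk (C g) (hC.mem.2.1 g) : GQ → VV ρ) ∈ Z1 GQ (VV ρ) := by
      intro g h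
      apply VV.ext'
      rw [VV.mat_add, VV.mat_smul, VV.mat_mk, VV.mat_mk, VV.mat_mk]
      exact hC.mem.1 g h
    have hxS : (fun g => VV.mk (C g) (hC.mem.2.1 g) : GQ → VV ρ) ∈ Z1S T (VV ρ) := by
      refine ⟨hx, levC_of_inertia hVT hx ?_ ?_⟩
      · obtain ⟨E, hE, h⟩ := hC.mem.2.2
        refine ⟨E, hE, fun σ hσ => VV.ext' ?_⟩
        rw [VV.mat_mk, VV.mat_zero]
        exact h σ hσ
      · intro q hq A hA σ hσ
        apply VV.ext'
        rw [VV.mat_mk, VV.mat_zero]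
        have hq1 : q ∉ T₁ := fun h => hq (Finset.mem_union_left _ h)
        exact hC.unr q (fun h => hq1 (hT₁ (Finset.mem_union_left _ h)))
          (fun h => hq1 (hT₁ (Finset.mem_union_right _ h)))
          (fun h => hq (Finset.mem_union_right _ ((hQP q).mpr h))) A hA σ hσ
    refine ⟨_, ⟨hxS, fun q hq => ?_⟩, fun g => rfl⟩
    by_cases hqQ : (q : ℕ) ∈ Q
    · rw [hLcQ q hqQ]
      exact (resS T q (VV ρ) ⟨_, hxS⟩).2
    · rw [hLcn q hqQ]
      refine ⟨C, ?_, fun d => rfl⟩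
      unfold Pq
      split_ifs with e1 e2 e3
      · exact ⟨hC.mem, hC.locp⟩
      · exact ⟨hC.mem, fun σ hσ => hC.unip q e2 (fun h => e1 (Subtype.ext h)) σ hσ⟩
      · exact ⟨hC.mem, fun σ hσ => hC.spl q e3 σ hσ⟩
      · exact ⟨hC.mem, fun σ hσ => hC.unr q e2 e3 hqQ _ (CFT.padicPlace_liesOver (q : ℕ)) σ hσ⟩
  · intro X hX
    obtain ⟨E, hE, hEV⟩ := hVT
    refine ⟨fun g => g • (VV.mk X hX : VV ρ) - VV.mk X hX, ⟨⟨B1_le_Z1 ⟨_, fun _ => rfl⟩, E, hE,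
      fun g s hs => ?_⟩, fun q hq => ?_⟩, fun g => ?_⟩
    · show (g * s) • (VV.mk X hX : VV ρ) - VV.mk X hX = g • (VV.mk X hX : VV ρ) - VV.mk X hX
      rw [mul_smul, hEV s hs]
    · exact hLB q hq ⟨VV.mk X hX, fun d => rfl⟩
    · rw [VV.mat_sub, VV.mat_smul, VV.mat_mk]
      rfl

end Fermat.Agent.TWPr
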