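import Fermat.Agent.TWPr.Surj
import Fermat.Agent.FlatLoc.Final2

/-!
# Elements detecting classes in the cohomology of the twisted adjoint representation
-/

set_option autoImplicit false
set_option maxHeartbeats 400000

noncomputable section

namespace Fermat.Agent.TWPr

open Matrix Fermat.Agent.DefRing Fermat.Agent.GalRep Fermat.Agent.S43Glue

local notation "Qbar" => AlgebraicClosure ℚ

variable {p : ℕ} [hpf : Fact p.Prime] (k : Type) [Field k] [Algebra (ZMod p) k]
  (ρ : GQ →* Matrix (Fin 2) (Fin 2) (ZMod p))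

theorem map_comm {G M : Type*} [Group G] [CommRing M] (f : G →* M) (a b : G) :
    f (a * b * a⁻¹ * b⁻¹) = 1 := by
  have h1 : f a * f a⁻¹ = 1 := by rw [← map_mul, mul_inv_cancel, map_one]
  have h2 : f b * f b⁻¹ = 1 := by rw [← map_mul, mul_inv_cancel, map_one]
  rw [map_mul, map_mul, map_mul]
  calc f a * f b * f a⁻¹ * f b⁻¹ = (f a * f a⁻¹) * (f b * f b⁻¹) := by ring
    _ = 1 := by rw [h1, h2, one_mul]

/-- the mod `p` cyclotomic character with values in `k` -/
def chk (p : ℕ) [Fact p.Prime] (k : Type) [Field k] [Algebra (ZMod p) k] : GQ →* k :=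
  (algebraMap (ZMod p) k : ZMod p →* k).comp (chiK p (ZMod p))

/-- the twisted adjoint action -/
def tad (g : GQ) (X : Matrix (Fin 2) (Fin 2) k) : Matrix (Fin 2) (Fin 2) k :=
  chk p k g • (FlatLoc.rk k ρ g * X * FlatLoc.rk k ρ g⁻¹)

variable {k ρ}

theorem rk_inv (g : GQ) : FlatLoc.rk k ρ g * FlatLoc.rk k ρ g⁻¹ = 1 := by
  rw [← map_mul, mul_inv_cancel, map_one]

theorem rk_inv' (g : GQ) : FlatLoc.rk k ρ g⁻¹ * FlatLoc.rk k ρ g = 1 := by
  rw [← map_mul, inv_mul_cancel, map_one]

theorem tad_add (g : GQ) (X Y : Matrix (Fin 2) (Fin 2) k) :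
    tad k ρ g (X + Y) = tad k ρ g X + tad k ρ g Y := by
  rw [tad, tad, tad, mul_add, add_mul, smul_add]

theorem tad_neg (g : GQ) (X : Matrix (Fin 2) (Fin 2) k) :
    tad k ρ g (-X) = -tad k ρ g X := by
  rw [tad, tad, mul_neg, neg_mul, smul_neg]

theorem tad_sub (g : GQ) (X Y : Matrix (Fin 2) (Fin 2) k) :
    tad k ρ g (X - Y) = tad k ρ g X - tad k ρ g Y := by
  rw [sub_eq_add_neg, tad_add, tad_neg, ← sub_eq_add_neg]

theorem tad_smul (g : GQ) (a : k) (X : Matrix (Fin 2) (Fin 2) k) :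
    tad k ρ g (a • X) = a • tad k ρ g X := by
  rw [tad, tad, Matrix.mul_smul, Matrix.smul_mul, smul_comm]

theorem tad_zero (g : GQ) : tad k ρ g 0 = 0 := by
  rw [tad, mul_zero, zero_mul, smul_zero]

theorem tad_mul (g h : GQ) (X : Matrix (Fin 2) (Fin 2) k) :
    tad k ρ (g * h) X = tad k ρ g (tad k ρ h X) := by
  rw [tad, tad, tad, map_mul, map_mul, _root_.mul_inv_rev, map_mul, Matrix.mul_smul,
    Matrix.smul_mul, smul_smul]
  simp only [mul_assoc]

theorem tad_one (X : Matrix (Fin 2) (Fin 2) k) : tad k ρ 1 X = X := by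
  rw [tad, inv_one, map_one, map_one, one_mul, mul_one, one_smul]

theorem trace_tad (g : GQ) (X : Matrix (Fin 2) (Fin 2) k) :
    (tad k ρ g X).trace = chk p k g * X.trace := by
  rw [tad, Matrix.trace_smul, smul_eq_mul, Matrix.trace_mul_comm, ← mul_assoc, rk_inv', one_mul]

variable (ρ) in
/-- cocycles with values in the twisted adjoint representation -/
structure TwCoc (c : GQ → Matrix (Fin 2) (Fin 2) k) : Prop where
  mul : ∀ g h, c (g * h) = c g + tad k ρ g (c h)
  tr : ∀ g, (c g).trace = 0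
  lev : FlatLoc.FinLev c 0

variable {c : GQ → Matrix (Fin 2) (Fin 2) k}

theorem TwCoc.one (hc : TwCoc ρ c) : c 1 = 0 := by
  have := hc.mul 1 1
  rw [mul_one, tad_one, left_eq_add] at this
  exact this

theorem TwCoc.inv (hc : TwCoc ρ c) (g : GQ) : tad k ρ g (c g⁻¹) = - c g := by
  have h1 := hc.mul g g⁻¹
  rw [mul_inv_cancel, hc.one] at h1
  exact (neg_eq_of_add_eq_zero_right h1.symm).symm

/-- elements acting trivially -/
def Triv (ρ : GQ →* Matrix (Fin 2) (Fin 2) (ZMod p)) (h : GQ) : Prop := ρ h = 1 ∧ cycP p h = 1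

theorem chk_of_cycP {h : GQ} (hh : cycP p h = 1) : chk p k h = 1 := by
  change algebraMap (ZMod p) k (chiK p (ZMod p) h) = 1
  rw [chiK_apply, hh, map_one, map_one, map_one]

theorem Triv.tad {h : GQ} (hh : Triv ρ h) (X : Matrix (Fin 2) (Fin 2) k) : tad k ρ h X = X := by
  have h1 : FlatLoc.rk k ρ h = 1 := by
    change (algebraMap (ZMod p) k).mapMatrix (ρ h) = 1
    rw [hh.1, map_one]
  have h2 : FlatLoc.rk k ρ h⁻¹ = 1 := by
    have := rk_inv (k := k) (ρ := ρ) h
    rwa [h1, one_mul] at this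
  rw [TWPr.tad, chk_of_cycP hh.2, h1, h2, one_mul, mul_one, one_smul]

/-- cocycles on conjugates -/
theorem TwCoc.conj (hc : TwCoc ρ c) {h : GQ} (hh : Triv ρ h) (g : GQ) :
    c (g * h * g⁻¹) = tad k ρ g (c h) := by
  rw [hc.mul, hc.mul, tad_mul, hh.tad, hc.inv, add_comm (c g), add_neg_cancel_right]

theorem Triv.conj {h : GQ} (hh : Triv ρ h) (g : GQ) : Triv ρ (g * h * g⁻¹) := by
  refine ⟨?_, ?_⟩
  · rw [map_mul, map_mul, hh.1, mul_one, ← map_mul, mul_inv_cancel, map_one]
  · rw [map_mul, map_mul, hh.2, mul_one, ← map_mul, mul_inv_cancel, map_one]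

/-- the matrix with eigenvalues `2` and `1/2` -/
def DD (p : ℕ) : Matrix (Fin 2) (Fin 2) (ZMod p) := !![2, 0; 0, 2⁻¹]

section

variable (hρ : FreyLike p ρ) (hp5 : 5 ≤ p)

include hp5 in
theorem natCast_ne {m : ℕ} (h0 : m ≠ 0) (hm : m < 5) : (m : ZMod p) ≠ 0 := by
  intro h
  have h1 := (ZMod.natCast_eq_zero_iff m p).mp h
  exact absurd (Nat.le_of_dvd (Nat.pos_of_ne_zero h0) h1) (by omega)

include hp5 in
theorem two_ne : (2 : ZMod p) ≠ 0 := by
  have := natCast_ne hp5 (m := 2) (by norm_num) (by norm_num)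
  exact_mod_cast this

include hp5 in
theorem three_ne : (3 : ZMod p) ≠ 0 := by
  have := natCast_ne hp5 (m := 3) (by norm_num) (by norm_num)
  exact_mod_cast this

include hp5 in
theorem natCast_ne' {m : ℕ} (h0 : m ≠ 0) (hm : m < 5) : (m : k) ≠ 0 := by
  rw [← map_natCast (algebraMap (ZMod p) k)]
  exact (map_ne_zero _).mpr (natCast_ne hp5 h0 hm)

include hρ hp5 in
/-- nonzero classes are nontrivial on the kernel -/
theorem exists_triv (hc : TwCoc ρ c)
    (hne : ¬ ∃ X : Matrix (Fin 2) (Fin 2) k, X.trace = 0 ∧ ∀ g, c g = tad k ρ g X - X) :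
    ∃ h, Triv ρ h ∧ c h ≠ 0 := by
  by_contra hcon
  push Not at hcon
  apply hne
  obtain ⟨z, hz⟩ := exists_of_det_ne_zero hρ ((2 : ZMod p) • (1 : Matrix (Fin 2) (Fin 2) (ZMod p)))
    (by
      rw [Matrix.det_smul, Matrix.det_one, mul_one, Fintype.card_fin]
      exact pow_ne_zero 2 (two_ne hp5))
  have hchi : chiK p (ZMod p) z = 4 := by
    rw [← hρ.det, hz, Matrix.det_smul, Matrix.det_one, mul_one, Fintype.card_fin]
    norm_num
  have hzz : ∀ X : Matrix (Fin 2) (Fin 2) k, tad k ρ z X = (4 : k) • X := by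
    intro X
    have h1 : FlatLoc.rk k ρ z = (2 : k) • (1 : Matrix (Fin 2) (Fin 2) k) := by
      change (algebraMap (ZMod p) k).mapMatrix (ρ z) = _
      rw [hz]
      ext i j
      rw [RingHom.mapMatrix_apply, Matrix.map_apply, Matrix.smul_apply, Matrix.smul_apply,
        smul_eq_mul, smul_eq_mul, map_mul, map_ofNat, Matrix.one_apply, Matrix.one_apply]
      split_ifs
      · rw [map_one]
      · rw [map_zero]
    have h2 := rk_inv (k := k) (ρ := ρ) z
    have h3 : FlatLoc.rk k ρ z * X * FlatLoc.rk k ρ z⁻¹ = X := by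
      have h4 : FlatLoc.rk k ρ z * X = X * FlatLoc.rk k ρ z := by
        rw [h1, Matrix.smul_mul, Matrix.mul_smul, one_mul, mul_one]
      rw [h4, mul_assoc, h2, mul_one]
    rw [tad, h3]
    congr 1
    change algebraMap (ZMod p) k (chiK p (ZMod p) z) = 4
    rw [hchi, map_ofNat]
  have h3 : (3 : k) ≠ 0 := by
    have := natCast_ne' (k := k) hp5 (m := 3) (by norm_num) (by norm_num)
    exact_mod_cast this
  refine ⟨(3 : k)⁻¹ • c z, by rw [Matrix.trace_smul, hc.tr, smul_zero], fun g => ?_⟩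
  -- the commutator
  have hT : Triv ρ (z * g * z⁻¹ * g⁻¹) := by
    refine ⟨?_, ?_⟩
    · have h4 : ρ z * ρ g = ρ g * ρ z := by
        rw [hz, Matrix.smul_mul, Matrix.mul_smul, one_mul, mul_one]
      rw [map_mul, map_mul, map_mul, h4, mul_assoc (ρ g), ← map_mul ρ z, mul_inv_cancel, map_one,
        mul_one, ← map_mul, mul_inv_cancel, map_one]
    · exact map_comm (cycP p) z g
  have e1 : z * g = (z * g * z⁻¹ * g⁻¹) * (g * z) := by group
  have e2 : c (z * g) = c (g * z) := by
    conv_lhs => rw [e1]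
    rw [hc.mul, hcon _ hT, hT.tad, zero_add]
  rw [hc.mul, hc.mul, hzz] at e2
  have e3 : (3 : k) • c g = tad k ρ g (c z) - c z := by
    have e4 : (4 : k) • c g = (3 : k) • c g + c g := by
      rw [show (4 : k) = 3 + 1 by norm_num, add_smul, one_smul]
    rw [e4] at e2
    have e5 : (3 : k) • c g = c g + tad k ρ g (c z) - c z - c g := by
      rw [← e2]
      abel
    rw [e5]
    abel
  rw [tad_smul, ← smul_sub, ← e3, smul_smul, inv_mul_cancel₀ h3, one_smul]

include hρ hp5 in
/-- conjugates detect trace zero matrices -/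
theorem exists_conj_ne {w : Matrix (Fin 2) (Fin 2) k} (hw : w ≠ 0) (ht : w.trace = 0) :
    ∃ g : GQ, (tad k ρ g w * (algebraMap (ZMod p) k).mapMatrix (DD p)).trace ≠ 0 := by
  have h2 : (2 : k) ≠ 0 := by
    have := natCast_ne' (k := k) hp5 (m := 2) (by norm_num) (by norm_num)
    exact_mod_cast this
  have h3 : (3 : k) ≠ 0 := by
    have := natCast_ne' (k := k) hp5 (m := 3) (by norm_num) (by norm_num)
    exact_mod_cast this
  have hD : (algebraMap (ZMod p) k).mapMatrix (DD p) = !![2, 0; 0, 2⁻¹] := by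
    ext i j
    rw [RingHom.mapMatrix_apply, Matrix.map_apply, DD]
    fin_cases i <;> fin_cases j <;> simp <;> exact map_ofNat _ 2
  have hchi : ∀ g : GQ, chk p k g ≠ 0 := by
    intro g h0
    have h4 : chk p k g * chk p k g⁻¹ = 1 := by rw [← map_mul, mul_inv_cancel, map_one]
    rw [h0, zero_mul] at h4
    exact zero_ne_one h4
  have key : ∀ (g : GQ) (a b c' d : ZMod p), ρ g = !![a, b; c', d] → a * d - b * c' = 1 →
      (tad k ρ g w * (algebraMap (ZMod p) k).mapMatrix (DD p)).trace =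
        chk p k g * (!![algebraMap (ZMod p) k a, algebraMap (ZMod p) k b;
          algebraMap (ZMod p) k c', algebraMap (ZMod p) k d] * w *
          !![algebraMap (ZMod p) k d, -algebraMap (ZMod p) k b;
          -algebraMap (ZMod p) k c', algebraMap (ZMod p) k a] * !![2, 0; 0, 2⁻¹]).trace := by
    intro g a b c' d hg hdet
    have e1 : FlatLoc.rk k ρ g = !![algebraMap (ZMod p) k a, algebraMap (ZMod p) k b;
          algebraMap (ZMod p) k c', algebraMap (ZMod p) k d] := by
      change (algebraMap (ZMod p) k).mapMatrix (ρ g) = _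
      rw [hg]
      ext i j
      rw [RingHom.mapMatrix_apply, Matrix.map_apply]
      fin_cases i <;> fin_cases j <;> rfl
    have e0 : ρ g⁻¹ = !![d, -b; -c', a] := by
      have h5 : ρ g⁻¹ * ρ g = 1 := by rw [← map_mul, inv_mul_cancel, map_one]
      have h6 : ρ g * !![d, -b; -c', a] = 1 := by
        rw [hg, Matrix.mul_fin_two, Matrix.one_fin_two]
        congr 1
        ext i j
        fin_cases i <;> fin_cases j <;> simp <;> first | linear_combination hdet | ring
      calc ρ g⁻¹ = ρ g⁻¹ * (ρ g * !![d, -b; -c', a]) := by rw [h6, mul_one]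
        _ = _ := by rw [← mul_assoc, h5, one_mul]
    have e2 : FlatLoc.rk k ρ g⁻¹ = !![algebraMap (ZMod p) k d, -algebraMap (ZMod p) k b;
          -algebraMap (ZMod p) k c', algebraMap (ZMod p) k a] := by
      change (algebraMap (ZMod p) k).mapMatrix (ρ g⁻¹) = _
      rw [e0]
      ext i j
      rw [RingHom.mapMatrix_apply, Matrix.map_apply]
      fin_cases i <;> fin_cases j <;> simp
    rw [tad, e1, e2, hD, Matrix.smul_mul, Matrix.trace_smul, smul_eq_mul]
  have hwt : w 1 1 = - w 0 0 := by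
    rw [Matrix.trace_fin_two] at ht
    linear_combination ht
  have hwe : w = !![w 0 0, w 0 1; w 1 0, - w 0 0] := by
    rw [← hwt]
    exact Matrix.eta_fin_two w
  by_cases h00 : w 0 0 = 0
  · rw [h00, neg_zero] at hwe
    by_cases h10 : w 1 0 = 0
    · have h01 : w 0 1 ≠ 0 := by
        intro h01
        apply hw
        rw [hwe, h10, h01]
        ext i j
        fin_cases i <;> fin_cases j <;> rfl
      obtain ⟨g, hg⟩ := exists_of_det_one hρ !![1, 0; 1, 1] (by
        rw [Matrix.det_fin_two_of]; ring)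
      refine ⟨g, ?_⟩
      rw [key g 1 0 1 1 hg (by ring)]
      refine mul_ne_zero (hchi g) ?_
      rw [hwe]
      simp only [map_one, map_zero, neg_zero, Matrix.mul_fin_two, Matrix.trace_fin_two_of, h10]
      intro h
      apply mul_ne_zero h3 h01
      field_simp at h
      linear_combination -h
    · obtain ⟨g, hg⟩ := exists_of_det_one hρ !![1, 1; 0, 1] (by
        rw [Matrix.det_fin_two_of]; ring)
      refine ⟨g, ?_⟩
      rw [key g 1 1 0 1 hg (by ring)]
      refine mul_ne_zero (hchi g) ?_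
      rw [hwe]
      simp only [map_one, map_zero, neg_zero, Matrix.mul_fin_two, Matrix.trace_fin_two_of]
      intro h
      apply mul_ne_zero h3 h10
      field_simp at h
      linear_combination h
  · refine ⟨1, ?_⟩
    rw [key 1 1 0 0 1 (by rw [map_one, Matrix.one_fin_two]) (by ring)]
    refine mul_ne_zero (hchi 1) ?_
    rw [hwe]
    simp only [map_one, map_zero, neg_zero, Matrix.mul_fin_two, Matrix.trace_fin_two_of]
    intro h
    apply mul_ne_zero h3 h00
    field_simp at h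
    linear_combination h

include hρ hp5 in
/-- an element with distinct eigenvalues -/
theorem exists_DD : ∃ g : GQ, cycP p g = 1 ∧ ρ g = DD p := by
  have h2 := two_ne hp5
  obtain ⟨a, ha⟩ := exists_of_det_ne_zero hρ !![2, 0; 0, 1] (by
    rw [Matrix.det_fin_two_of, mul_one, zero_mul, sub_zero]; exact h2)
  obtain ⟨b, hb⟩ := exists_of_det_ne_zero hρ !![0, 1; -1, 0] (by
    rw [Matrix.det_fin_two_of]; simp)
  refine ⟨a * b * a⁻¹ * b⁻¹, ?_, ?_⟩
  · exact map_comm (cycP p) a b
  · have hinv : ∀ (g : GQ) (X Y : Matrix (Fin 2) (Fin 2) (ZMod p)), ρ g = X → X * Y = 1 →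
        ρ g⁻¹ = Y := by
      intro g X Y hX hXY
      have h5 : ρ g⁻¹ * ρ g = 1 := by rw [← map_mul, inv_mul_cancel, map_one]
      calc ρ g⁻¹ = ρ g⁻¹ * (ρ g * Y) := by rw [hX, hXY, mul_one]
        _ = Y := by rw [← mul_assoc, h5, one_mul]
    have ha' : ρ a⁻¹ = !![2⁻¹, 0; 0, 1] := hinv a _ _ ha (by
      rw [Matrix.mul_fin_two, Matrix.one_fin_two]
      congr 1
      ext i j
      fin_cases i <;> fin_cases j <;> simp [mul_inv_cancel₀ h2])
    have hb' : ρ b⁻¹ = !![0, -1; 1, 0] := hinv b _ _ hb (by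
      rw [Matrix.mul_fin_two, Matrix.one_fin_two]
      congr 1
      ext i j
      fin_cases i <;> fin_cases j <;> simp)
    rw [map_mul, map_mul, map_mul, ha, hb, ha', hb', Matrix.mul_fin_two, Matrix.mul_fin_two,
      Matrix.mul_fin_two, DD]
    congr 1
    ext i j
    fin_cases i <;> fin_cases j <;> simp

include hρ hp5 in
/-- **elements detecting a nonzero class** -/
theorem exists_sigma (hc : TwCoc ρ c)
    (hne : ¬ ∃ X : Matrix (Fin 2) (Fin 2) k, X.trace = 0 ∧ ∀ g, c g = tad k ρ g X - X) :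
    ∃ σ : GQ, cycP p σ = 1 ∧ ρ σ = DD p ∧
      (c σ * (algebraMap (ZMod p) k).mapMatrix (DD p)).trace ≠ 0 := by
  obtain ⟨h, hh, hch⟩ := exists_triv hρ hp5 hc hne
  obtain ⟨g, hg⟩ := exists_conj_ne (k := k) hρ hp5 hch (hc.tr h)
  obtain ⟨σ, hσ1, hσ2⟩ := exists_DD hρ hp5
  by_cases h0 : (c σ * (algebraMap (ZMod p) k).mapMatrix (DD p)).trace = 0
  · refine ⟨σ * (g * h * g⁻¹), ?_, ?_, ?_⟩
    · rw [map_mul, hσ1, (hh.conj g).2, one_mul]
    · rw [map_mul, hσ2, (hh.conj g).1, mul_one]
    · rw [hc.mul, hc.conj hh, add_mul, Matrix.trace_add, h0, zero_add]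
      have h1 : (tad k ρ σ (tad k ρ g (c h)) * (algebraMap (ZMod p) k).mapMatrix (DD p)).trace =
          (tad k ρ g (c h) * (algebraMap (ZMod p) k).mapMatrix (DD p)).trace := by
        have h2 : FlatLoc.rk k ρ σ = (algebraMap (ZMod p) k).mapMatrix (DD p) := by
          change (algebraMap (ZMod p) k).mapMatrix (ρ σ) = _
          rw [hσ2]
        rw [← h2]
        have h3 : tad k ρ σ (tad k ρ g (c h)) = FlatLoc.rk k ρ σ * tad k ρ g (c h) *
            FlatLoc.rk k ρ σ⁻¹ := by
          rw [tad, chk_of_cycP hσ1, one_smul]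
        rw [h3, mul_assoc, rk_inv', mul_one, Matrix.trace_mul_comm]
      rw [h1]
      exact hg
  · exact ⟨σ, hσ1, hσ2, h0⟩

end

end Fermat.Agent.TWPr
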