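import Fermat.Agent.TWInst.Tame
import Fermat.Agent.S43Glue.FreyRep
import Mathlib.NumberTheory.LSeries.PrimesInAP

/-!
# Surjectivity of Frey-like representations
-/

set_option autoImplicit false
set_option maxHeartbeats 400000

noncomputable section

namespace Fermat.Agent.TWPr

open Matrix Fermat.Agent.DefRing Fermat.Agent.GalRep Fermat.Agent.S43Glue

local notation "Qbar" => AlgebraicClosure ℚ

section SL2

variable {F : Type} [Field F]

/-- matrices of determinant one are products of elementary matrices -/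
theorem mem_of_elementary (H : Set (Matrix (Fin 2) (Fin 2) F))
    (hmul : ∀ a ∈ H, ∀ b ∈ H, a * b ∈ H) (hu : ∀ t : F, !![1, t; 0, 1] ∈ H)
    (hl : ∀ t : F, !![1, 0; t, 1] ∈ H) (M : Matrix (Fin 2) (Fin 2) F) (hM : M.det = 1) :
    M ∈ H := by
  have key : ∀ M : Matrix (Fin 2) (Fin 2) F, M.det = 1 → M 1 0 ≠ 0 → M ∈ H := by
    intro M hM hz
    rw [Matrix.det_fin_two] at hM
    have e : M = !![1, (M 0 0 - 1) / M 1 0; 0, 1] * !![1, 0; M 1 0, 1] *
        !![1, (M 1 1 - 1) / M 1 0; 0, 1] := by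
      rw [Matrix.mul_fin_two, Matrix.mul_fin_two]
      ext i j
      fin_cases i <;> fin_cases j <;>
        simp only [Fin.zero_eta, Fin.mk_one, Fin.isValue, Matrix.of_apply, Matrix.cons_val',
          Matrix.cons_val_zero, Matrix.cons_val_one, Matrix.cons_val_fin_one]
      · field_simp; ring
      · field_simp; linear_combination -hM
      · field_simp; ring
      · field_simp; ring
    rw [e]
    exact hmul _ (hmul _ (hu _) _ (hl _)) _ (hu _)
  by_cases hz : M 1 0 = 0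
  · have h1 : M * !![1, 0; 1, 1] ∈ H := by
      refine key _ ?_ ?_
      · rw [Matrix.det_mul, hM, Matrix.det_fin_two_of]
        ring
      · rw [Matrix.mul_apply, Fin.sum_univ_two, hz]
        have h2 : M 1 1 ≠ 0 := by
          intro h3
          rw [Matrix.det_fin_two, hz, h3] at hM
          simp at hM
        simpa using h2
    have h2 : M = (M * !![1, 0; 1, 1]) * !![1, 0; -1, 1] := by
      rw [mul_assoc, Matrix.mul_fin_two]
      have h3 : (!![1 * 1 + 0 * -1, 1 * 0 + 0 * 1; 1 * 1 + 1 * -1, 1 * 0 + 1 * 1] :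
          Matrix (Fin 2) (Fin 2) F) = 1 := by
        ext i j
        fin_cases i <;> fin_cases j <;> simp
      rw [h3, mul_one]
    rw [h2]
    exact hmul _ h1 _ (hl _)
  · exact key M hM hz

end SL2

variable {p : ℕ} [hpf : Fact p.Prime] {ρ : GQ →* Matrix (Fin 2) (Fin 2) (ZMod p)}

/-- surjectivity of the mod `p` cyclotomic character -/
theorem exists_chiK (u : ZMod p) (hu : u ≠ 0) : ∃ g : GQ, chiK p (ZMod p) g = u := by
  obtain ⟨ℓ, hℓp, hℓ, hℓu⟩ := Nat.forall_exists_prime_gt_and_eq_mod (IsUnit.mk0 u hu) p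
  obtain ⟨A, hA, τ, hτ⟩ := Frob.exists_place_frobenius hℓ
  exact ⟨τ, by rw [chiK_frob p _ hℓ hA hℓp.ne' hτ, hℓu]⟩

/-- the image contains all the matrices of determinant one -/
theorem exists_of_det_one (hρ : FreyLike p ρ) (M : Matrix (Fin 2) (Fin 2) (ZMod p))
    (hM : M.det = 1) : ∃ g : GQ, ρ g = M := by
  obtain ⟨σ₀, h0, h1⟩ := hρ.exists_transvection
  obtain ⟨τ, v, v', c, c', hc, hc', hli, e1, e2, e3, e4⟩ := exists_two_lines ρ hρ.irr h0 h1
  set N := ρ σ₀ - 1 with hN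
  set N' := ρ (τ * σ₀ * τ⁻¹) - 1 with hN'
  have hτ : ρ τ * ρ τ⁻¹ = 1 := by rw [← map_mul, mul_inv_cancel, map_one]
  have hτ' : ρ τ⁻¹ * ρ τ = 1 := by rw [← map_mul, inv_mul_cancel, map_one]
  have hNN' : N' = ρ τ * N * ρ τ⁻¹ := by
    rw [hN', hN, map_mul, map_mul, mul_sub, sub_mul, mul_one, hτ]
  have h0' : N' * N' = 0 := by
    calc N' * N' = ρ τ * N * (ρ τ⁻¹ * ρ τ) * N * ρ τ⁻¹ := by
          rw [hNN']; simp only [mul_assoc]
      _ = ρ τ * (N * N) * ρ τ⁻¹ := by rw [hτ', mul_one]; simp only [mul_assoc]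
      _ = 0 := by rw [h0, mul_zero, zero_mul]
  let P : Matrix (Fin 2) (Fin 2) (ZMod p) := !![v 0, v' 0; v 1, v' 1]
  have hP : P.det ≠ 0 := by
    intro hd
    have hd' : v 0 * v' 1 - v' 0 * v 1 = 0 := by
      rw [← Matrix.det_fin_two_of]; exact hd
    rw [LinearIndependent.pair_iff] at hli
    have h2 := hli (v' 1) (-(v 1)) (by
      ext i
      fin_cases i
      · simp only [Fin.zero_eta, Pi.add_apply, Pi.smul_apply, smul_eq_mul, Pi.zero_apply]
        linear_combination hd'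
      · simp only [Fin.mk_one, Pi.add_apply, Pi.smul_apply, smul_eq_mul, Pi.zero_apply]
        ring)
    have h3 := hli (v' 0) (-(v 0)) (by
      ext i
      fin_cases i
      · simp only [Fin.zero_eta, Pi.add_apply, Pi.smul_apply, smul_eq_mul, Pi.zero_apply]
        ring
      · simp only [Fin.mk_one, Pi.add_apply, Pi.smul_apply, smul_eq_mul, Pi.zero_apply]
        linear_combination -hd')
    have h4 := hli 1 0 (by
      ext i
      have h5 : v 0 = 0 := by simpa using h3.2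
      have h6 : v 1 = 0 := by simpa using h2.2
      fin_cases i
      · simp [h5]
      · simp [h6])
    exact one_ne_zero h4.1
  have hcol : ∀ (Y : Matrix (Fin 2) (Fin 2) (ZMod p)) (x y : Fin 2 → ZMod p),
      Y *ᵥ v = x → Y *ᵥ v' = y → Y * P = !![x 0, y 0; x 1, y 1] := by
    intro Y x y hx hy
    subst hx hy
    ext i j
    rw [Matrix.mul_apply, Fin.sum_univ_two]
    fin_cases i <;> fin_cases j <;> simp [P, Matrix.mulVec, dotProduct, Fin.sum_univ_two]
  have hNP : N * P = P * !![0, c; 0, 0] := by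
    rw [hcol N _ _ e1 e2]
    ext i j
    rw [Matrix.mul_apply, Fin.sum_univ_two]
    fin_cases i <;> fin_cases j <;> simp [P, mul_comm]
  have hN'P : N' * P = P * !![0, 0; c', 0] := by
    rw [hcol N' _ _ e4 e3]
    ext i j
    rw [Matrix.mul_apply, Fin.sum_univ_two]
    fin_cases i <;> fin_cases j <;> simp [P, mul_comm]
  let H : Set (Matrix (Fin 2) (Fin 2) (ZMod p)) := {X | ∃ g, ρ g * P = P * X}
  have hHmul : ∀ a ∈ H, ∀ b ∈ H, a * b ∈ H := by
    rintro a ⟨g, hg⟩ b ⟨g', hg'⟩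
    exact ⟨g * g', by rw [map_mul, mul_assoc, hg', ← mul_assoc, hg, mul_assoc]⟩
  have hpow : ∀ (σ : GQ) (Y : Matrix (Fin 2) (Fin 2) (ZMod p)), ρ σ - 1 = Y → Y * Y = 0 →
      ∀ t : ZMod p, ρ (σ ^ (t.val : ℤ)) = 1 + t • Y := by
    intro σ Y hY hYY t
    rw [TWInst.zpow_unip (T := ρ) (σ₀ := σ) (by rw [hY, hYY]) (t.val : ℤ), hY]
    congr 1
    rw [Int.cast_natCast, ← nsmul_eq_mul]
    ext i j
    rw [Matrix.smul_apply, Matrix.smul_apply, nsmul_eq_mul, ZMod.natCast_zmod_val, smul_eq_mul]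
  have hu : ∀ t : ZMod p, !![1, t; 0, 1] ∈ H := by
    intro t
    refine ⟨σ₀ ^ ((t / c).val : ℤ), ?_⟩
    rw [hpow σ₀ N rfl h0, add_mul, one_mul, Matrix.smul_mul, hNP, ← Matrix.mul_smul]
    have h2 : P + P * ((t / c) • !![0, c; 0, 0]) = P * (1 + (t / c) • !![0, c; 0, 0]) := by
      rw [mul_add, mul_one]
    rw [h2]
    congr 1
    ext i j
    fin_cases i <;> fin_cases j <;> simp [div_mul_cancel₀ t hc]
  have hl : ∀ t : ZMod p, !![1, 0; t, 1] ∈ H := by
    intro t
    refine ⟨(τ * σ₀ * τ⁻¹) ^ ((t / c').val : ℤ), ?_⟩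
    rw [hpow _ N' rfl h0', add_mul, one_mul, Matrix.smul_mul, hN'P, ← Matrix.mul_smul]
    have h2 : P + P * ((t / c') • !![0, 0; c', 0]) = P * (1 + (t / c') • !![0, 0; c', 0]) := by
      rw [mul_add, mul_one]
    rw [h2]
    congr 1
    ext i j
    fin_cases i <;> fin_cases j <;> simp [div_mul_cancel₀ t hc']
  have hPu : IsUnit P.det := IsUnit.mk0 _ hP
  have h2 := mem_of_elementary H hHmul hu hl (P⁻¹ * M * P) (by
    rw [Matrix.det_mul, Matrix.det_mul, hM, mul_one, ← Matrix.det_mul,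
      Matrix.nonsing_inv_mul _ hPu, Matrix.det_one])
  obtain ⟨g, hg⟩ := h2
  refine ⟨g, ?_⟩
  have h3 : ρ g * P * P⁻¹ = ρ g := by rw [mul_assoc, Matrix.mul_nonsing_inv _ hPu, mul_one]
  rw [← h3, hg]
  rw [← mul_assoc, ← mul_assoc, Matrix.mul_nonsing_inv _ hPu, one_mul, mul_assoc,
    Matrix.mul_nonsing_inv _ hPu, mul_one]

/-- **the image of a Frey-like representation is everything** -/
theorem exists_of_det_ne_zero (hρ : FreyLike p ρ) (M : Matrix (Fin 2) (Fin 2) (ZMod p))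
    (hM : M.det ≠ 0) : ∃ g : GQ, ρ g = M := by
  obtain ⟨y, hy⟩ := exists_chiK M.det hM
  have hyy : ρ y * ρ y⁻¹ = 1 := by rw [← map_mul, mul_inv_cancel, map_one]
  have h1 : (ρ y⁻¹ * M).det = 1 := by
    have h2 := congrArg Matrix.det hyy
    rw [Matrix.det_mul, Matrix.det_one, hρ.det y, hy] at h2
    rw [Matrix.det_mul, mul_comm, h2]
  obtain ⟨g, hg⟩ := exists_of_det_one hρ _ h1
  exact ⟨y * g, by rw [map_mul, hg, ← mul_assoc, hyy, one_mul]⟩

end Fermat.Agent.TWPr
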